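import Fermat.Agent.S17.W2.Defs
import Mathlib.RingTheory.AlgebraicIndependent.Adjoin
import Mathlib.RingTheory.AlgebraicIndependent.TranscendenceBasis
import Mathlib.RingTheory.AlgebraicIndependent.Transcendental
import Mathlib.Combinatorics.Matroid.Rank.ENat
import Mathlib.Combinatorics.Matroid.Rank.Finite

/-!
# S17, package W2: field-theory leaves FT4 and FT5 (helper41)

* `H41.stmt_FT4 : Stmt_FT4 k Ω` (transcendence degree count);
* `H41.stmt_FT5 : Stmt_FT5 k Ω` (independence over an enlarged base).
-/

set_option autoImplicit false

noncomputable section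

namespace Fermat.Agent.S17.W2.H41

open IntermediateField Polynomial

/-- Transfer of algebraicity along a containment of images of the base rings. -/
theorem isAlgebraic_of_forall_exists {A B Ω : Type*} [CommRing A] [CommRing B] [Field Ω]
    [Algebra A Ω] [Algebra B Ω] (hA : Function.Injective (algebraMap A Ω))
    (h : ∀ a : A, ∃ b : B, algebraMap B Ω b = algebraMap A Ω a) {x : Ω}
    (hx : IsAlgebraic A x) : IsAlgebraic B x := by
  classical
  choose f hf using h
  obtain ⟨p, hp, hpx⟩ := hx
  set q : B[X] := ∑ i ∈ p.support, monomial i (f (p.coeff i)) with hq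
  have hmap : q.map (algebraMap B Ω) = p.map (algebraMap A Ω) := by
    rw [hq, Polynomial.map_sum]
    conv_rhs => rw [p.as_sum_support, Polynomial.map_sum]
    refine Finset.sum_congr rfl fun i _ => ?_
    rw [Polynomial.map_monomial, Polynomial.map_monomial, hf]
  refine ⟨q, ?_, ?_⟩
  · intro h0
    apply hp
    have : p.map (algebraMap A Ω) = 0 := by rw [← hmap, h0, Polynomial.map_zero]
    exact (Polynomial.map_eq_zero_iff hA).1 this
  · rw [Polynomial.aeval_def, ← Polynomial.eval_map, hmap, Polynomial.eval_map,
      ← Polynomial.aeval_def, hpx]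

variable {k Ω : Type} [Field k] [Field Ω] [Algebra k Ω]

/-- Elements of `k(s ∪ u)` lie in `k(s)(u)`. -/
theorem mem_adjoin_adjoin_of_mem_adjoin_union (s u : Set Ω) {x : Ω}
    (hx : x ∈ IntermediateField.adjoin k (s ∪ u)) :
    x ∈ IntermediateField.adjoin (IntermediateField.adjoin k s) u := by
  have hle : IntermediateField.adjoin k (s ∪ u) ≤
      (IntermediateField.adjoin (IntermediateField.adjoin k s) u).restrictScalars k := by
    rw [IntermediateField.adjoin_le_iff]
    rintro y (hy | hy)
    · exact (IntermediateField.adjoin (IntermediateField.adjoin k s) u).algebraMap_mem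
        (⟨y, IntermediateField.subset_adjoin k s hy⟩ : IntermediateField.adjoin k s)
    · exact IntermediateField.subset_adjoin (IntermediateField.adjoin k s) u hy
  exact hle hx

/-- Algebraicity over `k(s ∪ u)` gives algebraicity over the `k(s)`-algebra generated by `u`. -/
theorem isAlgebraic_algebraAdjoin_of_union (s u : Set Ω) {x : Ω}
    (hx : IsAlgebraic (IntermediateField.adjoin k (s ∪ u)) x) :
    IsAlgebraic (Algebra.adjoin (IntermediateField.adjoin k s) u) x := by
  have h1 : IsAlgebraic (IntermediateField.adjoin (IntermediateField.adjoin k s) u) x := by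
    refine isAlgebraic_of_forall_exists (A := IntermediateField.adjoin k (s ∪ u))
      (algebraMap (IntermediateField.adjoin k (s ∪ u)) Ω).injective (fun a => ?_) hx
    exact ⟨⟨a.1, mem_adjoin_adjoin_of_mem_adjoin_union s u a.2⟩, rfl⟩
  exact (IntermediateField.isAlgebraic_adjoin_iff).1 h1

/-- **FT4** (transcendence degree count). -/
theorem stmt_FT4 (k Ω : Type) [Field k] [Field Ω] [Algebra k Ω] : Stmt_FT4 k Ω := by
  classical
  intro s g r t q hrg ht halg
  set K := IntermediateField.adjoin k s with hK
  set M := AlgebraicIndependent.matroid K Ω with hM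
  have hInd : M.Indep (Set.range t) :=
    AlgebraicIndependent.matroid_indep_iff.2 ht.to_subtype_range
  have hsub : Set.range t ⊆ M.closure (Set.range q) := by
    rintro _ ⟨i, rfl⟩
    rw [hM, AlgebraicIndependent.matroid_closure_eq]
    exact (Subalgebra.mem_algebraicClosure _ _).2
      (isAlgebraic_algebraAdjoin_of_union s (Set.range q) (halg i))
  have h1 : (Set.range t).encard ≤ M.eRk (Set.range q) := by
    have := hInd.encard_le_eRk_of_subset hsub
    rwa [Matroid.eRk_closure_eq] at this
  have h2 : M.eRk (Set.range q) ≤ (Set.range q).encard := M.eRk_le_encard _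
  have h3 : (Set.range q).encard ≤ r := by
    rw [← Set.image_univ]
    refine (Set.encard_image_le q Set.univ).trans ?_
    rw [Set.encard_univ]
    simp
  have h4 : (Set.range t).encard = g := by
    rw [← Set.image_univ, ht.injective.encard_image, Set.encard_univ]
    simp
  have hgr : (g : ℕ∞) ≤ r := by
    rw [← h4]
    exact h1.trans (h2.trans h3)
  have hgr' : g ≤ r := by exact_mod_cast hgr
  have hrg' : r = g := le_antisymm hrg hgr'
  subst hrg'
  refine ⟨rfl, ?_⟩
  have h5 : (Set.range q).encard = r := le_antisymm h3 (by rw [← h4]; exact h1.trans h2)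
  have h6 : M.eRk (Set.range q) = (Set.range q).encard :=
    le_antisymm h2 (by rw [h5, ← h4]; exact h1)
  have hqInd : M.Indep (Set.range q) :=
    (Matroid.indep_iff_eRk_eq_encard_of_finite (Set.finite_range q)).2 h6
  have hqinj : Function.Injective q := by
    have hfin : (Set.univ : Set (Fin r)).Finite := Set.finite_univ
    have := hfin.injOn_of_encard_image_eq (f := q) (by
      rw [Set.image_univ, h5, Set.encard_univ]; simp)
    exact Set.injOn_univ.1 this
  exact (algebraicIndependent_subtype_range hqinj).1
    (AlgebraicIndependent.matroid_indep_iff.1 hqInd)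

/-- Elements of `k(s ∪ u ∪ T)` are algebraic over `k(s)(u)` when the elements of `T` are
algebraic over `k(s ∪ u)`. -/
theorem isAlgebraic_adjoin_adjoin_of_mem (s u T : Set Ω)
    (hT : ∀ c ∈ T, IsAlgebraic (IntermediateField.adjoin k (s ∪ u)) c) {x : Ω}
    (hx : x ∈ IntermediateField.adjoin k (s ∪ u ∪ T)) :
    IsAlgebraic (IntermediateField.adjoin (IntermediateField.adjoin k s) u) x := by
  induction hx using IntermediateField.adjoin_induction with
  | mem y hy =>
    rcases hy with hy | hy
    · have hy' := mem_adjoin_adjoin_of_mem_adjoin_union s u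
        (IntermediateField.subset_adjoin k _ hy)
      exact isAlgebraic_algebraMap
        (⟨y, hy'⟩ : IntermediateField.adjoin (IntermediateField.adjoin k s) u)
    · exact isAlgebraic_of_forall_exists (A := IntermediateField.adjoin k (s ∪ u))
        (algebraMap (IntermediateField.adjoin k (s ∪ u)) Ω).injective
        (fun c => ⟨⟨c.1, mem_adjoin_adjoin_of_mem_adjoin_union s u c.2⟩, rfl⟩) (hT y hy)
  | algebraMap c =>
    have h1 : algebraMap k Ω c ∈ IntermediateField.adjoin k s :=
      (IntermediateField.adjoin k s).algebraMap_mem c
    have h2 : algebraMap k Ω c ∈ IntermediateField.adjoin (IntermediateField.adjoin k s) u :=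
      (IntermediateField.adjoin (IntermediateField.adjoin k s) u).algebraMap_mem
        (⟨_, h1⟩ : IntermediateField.adjoin k s)
    exact isAlgebraic_algebraMap
      (⟨_, h2⟩ : IntermediateField.adjoin (IntermediateField.adjoin k s) u)
  | add x y hx hy ihx ihy => exact ihx.add ihy
  | inv x hx ih => exact ih.inv
  | mul x y hx hy ihx ihy => exact ihx.mul ihy

/-- **FT5** (independence over an enlarged base). -/
theorem stmt_FT5 (k Ω : Type) [Field k] [Field Ω] [Algebra k Ω] : Stmt_FT5 k Ω := by
  classical
  intro s ι ι' a b hsum T hT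
  have hswap : AlgebraicIndependent (IntermediateField.adjoin k s) (Sum.elim b a) :=
    (algebraicIndependent_equiv' (Equiv.sumComm ι' ι) (f := Sum.elim a b) (g := Sum.elim b a)
      (by ext (_ | _) <;> rfl)).2 hsum
  have hb : AlgebraicIndependent (Algebra.adjoin (IntermediateField.adjoin k s) (Set.range a)) b :=
    (AlgebraicIndependent.sumElim_iff.1 hswap).2
  have hb1 : AlgebraicIndependent
      (IntermediateField.adjoin (IntermediateField.adjoin k s) (Set.range a)) b :=
    IntermediateField.algebraicIndependent_adjoin_iff.2 hb
  have hb2 : AlgebraicIndependent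
      (algebraicClosure (IntermediateField.adjoin (IntermediateField.adjoin k s) (Set.range a)) Ω)
      b := hb1.algebraicClosure
  let f : IntermediateField.adjoin k (s ∪ Set.range a ∪ T) →+*
      algebraicClosure (IntermediateField.adjoin (IntermediateField.adjoin k s) (Set.range a)) Ω :=
    { toFun := fun x => ⟨x.1, mem_algebraicClosure_iff.2
        (isAlgebraic_adjoin_adjoin_of_mem s (Set.range a) T hT x.2)⟩
      map_one' := rfl
      map_mul' := fun _ _ => rfl
      map_zero' := rfl
      map_add' := fun _ _ => rfl }
  refine AlgebraicIndependent.of_ringHom_of_comp_eq (x := b) f (RingHom.id Ω) hb2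
    (fun x y h => Subtype.ext (congrArg (fun z => z.1) h)) (RingHom.ext fun x => rfl)

/-- Elements of the `k(s)`-algebra generated by `u` lie in `k(s ∪ u)`. -/
theorem mem_adjoin_union_of_mem_algebraAdjoin (s u : Set Ω) {x : Ω}
    (hx : x ∈ Algebra.adjoin (IntermediateField.adjoin k s) u) :
    x ∈ IntermediateField.adjoin k (s ∪ u) := by
  induction hx using Algebra.adjoin_induction with
  | mem y hy => exact IntermediateField.subset_adjoin k _ (Or.inr hy)
  | algebraMap c =>
    exact IntermediateField.adjoin.mono k s (s ∪ u) Set.subset_union_left c.2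
  | add x y hx hy ihx ihy => exact add_mem ihx ihy
  | mul x y hx hy ihx ihy => exact mul_mem ihx ihy

/-- **FT6** (existence of independent families). -/
theorem stmt_FT6 (k Ω : Type) [Field k] [Field Ω] [Algebra k Ω] : Stmt_FT6 k Ω := by
  classical
  intro hBig s hs g
  induction g with
  | zero => exact ⟨Fin.elim0, algebraicIndependent_empty_type⟩
  | succ g ih =>
    obtain ⟨t, ht⟩ := ih
    obtain ⟨x, hx⟩ := hBig (s ∪ Set.range t) (hs.union (Set.finite_range t))
    have hx' : Transcendental (Algebra.adjoin (IntermediateField.adjoin k s) (Set.range t)) x := by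
      intro halg
      apply hx
      exact isAlgebraic_of_forall_exists
        (A := Algebra.adjoin (IntermediateField.adjoin k s) (Set.range t))
        Subtype.val_injective
        (fun c => ⟨⟨c.1, mem_adjoin_union_of_mem_algebraAdjoin s (Set.range t) c.2⟩, rfl⟩) halg
    have h2 : AlgebraicIndependent (IntermediateField.adjoin k s)
        (fun o : Option (Fin g) => o.elim x t) := (ht.option_iff_transcendental x).2 hx'
    refine ⟨fun i => (finSuccEquiv g i).elim x t, ?_⟩
    exact (algebraicIndependent_equiv' (finSuccEquiv g)
      (f := fun o : Option (Fin g) => o.elim x t) rfl).2 h2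

end Fermat.Agent.S17.W2.H41
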