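import Fermat.Agent.RED.Defs
import Fermat.Agent.GTor.Defs
import Fermat.Prelude.Def_AlgebraicCurve_BaseChangeGalois
import Mathlib.FieldTheory.Galois.Basic
import Mathlib.RingTheory.AlgebraicIndependent.TranscendenceBasis

/-!
# S17, package W2 (`n`-divisibility of `Pic⁰` over an algebraically closed field): interfaces

Route "orbits + canonical divisors" (helper8).  `k ⊆ Ω` fields, `Ω` algebraically closed, `F / Ω` a
function field of one variable on which `G = Aut(Ω / k)` acts by semilinear automorphisms.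

* `Setting k Ω F`: the action, a `G`-fixed function `j` and a `G`-fixed place `oo`.
* `Big k Ω`: `Ω` is not algebraic over any finitely generated extension of `k`.
* `GenStab`, `GenTrans`: the two geometric inputs (generic places are fixed by a small subgroup,
  generic places are conjugate).
* `Stmt_Core`: the abstract divisibility theorem.
-/

set_option autoImplicit false

noncomputable section

namespace Fermat.Agent.S17.W2

open AlgebraicCurve IntermediateField

variable (k Ω F : Type) [Field k] [Field Ω] [Field F] [Algebra k Ω] [Algebra Ω F]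

/-- The action of `Aut(Ω / k)` on `F`, with a fixed function and a fixed place. -/
structure Setting where
  /-- the semilinear action -/
  ρ : (Ω ≃ₐ[k] Ω) →* SemilinearAut Ω F
  baseAut_ρ : ∀ (σ : Ω ≃ₐ[k] Ω) (a : Ω), SemilinearAut.baseAut (ρ σ) a = σ a
  /-- the coordinate function -/
  j : F
  ρ_j : ∀ σ : Ω ≃ₐ[k] Ω, ρ σ • j = j
  /-- the base place -/
  oo : Place Ω F
  ρ_oo : ∀ σ : Ω ≃ₐ[k] Ω, ρ σ • oo = oo

variable {k Ω F}

/-- `P` is a zero of `j - t`, i.e. `j(P) = t`. -/
def Setting.IsZeroAt (S : Setting k Ω F) (P : Place Ω F) (t : Ω) : Prop :=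
  0 < P.ord (S.j - algebraMap Ω F t)

variable (k Ω)

/-- The automorphisms of `Ω` fixing `k` and the set `s`. -/
abbrev Gs (s : Set Ω) : Subgroup (Ω ≃ₐ[k] Ω) := (IntermediateField.adjoin k s).fixingSubgroup

/-- `Ω` has infinite transcendence degree over `k`. -/
def Big : Prop :=
  ∀ s : Set Ω, s.Finite → ∃ x : Ω, Transcendental (IntermediateField.adjoin k s) x

variable {k Ω}

/-- **GenStab**: a place whose `j`-value `t` is transcendental over `k(s)` is fixed by the
automorphisms fixing `k(s, t, T)` for a finite set `T` of elements algebraic over `k(s, t)`. -/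
def GenStab (S : Setting k Ω F) : Prop :=
  ∀ (s : Set Ω), s.Finite → ∀ (P : Place Ω F) (t : Ω), S.IsZeroAt P t →
    Transcendental (IntermediateField.adjoin k s) t →
    ∃ T : Set Ω, T.Finite ∧ (∀ c ∈ T, IsAlgebraic (IntermediateField.adjoin k (insert t s)) c) ∧
      ∀ σ ∈ Gs k Ω (insert t s ∪ T), S.ρ σ • P = P

/-- **GenTrans**: two places with `j`-values transcendental over `k(s)` are conjugate under
`Aut(Ω / k(s))`. -/
def GenTrans (S : Setting k Ω F) : Prop :=
  ∀ (s : Set Ω), s.Finite → ∀ (P Q : Place Ω F) (t t' : Ω), S.IsZeroAt P t → S.IsZeroAt Q t' →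
    Transcendental (IntermediateField.adjoin k s) t →
    Transcendental (IntermediateField.adjoin k s) t' →
    ∃ σ ∈ Gs k Ω s, S.ρ σ • P = Q

/-- **CORE**: `Pic⁰(F)` is `n`-divisible. -/
def Stmt_Core (S : Setting k Ω F) (n : ℕ) : Prop :=
  Fermat.Agent.RED.IsFF Ω F → (∀ c : Ω, S.j ≠ algebraMap Ω F c) → Big k Ω → GenStab S →
    GenTrans S →
    {x : Pic0 Ω F | n • x = 0}.Finite → ∀ x : Pic0 Ω F, ∃ y : Pic0 Ω F, n • y = x

/-! ## Field theory (package FT) -/

/-- **FT1**: an element with finite orbit under `Aut(Ω / k(s))` is algebraic over `k(s)`. -/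
def Stmt_FT1 (k Ω : Type) [Field k] [Field Ω] [Algebra k Ω] : Prop :=
  Big k Ω → ∀ (s : Set Ω), s.Finite → ∀ c : Ω,
    {d : Ω | ∃ σ ∈ Gs k Ω s, σ c = d}.Finite → IsAlgebraic (IntermediateField.adjoin k s) c

/-- **FT3**: two `K`-embeddings into `Ω` of a field `E` algebraic over `K(x)`, `x` transcendental,
are conjugate under `Aut(Ω / K)`, `K = k(s)`. -/
def Stmt_FT3 (k Ω : Type) [Field k] [Field Ω] [Algebra k Ω] : Prop :=
  Big k Ω → ∀ (s : Set Ω), s.Finite →
    ∀ (E : Type) [Field E] [Algebra (IntermediateField.adjoin k s) E] (x : E),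
      Algebra.IsAlgebraic (IntermediateField.adjoin (IntermediateField.adjoin k s) {x}) E →
      ∀ φ φ' : E →ₐ[IntermediateField.adjoin k s] Ω,
        ∃ σ ∈ Gs k Ω s, ∀ e : E, σ (φ e) = φ' e

/-- **FT4**: transcendence degree count. -/
def Stmt_FT4 (k Ω : Type) [Field k] [Field Ω] [Algebra k Ω] : Prop :=
  ∀ (s : Set Ω) (g r : ℕ) (t : Fin g → Ω) (q : Fin r → Ω), r ≤ g →
    AlgebraicIndependent (IntermediateField.adjoin k s) t →
    (∀ i, IsAlgebraic (IntermediateField.adjoin k (s ∪ Set.range q)) (t i)) →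
    r = g ∧ AlgebraicIndependent (IntermediateField.adjoin k s) q

/-- **FT5**: independence is kept when part of the family and algebraic elements over it are
adjoined to the base. -/
def Stmt_FT5 (k Ω : Type) [Field k] [Field Ω] [Algebra k Ω] : Prop :=
  ∀ (s : Set Ω) (ι ι' : Type) (a : ι → Ω) (b : ι' → Ω),
    AlgebraicIndependent (IntermediateField.adjoin k s) (Sum.elim a b) →
    ∀ T : Set Ω, (∀ c ∈ T, IsAlgebraic (IntermediateField.adjoin k (s ∪ Set.range a)) c) →
      AlgebraicIndependent (IntermediateField.adjoin k (s ∪ Set.range a ∪ T)) b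

/-- **FT6**: over a big field there are algebraically independent tuples of every length. -/
def Stmt_FT6 (k Ω : Type) [Field k] [Field Ω] [Algebra k Ω] : Prop :=
  Big k Ω → ∀ (s : Set Ω), s.Finite → ∀ g : ℕ,
    ∃ t : Fin g → Ω, AlgebraicIndependent (IntermediateField.adjoin k s) t

/-! ## The modular instance (packages GEO and A) -/

open Fermat.Agent.GTor ModularCurve in
/-- **GEO**: over an algebraically closed `Ω ⊇ ℚ̄` there is a `Setting` on `F = Ω(X₀(N))` (the
coefficientwise action of `Aut(Ω / ℚ̄)` on `q`-expansions, `j`, the place `q = 0`) with `j`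
non-constant and the two genericity properties. -/
def Stmt_GEO (Ω : Type) [Field Ω] [Algebra ℚ Ω] [Algebra (AlgebraicClosure ℚ) Ω] (N : ℕ) : Prop :=
  ∃ S : Setting (AlgebraicClosure ℚ) Ω (FNL Ω N),
    (∀ c : Ω, S.j ≠ algebraMap Ω (FNL Ω N) c) ∧ GenStab S ∧ GenTrans S

open Fermat.Agent.GTor ModularCurve in
/-- **A** (descent `ℂ → ℚ̄`): if `Pic⁰(ℂ(X₀(N)))` is `n`-divisible, so is `J₀(N)(ℚ̄)`. -/
def Stmt_A (N n : ℕ) : Prop :=
  (∀ z : Pic0 ℂ (FNL ℂ N), ∃ y : Pic0 ℂ (FNL ℂ N), n • y = z) →
    ∀ x : JZero N, ∃ y : JZero N, n • y = x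

end Fermat.Agent.S17.W2
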