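/-
S17, package W2, field theory (FT), helper56: extension of isomorphisms to algebraically closed
fields along transcendence bases, and the infinitude of transcendence bases under `Big`.
-/
import Fermat.Agent.S17.W2.Defs

set_option autoImplicit false
set_option linter.style.haveILetI false

noncomputable section

namespace Fermat.Agent.S17.W2.H56

open Algebra IntermediateField

/-- Two algebraically closed fields with transcendence bases `v`, `w` over a field `R` and a
bijection `e` of the index sets: there is an `R`-isomorphism `σ` with `σ (v i) = w (e i)`. -/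
theorem exists_algEquiv_of_transcendenceBasis {R K L : Type} [Field R] [Field K] [Field L]
    [Algebra R K] [Algebra R L] [IsAlgClosed K] [IsAlgClosed L] {ι κ : Type} (v : ι → K)
    (w : κ → L) (hv : IsTranscendenceBasis R v) (hw : IsTranscendenceBasis R w) (e : ι ≃ κ) :
    ∃ σ : K ≃ₐ[R] L, ∀ i, σ (v i) = w (e i) := by
  classical
  haveI := IsAlgClosed.isAlgClosure_of_transcendence_basis v hv
  haveI := IsAlgClosed.isAlgClosure_of_transcendence_basis w hw
  let eA : Algebra.adjoin R (Set.range v) ≃ₐ[R] Algebra.adjoin R (Set.range w) :=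
    hv.1.aevalEquiv.symm.trans ((MvPolynomial.renameEquiv R e).trans hw.1.aevalEquiv)
  let σ : K ≃+* L := IsAlgClosure.equivOfEquiv K L eA.toRingEquiv
  have hσ : ∀ a : Algebra.adjoin R (Set.range v),
      σ (algebraMap _ K a) = algebraMap _ L (eA a) := fun a =>
    IsAlgClosure.equivOfEquiv_algebraMap K L eA.toRingEquiv a
  have hk : ∀ c : R, σ (algebraMap R K c) = algebraMap R L c := by
    intro c
    have h1 : algebraMap R K c
        = algebraMap (Algebra.adjoin R (Set.range v)) K (algebraMap R _ c) := rfl
    have h2 : algebraMap R L c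
        = algebraMap (Algebra.adjoin R (Set.range w)) L (algebraMap R _ c) := rfl
    rw [h1, hσ, AlgEquiv.commutes, ← h2]
  refine ⟨AlgEquiv.ofRingEquiv (f := σ) hk, fun i => ?_⟩
  have hvi : v i = algebraMap (Algebra.adjoin R (Set.range v)) K
      (hv.1.aevalEquiv (MvPolynomial.X i)) := by
    simp [AlgebraicIndependent.aevalEquiv]
  have hvei : w (e i) = algebraMap (Algebra.adjoin R (Set.range w)) L
      (hw.1.aevalEquiv (MvPolynomial.X (e i))) := by
    simp [AlgebraicIndependent.aevalEquiv]
  show σ (v i) = w (e i)
  rw [hvi, hσ, hvei]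
  congr 1
  simp [eA]

variable {k Ω : Type} [Field k] [Field Ω] [Algebra k Ω]

/-- Algebraicity over `k(s)(B)` gives algebraicity over `k(s ∪ B)`. -/
lemma isAlgebraic_adjoin_union (s B : Set Ω) {x : Ω}
    (h : IsAlgebraic (IntermediateField.adjoin (IntermediateField.adjoin k s) B) x) :
    IsAlgebraic (IntermediateField.adjoin k (s ∪ B)) x := by
  have hle : ∀ y ∈ IntermediateField.adjoin (IntermediateField.adjoin k s) B,
      y ∈ IntermediateField.adjoin k (s ∪ B) := by
    intro y hy
    rw [← IntermediateField.adjoin_adjoin_left k s B]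
    exact hy
  let f : IntermediateField.adjoin (IntermediateField.adjoin k s) B →+*
      IntermediateField.adjoin k (s ∪ B) :=
    { toFun := fun y => ⟨y, hle y y.2⟩
      map_one' := rfl
      map_mul' := fun _ _ => rfl
      map_zero' := rfl
      map_add' := fun _ _ => rfl }
  have := h.ringHom_of_comp_eq f (RingHom.id Ω)
    (fun a b hab => Subtype.ext (congrArg (fun z : IntermediateField.adjoin k (s ∪ B) =>
      (z : Ω)) hab)) (by ext; rfl)
  simpa using this

/-- Under `Big`, every transcendence basis of `Ω` over `k(s)`, `s` finite, is infinite. -/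
theorem infinite_of_big (hbig : Big k Ω) (s : Set Ω) (hs : s.Finite) (B : Set Ω)
    (hB : IsTranscendenceBasis (IntermediateField.adjoin k s) ((↑) : B → Ω)) : B.Infinite := by
  intro hfin
  obtain ⟨x, hx⟩ := hbig (s ∪ B) (hs.union hfin)
  apply hx
  apply isAlgebraic_adjoin_union
  have := hB.isAlgebraic_field
  rw [Subtype.range_coe] at this
  exact this.isAlgebraic x

end Fermat.Agent.S17.W2.H56
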