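/-
S17, package W2, field theory: **FT1** (helper56): an element of an algebraically closed field `Ω`
with finite orbit under `Aut(Ω / k(s))` is algebraic over `k(s)`.

Proof: a transcendental `c` lies in a transcendence basis `B` of `Ω / k(s)`, which is infinite by
`Big`; the transposition `(c b)` of `B` extends to an automorphism, so the orbit of `c` contains
`B`.
-/
import Fermat.Agent.S17.W2.H56_Ext

set_option autoImplicit false
set_option linter.style.haveILetI false

noncomputable section

namespace Fermat.Agent.S17.W2.H56

open Algebra IntermediateField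

/-- **FT1**. -/
theorem stmt_FT1 (k Ω : Type) [Field k] [Field Ω] [Algebra k Ω] [IsAlgClosed Ω] :
    Stmt_FT1 k Ω := by
  classical
  intro hbig s hs c hfin
  by_contra hc
  have hind : AlgebraicIndepOn (IntermediateField.adjoin k s) id ({c} : Set Ω) := by
    change AlgebraicIndependent (IntermediateField.adjoin k s)
      (fun x : ({c} : Set Ω) => id (x : Ω))
    rw [algebraicIndependent_unique_type_iff]
    exact hc
  obtain ⟨B, hcB, hB⟩ := exists_isTranscendenceBasis_superset hind
  have hcB' : c ∈ B := hcB (Set.mem_singleton c)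
  have hsub : B ⊆ {d : Ω | ∃ σ ∈ Gs k Ω s, σ c = d} := by
    intro b hb
    obtain ⟨σ, hσ⟩ := exists_algEquiv_of_transcendenceBasis
      (R := IntermediateField.adjoin k s) (K := Ω) (L := Ω) ((↑) : B → Ω) ((↑) : B → Ω) hB hB
      (Equiv.swap ⟨c, hcB'⟩ ⟨b, hb⟩)
    refine ⟨σ.restrictScalars k, ?_, ?_⟩
    · intro x
      exact σ.commutes x
    · have := hσ ⟨c, hcB'⟩
      simpa using this
  exact infinite_of_big hbig s hs B hB (hfin.subset hsub)

end Fermat.Agent.S17.W2.H56
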