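import Fermat.Agent.S17.W2.H75_ADiv
import Fermat.Agent.S17.W2.Defs
import Fermat.Agent.GTor.H75_DescCoreGen
import Fermat.Agent.GTor.H33_DescUp
import Fermat.Agent.GTor.H33_CurveL
import Fermat.Agent.GTor.H33_Trdeg
import Fermat.Agent.GTor.H56_FinUnr
import Fermat.Agent.GTor.H81_TatePieceFinal

/-!
# S17-W2, leaf A (helper75): descent `ℂ → ℚ̄` of `n`-divisibility of `Pic⁰`

`Stmt_A N n`: if `Pic⁰(ℂ(X₀(N)))` is `n`-divisible, then so is `J₀(N)(ℚ̄)`.
Route: torsor form of DESC-CORE (`GTor.H75.descCoreGen`) applied to `φ` with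
`div φ = -n E + bc_* D₀`; the hypothesis (`σ φ / φ` unramified modulo `n` for
`σ ∈ Aut(ℂ / ℚ̄)`) holds because the Gauss extension of a place of degree one is unique, hence
fixed by `σ`.
-/

set_option autoImplicit false
set_option linter.style.haveILetI false
set_option linter.unusedSectionVars false
set_option maxHeartbeats 1000000

noncomputable section

namespace Fermat.Agent.S17.W2.H75

open AlgebraicCurve ModularCurve Fermat.Agent.GTor

section General

variable (k K : Type) [Field k] [Field K] [Algebra ℚ k] [Algebra ℚ K]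
variable (F₀ : IntermediateField ℚ (LaurentSeries ℚ))

set_option synthInstance.maxHeartbeats 400000 in
/-- uniqueness of the extension of a place of degree one to the base change -/
theorem bc_place_unique (ι : k →+* K) (v : Place k ↥(laurentBaseChange k F₀)) (hdeg : v.deg = 1)
    (w w' : Place K ↥(laurentBaseChange K F₀))
    (hw : ∀ g, w.ord (GTor.H75.bcHom ι F₀ g) = v.ord g)
    (hw' : ∀ g, w'.ord (GTor.H75.bcHom ι F₀ g) = v.ord g) : w = w' := by
  letI : Algebra k K := ι.toAlgebra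
  letI : Algebra k ↥(laurentBaseChange K F₀) :=
    ((algebraMap K ↥(laurentBaseChange K F₀)).comp ι).toAlgebra
  haveI : IsScalarTower k K ↥(laurentBaseChange K F₀) := IsScalarTower.of_algebraMap_eq fun _ => rfl
  let ψ : ↥(laurentBaseChange k F₀) →ₐ[k] ↥(laurentBaseChange K F₀) :=
    { GTor.H75.bcHom ι F₀ with commutes' := fun c => GTor.H75.bcHom_algebraMap ι F₀ c }
  have hgen : ∀ m : ↥(laurentBaseChange K F₀), ∃ x y : TensorProduct k ↥(laurentBaseChange k F₀) K,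
      m = H33.tensorToField ψ x / H33.tensorToField ψ y :=
    H33.exists_quot_of_closure ψ (H33.closure_bcHom_eq_top k K F₀ ι)
  exact place_unique ψ v w hw hdeg hgen w' hw'

/-- the Gauss extension is fixed by the automorphisms of `K` over `k` -/
theorem smul_place_eq (ι : k →+* K) (σ : K ≃ₐ[ℚ] K) (hσ : ∀ c, σ (ι c) = ι c)
    (v : Place k ↥(laurentBaseChange k F₀)) (hdeg : v.deg = 1)
    (w : Place K ↥(laurentBaseChange K F₀))
    (hw : ∀ g, w.ord (GTor.H75.bcHom ι F₀ g) = v.ord g) :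
    arithmeticGalois F₀ σ • w = w := by
  refine bc_place_unique k K F₀ ι v hdeg _ w (fun g => ?_) hw
  have h1 : arithmeticGalois F₀ σ • (GTor.H75.bcHom ι F₀ g) = GTor.H75.bcHom ι F₀ g := by
    apply Subtype.ext
    show coeffMap (σ : K →+* K) (coeffMap ι (g : LaurentSeries k)) = coeffMap ι (g : LaurentSeries k)
    rw [coeffMap_coeffMap]
    exact coeffMap_congr (RingHom.ext fun c => hσ c) _
  have h2 := SemilinearAut.ord_smul (arithmeticGalois F₀ σ) w (GTor.H75.bcHom ι F₀ g)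
  rw [h1] at h2
  rw [h2, hw]

end General

section Modular

variable (N n : ℕ) [NeZero N]

theorem descent_modular (hn : n ≠ 0) (ι : AlgebraicClosure ℚ →+* ℂ)
    (wOf : Place (AlgebraicClosure ℚ) (FNL (AlgebraicClosure ℚ) N) → Place ℂ (FNL ℂ N))
    (hwOf : ∀ v g, (wOf v).ord (GTor.H75.bcHom ι (modularFunctionFieldFull N) g) = v.ord g)
    (hdeg₁ : ∀ v : Place (AlgebraicClosure ℚ) (FNL (AlgebraicClosure ℚ) N), v.deg = 1)
    (D₀ : Divisor (AlgebraicClosure ℚ) (FNL (AlgebraicClosure ℚ) N))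
    (E : Divisor ℂ (FNL ℂ N)) (φ : FNL ℂ N) (hφ0 : φ ≠ 0)
    (hφ : ∀ w : Place ℂ (FNL ℂ N),
      w.ord φ = -((n : ℤ) * E w) + (Finsupp.mapDomain wOf D₀ : Divisor ℂ (FNL ℂ N)) w) :
    ∃ (φ₀ : FNL (AlgebraicClosure ℚ) N) (h : FNL ℂ N), φ₀ ≠ 0 ∧ h ≠ 0 ∧
      φ = GTor.H75.bcHom ι (modularFunctionFieldFull N) φ₀ * h ^ n := by
  classical
  have hfin : Finite (UnrKummer ℂ (FNL ℂ N) n) :=
    H56.finite_unrKummer N n hn (H81.stmt_BETTI_final N n hn)
  refine GTor.H75.descCoreGen (AlgebraicClosure ℚ) ℂ (modularFunctionFieldFull N) ι n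
    (Nat.pos_of_ne_zero hn) (H33.exists_not_isAlgebraic_complex ι) hfin φ hφ0 ?_
  intro σ hσ w
  -- the automorphism as a `ℚ`-algebra automorphism
  let σ' : ℂ ≃ₐ[ℚ] ℂ := AlgEquiv.ofRingEquiv (f := σ) (fun q => by
    exact RingHom.map_rat_algebraMap (σ : ℂ →+* ℂ) q)
  set g := arithmeticGalois (modularFunctionFieldFull N) σ' with hg
  have hgφ : GTor.H75.bcHom (σ : ℂ →+* ℂ) (modularFunctionFieldFull N) φ = g • φ := by
    apply Subtype.ext
    rfl
  have hord : w.ord (g • φ) = (g⁻¹ • w).ord φ := by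
    have := SemilinearAut.ord_smul g (g⁻¹ • w) φ
    rwa [smul_inv_smul] at this
  have hσ' : ∀ c, σ' (ι c) = ι c := hσ
  have hσ'inv : ∀ c, σ'⁻¹ (ι c) = ι c := fun c => by
    have := hσ' c
    calc σ'⁻¹ (ι c) = σ'⁻¹ (σ' (ι c)) := by rw [this]
      _ = ι c := σ'.symm_apply_apply _
  have hfix : ∀ v, g • wOf v = wOf v := fun v =>
    smul_place_eq _ ℂ _ ι σ' hσ' v (hdeg₁ v) (wOf v) (hwOf v)
  have hfixinv : ∀ v, g⁻¹ • wOf v = wOf v := fun v => by
    rw [hg, ← map_inv]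
    exact smul_place_eq _ ℂ _ ι σ'⁻¹ hσ'inv v (hdeg₁ v) (wOf v) (hwOf v)
  have hB : (Finsupp.mapDomain wOf D₀ : Divisor ℂ (FNL ℂ N)) (g⁻¹ • w)
      = (Finsupp.mapDomain wOf D₀ : Divisor ℂ (FNL ℂ N)) w := by
    by_cases hr : w ∈ Set.range wOf
    · obtain ⟨v, rfl⟩ := hr
      rw [hfixinv]
    · have hr' : g⁻¹ • w ∉ Set.range wOf := by
        rintro ⟨v, hv⟩
        apply hr
        refine ⟨v, ?_⟩
        have : g • (g⁻¹ • w) = g • wOf v := by rw [hv]
        rw [smul_inv_smul, hfix] at this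
        exact this.symm
      rw [Finsupp.mapDomain_of_notMem_range _ _ hr, Finsupp.mapDomain_of_notMem_range _ _ hr']
  rw [hgφ, hord, hφ, hφ, hB]
  refine ⟨E w - E (g⁻¹ • w), ?_⟩
  ring

/-- **S17-W2, leaf A.** -/
theorem stmt_A (hn : n ≠ 0) : Stmt_A N n := by
  intro hdiv
  haveI : Algebra.IsAlgebraic ℚ (AlgebraicClosure ℚ) := AlgebraicClosure.isAlgebraic ℚ
  let ι : AlgebraicClosure ℚ →+* ℂ :=
    (IsAlgClosed.lift : AlgebraicClosure ℚ →ₐ[ℚ] ℂ).toRingHom
  have hdeg₁ : ∀ v : Place (AlgebraicClosure ℚ) (FNL (AlgebraicClosure ℚ) N), v.deg = 1 := by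
    intro v
    haveI := H33.finiteDimensional_FNL (AlgebraicClosure ℚ) N
    exact Fermat.Agent.S24.ff_deg_eq_one (H33.jL (AlgebraicClosure ℚ) N)
      (H33.transcendental_jL (AlgebraicClosure ℚ) N) v
  have hdeg₂ : ∀ w : Place ℂ (FNL ℂ N), w.deg = 1 := by
    intro w
    haveI := H33.finiteDimensional_FNL ℂ N
    exact Fermat.Agent.S24.ff_deg_eq_one (H33.jL ℂ N) (H33.transcendental_jL ℂ N) w
  choose wOf hwOf using fun v =>
    H33.stmt_DescPlaceUp (AlgebraicClosure ℚ) ℂ (modularFunctionFieldFull N) ι v (hdeg₁ v)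
  haveI := H33.hasPrincipalDivisors_FNL (AlgebraicClosure ℚ) N
  exact divisible_of_descent (GTor.H75.bcHom ι (modularFunctionFieldFull N)) n hn wOf hwOf
    hdeg₁ hdeg₂ (descent_modular N n hn ι wOf hwOf hdeg₁) hdiv

end Modular

end Fermat.Agent.S17.W2.H75
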