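import Fermat.Agent.S17.W2.Core
import Fermat.Agent.S17.W2.H75_A
import Fermat.Agent.S17.W2.H56_FT1
import Fermat.Agent.S17.W2.H41_FT45
import Fermat.Agent.S17.WeakMW

/-!
# S17-W2: assembly (helper8)

`stmt_divisible_of`: `Stmt_divisible N n` from the single remaining leaf GEO
(FT1, FT4, FT5, FT6 and A are landed).
-/

set_option autoImplicit false

noncomputable section

namespace Fermat.Agent.S17.W2

open AlgebraicCurve ModularCurve Fermat.Agent.GTor Cardinal

/-- A countable field inside an uncountable algebraically closed field: `Big`. -/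
theorem big_of_countable (k Ω : Type) [Field k] [Field Ω] [Algebra k Ω] (hk : #k ≤ ℵ₀)
    (hΩ : ℵ₀ < #Ω) : Big k Ω := by
  intro s hs
  by_contra hcon
  push Not at hcon
  have halg : Algebra.IsAlgebraic (IntermediateField.adjoin k s) Ω :=
    ⟨fun x => not_not.mp (hcon x)⟩
  have h1 : #Ω ≤ max #(IntermediateField.adjoin k s) ℵ₀ :=
    Algebra.IsAlgebraic.cardinalMk_le_max (IntermediateField.adjoin k s) Ω
  have h2 : #(IntermediateField.adjoin k s) ≤ ℵ₀ := by
    refine (IntermediateField.cardinalMk_adjoin_le k s).trans ?_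
    refine sup_le (sup_le hk ?_) le_rfl
    exact Cardinal.le_aleph0_iff_set_countable.mpr hs.countable
  exact absurd (h1.trans (max_le h2 le_rfl)) (not_le.mpr hΩ)

theorem big_complex [Algebra (AlgebraicClosure ℚ) ℂ] : Big (AlgebraicClosure ℚ) ℂ :=
  big_of_countable _ _ H33.cardinalMk_algebraicClosure_rat
    (by rw [Cardinal.mk_complex]; exact Cardinal.aleph0_lt_continuum)

/-- **FIN**: the `n`-torsion of `Pic⁰(ℂ(X₀(N)))` is finite. -/
theorem torsion_finite_complex (N n : ℕ) [NeZero N] (hn : n ≠ 0) :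
    {x : Pic0 ℂ (FNL ℂ N) | n • x = 0}.Finite := by
  obtain ⟨e, -⟩ := H33.stmt_KUM_FNL ℂ N hn
  have := H56.finite_unrKummer N n hn (H81.stmt_BETTI_final N n hn)
  have : Finite (Additive (UnrKummer ℂ (FNL ℂ N) n)) :=
    Finite.of_equiv _ (Additive.ofMul (α := UnrKummer ℂ (FNL ℂ N) n))
  have : Finite (Pic0.torsion ℂ (FNL ℂ N) n) := Finite.of_equiv _ e.toEquiv
  have hfin : (Set.range (Subtype.val : Pic0.torsion ℂ (FNL ℂ N) n → Pic0 ℂ (FNL ℂ N))).Finite :=
    Set.finite_range _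
  refine hfin.subset ?_
  intro x hx
  refine ⟨⟨x, ?_⟩, rfl⟩
  rw [Pic0.mem_torsion]
  have hx' : n • x = 0 := hx
  exact hx'

theorem isFF_complex (N : ℕ) [NeZero N] : Fermat.Agent.RED.IsFF ℂ (FNL ℂ N) :=
  H33.exists_transcendental_finite ℂ N

/-- **W2** from the open leaves. -/
theorem stmt_divisible_of (N n : ℕ) [NeZero N] (hn : n ≠ 0)
    (hGEO : ∀ _ : Algebra (AlgebraicClosure ℚ) ℂ, Stmt_GEO ℂ N) :
    Fermat.Agent.S17.Stmt_divisible N n := by
  intro x _
  have : Algebra.IsAlgebraic ℚ (AlgebraicClosure ℚ) := AlgebraicClosure.isAlgebraic ℚ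
  letI inst : Algebra (AlgebraicClosure ℚ) ℂ :=
    (IsAlgClosed.lift : AlgebraicClosure ℚ →ₐ[ℚ] ℂ).toRingHom.toAlgebra
  obtain ⟨S, hj, hstab, htrans⟩ := hGEO inst
  have hcore := stmt_Core_of S n (H56.stmt_FT1 _ _) (H41.stmt_FT4 _ _) (H41.stmt_FT5 _ _)
    (H41.stmt_FT6 _ _)
    (isFF_complex N) hj big_complex hstab htrans (torsion_finite_complex N n hn)
  exact H75.stmt_A N n hn hcore x

end Fermat.Agent.S17.W2
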