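/-
S17, package W2, field theory: **FT3** (helper56): two `K`-embeddings `φ, φ'` into an
algebraically closed field `Ω` of a field `E` algebraic over `K(x)` are conjugate under
`Aut(Ω / K)`.

Proof: `E / K` has a finite transcendence basis `A ⊆ {x}`.  Let `B₁` (`B₂`) be a transcendence
basis of `Ω` over `φ E` (`φ' E`).  Then `B₁ ⊔ φ A` and `B₂ ⊔ φ' A` are transcendence bases of
`Ω / K`, so `#B₁ + #A = #B₂ + #A` and `#B₁ = #B₂`; a bijection `B₁ ≃ B₂` extends `φ' ∘ φ⁻¹` to an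
automorphism of `Ω` (`exists_algEquiv_of_transcendenceBasis`).  `Big` is not needed.
-/
import Fermat.Agent.S17.W2.H56_Ext

set_option autoImplicit false
set_option linter.style.haveILetI false

noncomputable section

namespace Fermat.Agent.S17.W2.H56

open Algebra IntermediateField Cardinal

/-- Conjugacy of two embeddings of a field with a finite transcendence basis. -/
theorem exists_algEquiv_conj {R E Ω : Type} [Field R] [Field E] [Field Ω] [Algebra R E]
    [Algebra R Ω] [IsAlgClosed Ω] (A : Set E) (hAfin : A.Finite)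
    (hA : IsTranscendenceBasis R ((↑) : A → E)) (φ φ' : E →ₐ[R] Ω) :
    ∃ σ : Ω ≃ₐ[R] Ω, ∀ e : E, σ (φ e) = φ' e := by
  classical
  have step : ∀ ψ : E →ₐ[R] Ω, ∃ B : Set Ω,
      (@IsTranscendenceBasis B E Ω _ _ ψ.toRingHom.toAlgebra ((↑) : B → Ω)) ∧
      IsTranscendenceBasis R (Sum.elim ((↑) : B → Ω) (fun a : A => ψ (a : E))) := by
    intro ψ
    letI : Algebra E Ω := ψ.toRingHom.toAlgebra
    haveI : IsScalarTower R E Ω := IsScalarTower.of_algebraMap_eq (fun c => (ψ.commutes c).symm)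
    obtain ⟨B, hB⟩ := exists_isTranscendenceBasis E Ω
    exact ⟨B, hB, hA.sumElim_comp hB⟩
  obtain ⟨B1, hB1, hB1'⟩ := step φ
  obtain ⟨B2, hB2, hB2'⟩ := step φ'
  have hcard : #(B1 ⊕ A) = #(B2 ⊕ A) := hB1'.cardinalMk_eq hB2'
  rw [mk_sum, mk_sum, lift_id, lift_id, lift_id] at hcard
  have hAlt : #A < ℵ₀ := by
    haveI := hAfin.to_subtype
    exact Cardinal.mk_lt_aleph0
  have hB : #B1 = #B2 := (Cardinal.add_right_inj_of_lt_aleph0 hAlt).1 hcard
  obtain ⟨e⟩ := Cardinal.eq.1 hB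
  obtain ⟨σ, -⟩ := @exists_algEquiv_of_transcendenceBasis E Ω Ω _ _ _ φ.toRingHom.toAlgebra
    φ'.toRingHom.toAlgebra _ _ B1 B2 ((↑) : B1 → Ω) ((↑) : B2 → Ω) hB1 hB2 e
  have hσ : ∀ a : E, σ (φ a) = φ' a := fun a =>
    @AlgEquiv.commutes E Ω Ω _ _ _ φ.toRingHom.toAlgebra φ'.toRingHom.toAlgebra σ a
  have hcomm : ∀ c : R, σ (algebraMap R Ω c) = algebraMap R Ω c := by
    intro c
    calc σ (algebraMap R Ω c) = σ (φ (algebraMap R E c)) := by rw [φ.commutes]
      _ = φ' (algebraMap R E c) := hσ _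
      _ = algebraMap R Ω c := φ'.commutes c
  refine ⟨AlgEquiv.ofRingEquiv (f := @AlgEquiv.toRingEquiv E Ω Ω _ _ _ φ.toRingHom.toAlgebra
    φ'.toRingHom.toAlgebra σ) hcomm, fun a => hσ a⟩

open scoped IntermediateField.algebraAdjoinAdjoin in
/-- A field algebraic over `K(x)` has a finite transcendence basis over `K`. -/
theorem exists_finite_transcendenceBasis {R E : Type} [Field R] [Field E] [Algebra R E] (x : E)
    (h : Algebra.IsAlgebraic (IntermediateField.adjoin R {x}) E) :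
    ∃ A : Set E, A.Finite ∧ IsTranscendenceBasis R ((↑) : A → E) := by
  haveI := h
  haveI : Algebra.IsAlgebraic (Algebra.adjoin R ({x} : Set E)) E :=
    Algebra.IsAlgebraic.trans (Algebra.adjoin R ({x} : Set E)) (IntermediateField.adjoin R {x}) E
  obtain ⟨A, hAx, hA⟩ := exists_isTranscendenceBasis_subset (R := R) ({x} : Set E)
  exact ⟨A, (Set.finite_singleton x).subset hAx, hA⟩

/-- **FT3**. -/
theorem stmt_FT3 (k Ω : Type) [Field k] [Field Ω] [Algebra k Ω] [IsAlgClosed Ω] :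
    Stmt_FT3 k Ω := by
  intro _ s _ E _ _ x hx φ φ'
  obtain ⟨A, hAfin, hA⟩ := exists_finite_transcendenceBasis x hx
  obtain ⟨σ, hσ⟩ := exists_algEquiv_conj A hAfin hA φ φ'
  refine ⟨σ.restrictScalars k, ?_, fun e => hσ e⟩
  intro y
  exact σ.commutes y

end Fermat.Agent.S17.W2.H56
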