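import Fermat.Agent.S17.W2.H18_GeoEv
import Fermat.Agent.S17.W2.H56_FT3

/-!
# S17-W2, package GEO, part G-e, abstract layer (helper18)

`K → Ω`, `Ω` algebraically closed of characteristic `0`.  From `Stmt_Gb` and `Stmt_E4`:

* `abs_stab`: a generic place `P` is fixed by the automorphisms of `Ω / K` fixing `t = j(P)` and
  the finitely many values `ev_P(j(q^d))`;
* `abs_trans`: two generic places are conjugate under `Aut(Ω / K)`.
-/

set_option autoImplicit false
set_option linter.unusedSectionVars false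

noncomputable section

namespace Fermat.Agent.S17.W2.H18

open AlgebraicCurve IntermediateField ModularCurve Fermat.Agent.GTor Fermat.Agent.RED Polynomial

variable {K Ω : Type} [Field K] [Field Ω] [Algebra ℚ K] [Algebra ℚ Ω] [Algebra K Ω] (N : ℕ)
  [NeZero N]

set_option synthInstance.maxHeartbeats 400000 in
/-- Two ring homomorphisms on `K(X₀(N))` which agree on `K` and on the generators are equal. -/
theorem ringHom_eq_of_genSet {R : Type*} [Field R] (φ ψ : FNL K N →+* R)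
    (hc : ∀ c : K, φ (algebraMap K (FNL K N) c) = ψ (algebraMap K (FNL K N) c))
    (hg : ∀ x ∈ H33.genSet K N, φ x = ψ x) (e : FNL K N) : φ e = ψ e := by
  have he : e ∈ adjoin K (H33.genSet K N) := by
    rw [H33.adjoin_genSet]
    exact IntermediateField.mem_top
  induction he using IntermediateField.adjoin_induction with
  | mem x hx => exact hg x hx
  | algebraMap c => exact hc c
  | add x y _ _ hx hy => rw [map_add, map_add, hx, hy]
  | inv x _ hx => rw [map_inv₀, map_inv₀, hx]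
  | mul x y _ _ hx hy => rw [map_mul, map_mul, hx, hy]

theorem isEv_congr {P : Place Ω (FNL Ω N)} {φ ψ : FNL K N →+* Ω} (h : IsEv N P φ)
    (hφψ : ∀ e, φ e = ψ e) : IsEv N P ψ := by
  intro e
  rw [← hφψ e]
  exact h e

variable [IsAlgClosed Ω] [CharZero Ω]

/-- **GenStab**, abstract form. -/
theorem abs_stab (hGb : Stmt_Gb K N) (hE4 : Stmt_E4 K Ω N) (P : Place Ω (FNL Ω N)) (t : Ω)
    (h : ZeroAt N P t) (ht : Transcendental K t) :
    ∃ φ : FNL K N →+* Ω, IsEv N P φ ∧ φ (H33.jL K N) = t ∧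
      (∀ c : K, φ (algebraMap K (FNL K N) c) = algebraMap K Ω c) ∧
      ∀ τ : Ω ≃ₐ[ℚ] Ω, (∀ c : K, τ (algebraMap K Ω c) = algebraMap K Ω c) → τ t = t →
        (∀ x ∈ H33.genSet K N, τ (φ x) = φ x) →
        arithmeticGalois (modularFunctionFieldFull N) τ • P = P := by
  obtain ⟨φ, hφ, hφj, hφc⟩ := stmt_E12 N hGb P t h ht
  refine ⟨φ, hφ, hφj, hφc, fun τ hτ hτt hτg => ?_⟩
  have h3 := stmt_E3 (K := K) (Ω := Ω) N P φ τ hτ hφ
  have h4 : IsEv N (arithmeticGalois (modularFunctionFieldFull N) τ • P) φ := by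
    refine isEv_congr N h3 (ringHom_eq_of_genSet N _ _ (fun c => ?_) fun x hx => ?_)
    · show τ (φ _) = φ _
      rw [hφc, hτ]
    · exact hτg x hx
  have h5 := zeroAt_smul N h τ
  rw [hτt] at h5
  exact hE4 _ _ t h5 h ht φ h4 hφ

set_option synthInstance.maxHeartbeats 400000 in
/-- The values of the generators at a generic place are algebraic over `K(t)`. -/
theorem isAlgebraic_ev (hGb : Stmt_Gb K N) (φ : FNL K N →+* Ω)
    (hφc : ∀ c : K, φ (algebraMap K (FNL K N) c) = algebraMap K Ω c) (e : FNL K N) :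
    IsAlgebraic K⟮φ (H33.jL K N)⟯ (φ e) :=
  H33.isAlgebraic_adjoin_map (RingHom.id K) φ (fun c => hφc c) (H33.jL K N) e (hGb e)

set_option synthInstance.maxHeartbeats 400000 in
/-- **GenTrans**, abstract form. -/
theorem abs_trans (hGb : Stmt_Gb K N) (hE4 : Stmt_E4 K Ω N) (P Q : Place Ω (FNL Ω N))
    (t t' : Ω) (hP : ZeroAt N P t) (hQ : ZeroAt N Q t') (ht : Transcendental K t)
    (ht' : Transcendental K t') :
    ∃ τ : Ω ≃ₐ[ℚ] Ω, (∀ c : K, τ (algebraMap K Ω c) = algebraMap K Ω c) ∧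
      arithmeticGalois (modularFunctionFieldFull N) τ • P = Q := by
  obtain ⟨φ, hφ, hφj, hφc⟩ := stmt_E12 N hGb P t hP ht
  obtain ⟨ψ, hψ, hψj, hψc⟩ := stmt_E12 N hGb Q t' hQ ht'
  let φ' : FNL K N →ₐ[K] Ω := { φ with commutes' := hφc }
  let ψ' : FNL K N →ₐ[K] Ω := { ψ with commutes' := hψc }
  have halg : Algebra.IsAlgebraic (IntermediateField.adjoin K {H33.jL K N}) (FNL K N) :=
    ⟨fun e => hGb e⟩
  obtain ⟨A, hAfin, hA⟩ := H56.exists_finite_transcendenceBasis (H33.jL K N) halg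
  obtain ⟨σ, hσ⟩ := H56.exists_algEquiv_conj A hAfin hA φ' ψ'
  let τ : Ω ≃ₐ[ℚ] Ω := AlgEquiv.ofRingEquiv (f := σ.toRingEquiv) (fun q => by
    rw [eq_ratCast]
    exact map_ratCast σ.toRingEquiv q)
  have hτ : ∀ a : Ω, τ a = σ a := fun _ => rfl
  have hτK : ∀ c : K, τ (algebraMap K Ω c) = algebraMap K Ω c := fun c => by
    rw [hτ]
    exact σ.commutes c
  refine ⟨τ, hτK, ?_⟩
  have h3 := stmt_E3 (K := K) (Ω := Ω) N P φ τ hτK hφ
  have h4 : IsEv N (arithmeticGalois (modularFunctionFieldFull N) τ • P) ψ :=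
    isEv_congr N h3 fun e => hσ e
  have h5 := zeroAt_smul N hP τ
  have h6 : τ t = t' := by
    rw [← hφj, ← hψj]
    exact hσ _
  rw [h6] at h5
  exact hE4 _ _ t' h5 hQ ht' ψ h4 hψ

end Fermat.Agent.S17.W2.H18
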