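import Fermat.Agent.S17.W2.H18_GeoSetting
import Fermat.Agent.S17.W2.H18_GeoAbs

/-!
# S17-W2, package GEO: `Stmt_GEO` from `Stmt_Gb` and `Stmt_E4` (helper18)

`stmt_GEO_of : GeoInput Ω N → Stmt_GEO Ω N`, where `GeoInput` asks for `Stmt_Gb K N` and
`Stmt_E4 K Ω N` for the intermediate fields `K = ℚ̄(s)` of `Ω / ℚ̄`.
-/

set_option autoImplicit false
set_option linter.unusedSectionVars false

noncomputable section

namespace Fermat.Agent.S17.W2.H18

open AlgebraicCurve IntermediateField ModularCurve Fermat.Agent.GTor Fermat.Agent.RED Polynomial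

section Conv

variable {k Ω : Type} [Field k] [Field Ω] [Algebra k Ω]

/-- Algebraicity over an intermediate field of `Ω / K` passes to a larger intermediate field of
`Ω / k`. -/
theorem isAlgebraic_of_forall_mem {K : IntermediateField k Ω} (L : IntermediateField K Ω)
    (L' : IntermediateField k Ω) (h : ∀ y : Ω, y ∈ L → y ∈ L') {c : Ω}
    (hc : IsAlgebraic L c) : IsAlgebraic L' c := by
  obtain ⟨p, hp0, hp⟩ := hc
  let f : L →+* L' :=
    { toFun := fun y => ⟨(y : Ω), h y y.2⟩
      map_one' := rfl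
      map_mul' := fun _ _ => rfl
      map_zero' := rfl
      map_add' := fun _ _ => rfl }
  refine ⟨p.map f, (Polynomial.map_ne_zero_iff f.injective).mpr hp0, ?_⟩
  rw [aeval_def, eval₂_map]
  rw [aeval_def] at hp
  exact hp

theorem mem_adjoin_insert_of_mem (s : Set Ω) (t : Ω) (y : Ω)
    (hy : y ∈ IntermediateField.adjoin (IntermediateField.adjoin k s) ({t} : Set Ω)) :
    y ∈ IntermediateField.adjoin k (insert t s) := by
  have h := IntermediateField.adjoin_adjoin_left k s ({t} : Set Ω)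
  have h2 : y ∈ (IntermediateField.adjoin (IntermediateField.adjoin k s)
      ({t} : Set Ω)).restrictScalars k := hy
  rw [h, Set.union_singleton] at h2
  exact h2

end Conv

variable (Ω : Type) [Field Ω] [Algebra ℚ Ω] [Algebra (AlgebraicClosure ℚ) Ω] (N : ℕ) [NeZero N]

/-- The two inputs of helper75, for the fields `ℚ̄(s) ⊆ Ω`. -/
def GeoInput : Prop :=
  ∀ K : IntermediateField (AlgebraicClosure ℚ) Ω, Stmt_Gb K N ∧ Stmt_E4 K Ω N

variable [IsAlgClosed Ω] [CharZero Ω]

set_option synthInstance.maxHeartbeats 400000 in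
set_option maxHeartbeats 1600000 in
theorem genStab (hin : GeoInput Ω N) : GenStab (geoSetting Ω N) := by
  intro s _ P t hP ht
  obtain ⟨hGb, hE4⟩ := hin (IntermediateField.adjoin (AlgebraicClosure ℚ) s)
  obtain ⟨φ, -, hφj, hφc, hfix⟩ := abs_stab N hGb hE4 P t hP ht
  refine ⟨φ '' H33.genSet (IntermediateField.adjoin (AlgebraicClosure ℚ) s) N,
    (H33.genSet_finite _ N).image _, ?_, ?_⟩
  · rintro c ⟨x, -, rfl⟩
    have h1 := isAlgebraic_ev N hGb φ hφc x
    rw [hφj] at h1
    exact isAlgebraic_of_forall_mem _ _ (mem_adjoin_insert_of_mem s t) h1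
  · intro σ hσ
    rw [IntermediateField.mem_fixingSubgroup_iff] at hσ
    show arithmeticGalois (modularFunctionFieldFull N) (resQ Ω σ) • P = P
    refine hfix (resQ Ω σ) (fun c => ?_) ?_ fun x hx => ?_
    · refine hσ _ ?_
      exact IntermediateField.adjoin.mono _ _ _
        ((Set.subset_insert t s).trans Set.subset_union_left) c.2
    · refine hσ _ (IntermediateField.subset_adjoin _ _ ?_)
      exact Set.mem_union_left _ (Set.mem_insert t s)
    · refine hσ _ (IntermediateField.subset_adjoin _ _ ?_)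
      exact Set.mem_union_right _ ⟨x, hx, rfl⟩

set_option synthInstance.maxHeartbeats 400000 in
set_option maxHeartbeats 1600000 in
theorem genTrans (hin : GeoInput Ω N) : GenTrans (geoSetting Ω N) := by
  intro s _ P Q t t' hP hQ ht ht'
  obtain ⟨hGb, hE4⟩ := hin (IntermediateField.adjoin (AlgebraicClosure ℚ) s)
  obtain ⟨τ, hτ, hPQ⟩ := abs_trans N hGb hE4 P Q t t' hP hQ ht ht'
  let σ : Ω ≃ₐ[AlgebraicClosure ℚ] Ω := AlgEquiv.ofRingEquiv (f := τ.toRingEquiv) (fun c =>
    hτ ⟨algebraMap (AlgebraicClosure ℚ) Ω c,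
      (IntermediateField.adjoin (AlgebraicClosure ℚ) s).algebraMap_mem c⟩)
  refine ⟨σ, ?_, ?_⟩
  · rw [IntermediateField.mem_fixingSubgroup_iff]
    intro x hx
    exact hτ ⟨x, hx⟩
  · show arithmeticGalois (modularFunctionFieldFull N) (resQ Ω σ) • P = Q
    have h : resQ Ω σ = τ := AlgEquiv.ext fun _ => rfl
    rw [h]
    exact hPQ

/-- **GEO**, from `Stmt_Gb` and `Stmt_E4`. -/
theorem stmt_GEO_of (hin : GeoInput Ω N) : Stmt_GEO Ω N :=
  ⟨geoSetting Ω N, geoSetting_j_ne Ω N, genStab Ω N hin, genTrans Ω N hin⟩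

end Fermat.Agent.S17.W2.H18
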