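import Fermat.Agent.S17.W2.H75_GE4Main
import Fermat.Agent.S17.W2.H18_Geo
import Fermat.Agent.S17.W2.Final

/-!
# S17-W2: GEO and the `n`-divisibility of `J₀(N)(ℚ̄)` (helper75, wiring of helper8 + helper18)

* `geoInput`: `Stmt_Gb` and `Stmt_E4` for all intermediate fields of `Ω / ℚ̄`;
* `stmt_GEO : Stmt_GEO Ω N` for `Ω` algebraically closed of characteristic `0`;
* `stmt_divisible : S17.Stmt_divisible N n` for `n ≠ 0` (package W2 of S17, unconditional).
-/

set_option autoImplicit false
set_option linter.style.haveILetI false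
set_option linter.unusedSectionVars false

noncomputable section

namespace Fermat.Agent.S17.W2.H75

open AlgebraicCurve IntermediateField ModularCurve Fermat.Agent.GTor

section Geo

variable (Ω : Type) [Field Ω] [Algebra ℚ Ω] [Algebra (AlgebraicClosure ℚ) Ω] (N : ℕ) [NeZero N]
  [IsAlgClosed Ω] [CharZero Ω]

set_option synthInstance.maxHeartbeats 400000 in
set_option maxHeartbeats 1600000 in
theorem geoInput : H18.GeoInput Ω N := fun K =>
  ⟨stmt_Gb K N, stmt_E4 N (stmt_Gb K N)⟩

/-- **GEO**. -/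
theorem stmt_GEO : Stmt_GEO Ω N := H18.stmt_GEO_of Ω N (geoInput Ω N)

end Geo

/-- **S17-W2**: `J₀(N)(ℚ̄)` is `n`-divisible. -/
theorem stmt_divisible (N n : ℕ) [NeZero N] (hn : n ≠ 0) :
    Fermat.Agent.S17.Stmt_divisible N n :=
  stmt_divisible_of N n hn fun _ => stmt_GEO ℂ N

end Fermat.Agent.S17.W2.H75
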