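import Fermat.Agent.S17.W2.CanonAct

/-!
# S17-W2, CORE part 6: the bad set of a canonical divisor of degree `< g` is finite (helper8)

If `L(E) = Ω`, `E ≥ 0` and `deg E < g`, then `L(E + P) = Ω` for all but finitely many `P`.
-/

set_option autoImplicit false

noncomputable section

namespace Fermat.Agent.S17.W2

open AlgebraicCurve WithZero Fermat.Agent.RED.H51 Fermat.Agent.RED.H42

variable {Ω F : Type} [Field Ω] [Field F] [Algebra Ω F]

local notation "L" => riemannRochSpace

variable (H : Hyp Ω F)
include H

theorem degree_sum_single (T : Finset (Place Ω F)) :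
    Divisor.degree (∑ P ∈ T, (Finsupp.single P 1 : Divisor Ω F)) = T.card := by
  classical
  rw [map_sum]
  simp only [Divisor.degree_single, H.deg_one, Nat.cast_one, mul_one, Finset.sum_const,
    nsmul_eq_mul]

omit H in
theorem sum_single_nonneg (T : Finset (Place Ω F)) :
    0 ≤ ∑ P ∈ T, (Finsupp.single P 1 : Divisor Ω F) := by
  classical
  refine Finset.sum_nonneg fun P _ => ?_
  rw [Finsupp.le_def]
  intro v
  rw [Finsupp.single_apply]
  split_ifs <;> simp

omit H in
theorem sum_single_apply_of_notMem (T : Finset (Place Ω F)) {P : Place Ω F} (hP : P ∉ T) :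
    (∑ Q ∈ T, (Finsupp.single Q 1 : Divisor Ω F)) P = 0 := by
  classical
  rw [Finsupp.finsetSum_apply]
  refine Finset.sum_eq_zero fun Q hQ => ?_
  rw [Finsupp.single_apply, if_neg]
  rintro rfl
  exact hP hQ

omit H in
theorem one_mem_L_of_nonneg {D : Divisor Ω F} (hD : 0 ≤ D) : (1 : F) ∈ L D := by
  rw [mem_riemannRochSpace_iff]
  intro v
  right
  have := Finsupp.le_def.mp hD v
  simp only [Finsupp.coe_zero, Pi.zero_apply] at this
  rw [Place.ord_one]
  omega

/-- The chain argument: `l(E + Σ_T P) ≥ #T + 1` if all `P ∈ T` are bad for `E`. -/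
theorem card_lt_finrank_of_bad {E : Divisor Ω F} (hE0 : 0 ≤ E) (hE : OnlyConst E)
    (T : Finset (Place Ω F)) (hT : ∀ P ∈ T, ¬ OnlyConst (E + Finsupp.single P 1)) :
    T.card + 1 ≤ Module.finrank Ω (L (E + ∑ P ∈ T, (Finsupp.single P 1 : Divisor Ω F))) := by
  classical
  induction T using Finset.induction_on with
  | empty =>
    rw [Finset.card_empty, zero_add, Finset.sum_empty, add_zero]
    have hfin := finite_L H E
    have h1 : (1 : F) ∈ L E := one_mem_L_of_nonneg hE0
    exact Nat.succ_le_of_lt (Module.finrank_pos_iff_exists_ne_zero.mpr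
      ⟨⟨1, h1⟩, fun h => one_ne_zero (congrArg Subtype.val h)⟩)
  | insert P T hPT ih =>
    have ih' := ih fun Q hQ => hT Q (Finset.mem_insert_of_mem hQ)
    rw [Finset.card_insert_of_notMem hPT, Finset.sum_insert hPT]
    set DT : Divisor Ω F := E + ∑ Q ∈ T, (Finsupp.single Q 1 : Divisor Ω F) with hDT
    have hrew : E + ((Finsupp.single P 1 : Divisor Ω F) + ∑ Q ∈ T, (Finsupp.single Q 1 : Divisor Ω F))
        = DT + Finsupp.single P 1 := by
      rw [hDT]; abel
    rw [hrew]
    have hbad := hT P (Finset.mem_insert_self P T)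
    unfold OnlyConst at hbad
    push Not at hbad
    obtain ⟨f, hf, hfc⟩ := hbad
    have hsumnn := sum_single_nonneg T
    have hf1 : f ∈ L (DT + Finsupp.single P 1) := by
      refine L_mono ?_ hf
      rw [hDT]
      rw [Finsupp.le_def] at hsumnn ⊢
      intro v
      have hv := hsumnn v
      simp only [Finsupp.coe_zero, Pi.zero_apply, Finsupp.add_apply] at hv ⊢
      omega
    have hf2 : f ∉ L DT := by
      intro hfDT
      have hfE : f ∈ L E := by
        rw [mem_riemannRochSpace_iff] at hf hfDT ⊢
        intro v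
        by_cases hv : v = P
        · subst hv
          rcases hfDT v with h | h
          · exact Or.inl h
          · right
            rw [hDT, Finsupp.add_apply, sum_single_apply_of_notMem T hPT, add_zero] at h
            exact h
        · rcases hf v with h | h
          · exact Or.inl h
          · right
            rw [Finsupp.add_apply, Finsupp.single_eq_of_ne hv, add_zero] at h
            exact h
      obtain ⟨c, hc⟩ := hE f hfE
      exact hfc c hc
    have hsingle : (0 : Divisor Ω F) ≤ Finsupp.single P 1 := by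
      rw [Finsupp.le_def]
      intro v
      rw [Finsupp.single_apply]
      split_ifs <;> simp
    have hle : L DT ≤ L (DT + Finsupp.single P 1) := L_mono (le_add_of_nonneg_right hsingle)
    have hlt : L DT < L (DT + Finsupp.single P 1) :=
      lt_of_le_of_ne hle fun heq => hf2 (heq ▸ hf1)
    have hfin := finite_L H (DT + Finsupp.single P 1)
    have := Submodule.finrank_lt_finrank_of_lt hlt
    omega

/-- **Finiteness of the bad set.** -/
theorem finite_bad (g : ℕ) (c : ℤ)
    (hR : ∀ D : Divisor Ω F, c ≤ Divisor.degree D →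
      (Module.finrank Ω (riemannRochSpace D) : ℤ) = Divisor.degree D + 1 - g)
    {E : Divisor Ω F} (hE0 : 0 ≤ E) (hE : OnlyConst E) (hdeg : Divisor.degree E < g) :
    {P : Place Ω F | ¬ OnlyConst (E + Finsupp.single P 1)}.Finite := by
  classical
  by_contra hinf
  have hinf' : {P : Place Ω F | ¬ OnlyConst (E + Finsupp.single P 1)}.Infinite := hinf
  obtain ⟨T, hTsub, hTcard⟩ := hinf'.exists_subset_card_eq (c - Divisor.degree E).toNat
  have h1 := card_lt_finrank_of_bad H hE0 hE T fun P hP => hTsub hP
  have hdegT : Divisor.degree (E + ∑ P ∈ T, (Finsupp.single P 1 : Divisor Ω F))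
      = Divisor.degree E + T.card := by
    rw [map_add, degree_sum_single H]
  have h2 := hR (E + ∑ P ∈ T, (Finsupp.single P 1 : Divisor Ω F)) (by
    rw [hdegT, hTcard]
    have := Int.self_le_toNat (c - Divisor.degree E)
    omega)
  rw [hdegT] at h2
  have h3 : ((T.card + 1 : ℕ) : ℤ) ≤
      (Module.finrank Ω (L (E + ∑ P ∈ T, (Finsupp.single P 1 : Divisor Ω F))) : ℤ) := by
    exact_mod_cast h1
  rw [h2] at h3
  push_cast at h3
  omega

end Fermat.Agent.S17.W2
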