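import Fermat.Agent.S17.W2.PlaceOrbit

/-!
# S17-W2, CORE part 4: the canonical divisor of a class (helper8)

Fix a place `oo`.  Every class `x ∈ Pic⁰` is `cls D = [D - deg D · oo]` for exactly one effective
divisor `D` with `D(oo) = 0` and `L(D) = Ω` (the effective divisor of minimal degree).
-/

set_option autoImplicit false

noncomputable section

namespace Fermat.Agent.S17.W2

open AlgebraicCurve WithZero Fermat.Agent.RED.H51 Fermat.Agent.RED.H42

variable {Ω F : Type} [Field Ω] [Field F] [Algebra Ω F]

local notation "L" => riemannRochSpace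

/-- All functions in `L(D)` are constant. -/
def OnlyConst (D : Divisor Ω F) : Prop := ∀ f ∈ L D, ∃ c : Ω, f = algebraMap Ω F c

/-- `D` is canonical (relative to `oo`): effective, not through `oo`, `L(D)` = constants. -/
def IsCanon (oo : Place Ω F) (D : Divisor Ω F) : Prop := 0 ≤ D ∧ D oo = 0 ∧ OnlyConst D

variable (H : Hyp Ω F)
include H

theorem degree_normDiv (oo : Place Ω F) (D : Divisor Ω F) :
    D - Finsupp.single oo (Divisor.degree D) ∈ Divisor.degZero (K := Ω) (F := F) := by
  rw [Divisor.mem_degZero, map_sub, Divisor.degree_single, H.deg_one oo]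
  simp

/-- The class of `D - deg D · oo`. -/
def cls (oo : Place Ω F) (D : Divisor Ω F) : Pic0 Ω F :=
  Pic0.mk ⟨D - Finsupp.single oo (Divisor.degree D), degree_normDiv H oo D⟩

theorem cls_add (oo : Place Ω F) (D E : Divisor Ω F) :
    cls H oo (D + E) = cls H oo D + cls H oo E := by
  unfold cls
  rw [← Pic0.mk_add]
  congr 1
  apply Subtype.ext
  simp only [AddSubgroup.coe_add, map_add, Finsupp.single_add]
  abel

theorem cls_of_degZero (oo : Place Ω F) (D : Divisor.degZero (K := Ω) (F := F)) :
    cls H oo (D : Divisor Ω F) = Pic0.mk D := by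
  unfold cls
  congr 1
  apply Subtype.ext
  have : Divisor.degree (D : Divisor Ω F) = 0 := D.2
  simp [this]

theorem cls_eq_of_principal (oo : Place Ω F) {D E : Divisor Ω F} {f : F} (hf : f ≠ 0)
    (hE : ∀ v, E v = v.ord f) : cls H oo (D + E) = cls H oo D := by
  obtain ⟨E', hE', hE'0⟩ := H.principal f hf
  have hEE : E = E' := by
    ext v
    rw [hE v, hE' v]
  subst hEE
  unfold cls
  symm
  rw [Pic0.mk, Pic0.mk, QuotientAddGroup.eq]
  simp only [AddSubgroup.mem_addSubgroupOf, AddSubgroup.coe_add, NegMemClass.coe_neg]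
  rw [Divisor.mem_principal]
  refine ⟨f, hf, fun v => ?_⟩
  rw [← hE' v]
  simp only [map_add, hE'0, add_zero, Finsupp.add_apply, Finsupp.neg_apply, Finsupp.sub_apply]
  ring

/-- Two divisors with the same class differ by a principal divisor and a multiple of `oo`. -/
theorem exists_of_cls_eq (oo : Place Ω F) {D E : Divisor Ω F} (h : cls H oo D = cls H oo E) :
    ∃ f : F, f ≠ 0 ∧ ∀ v, v.ord f =
      (E - Finsupp.single oo (Divisor.degree E)) v - (D - Finsupp.single oo (Divisor.degree D)) v := by
  unfold cls at h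
  rw [Pic0.mk, Pic0.mk, QuotientAddGroup.eq] at h
  simp only [AddSubgroup.mem_addSubgroupOf, AddSubgroup.coe_add, NegMemClass.coe_neg] at h
  rw [Divisor.mem_principal] at h
  obtain ⟨f, hf, hfv⟩ := h
  refine ⟨f, hf, fun v => ?_⟩
  rw [← hfv v]
  simp only [Finsupp.add_apply, Finsupp.neg_apply, Finsupp.sub_apply]
  ring

/-- An effective divisor of degree `0` is zero. -/
theorem eq_zero_of_nonneg_of_degree {D : Divisor Ω F} (hD : 0 ≤ D)
    (hdeg : Divisor.degree D ≤ 0) : D = 0 := by
  rcases eq_or_exists_lt hD with h | ⟨v, hv⟩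
  · exact h.symm
  · exfalso
    have h1 := le_sub_single hD hv
    have h2 := degree_nonneg h1
    rw [map_sub, Divisor.degree_single, H.deg_one v] at h2
    simp at h2
    omega

/-- Uniqueness of the canonical divisor. -/
theorem canon_unique_aux (oo : Place Ω F) {D E : Divisor Ω F} (hD : IsCanon oo D)
    (hE : IsCanon oo E) (h : cls H oo D = cls H oo E)
    (hle : Divisor.degree D ≤ Divisor.degree E) : D = E := by
  classical
  obtain ⟨f, hf, hfv⟩ := exists_of_cls_eq H oo h
  -- `f ∈ L(D)`... we use `f⁻¹`: `div f⁻¹ + E = D + (deg E - deg D) oo ≥ 0`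
  have hmem : f⁻¹ ∈ L E := by
    rw [mem_riemannRochSpace_iff]
    intro v
    right
    rw [Place.ord_inv, hfv v]
    simp only [Finsupp.sub_apply, Finsupp.single_apply]
    have hDv := Finsupp.le_def.mp hD.1 v
    simp only [Finsupp.coe_zero, Pi.zero_apply] at hDv
    split_ifs <;> omega
  obtain ⟨c, hc⟩ := hE.2.2 _ hmem
  have hford : ∀ v : Place Ω F, v.ord f = 0 := by
    intro v
    have : v.ord f⁻¹ = 0 := by rw [hc, ord_algebraMap]
    rw [Place.ord_inv] at this
    omega
  have hoo := hfv oo
  rw [hford oo] at hoo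
  simp only [Finsupp.sub_apply, Finsupp.single_apply, if_true, hD.2.1, hE.2.1] at hoo
  have hdeg : Divisor.degree D = Divisor.degree E := by omega
  ext v
  have hv := hfv v
  rw [hford v, hdeg] at hv
  simp only [Finsupp.sub_apply] at hv
  omega

theorem canon_unique (oo : Place Ω F) {D E : Divisor Ω F} (hD : IsCanon oo D)
    (hE : IsCanon oo E) (h : cls H oo D = cls H oo E) : D = E := by
  rcases le_total (Divisor.degree D) (Divisor.degree E) with hle | hle
  · exact canon_unique_aux H oo hD hE h hle
  · exact (canon_unique_aux H oo hE hD h.symm hle).symm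

/-- Existence of the canonical divisor, of degree at most `g`. -/
theorem canon_exists (oo : Place Ω F) (g : ℕ)
    (hR : ∀ D : Divisor Ω F,
      Divisor.degree D + 1 - g ≤ (Module.finrank Ω (riemannRochSpace D) : ℤ))
    (x : Pic0 Ω F) :
    ∃ D : Divisor Ω F, IsCanon oo D ∧ cls H oo D = x ∧ Divisor.degree D ≤ g := by
  classical
  obtain ⟨E₀, rfl⟩ := Pic0.mk_surjective x
  have hE₀ : Divisor.degree (E₀ : Divisor Ω F) = 0 := E₀.2
  have hdegm : ∀ m : ℕ, Divisor.degree ((E₀ : Divisor Ω F) + Finsupp.single oo (m : ℤ)) = m := by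
    intro m
    rw [map_add, hE₀, Divisor.degree_single, H.deg_one oo]
    simp
  have hex : ∃ m : ℕ, L ((E₀ : Divisor Ω F) + Finsupp.single oo (m : ℤ)) ≠ ⊥ := by
    refine ⟨g, fun hbot => ?_⟩
    have h1 := hR ((E₀ : Divisor Ω F) + Finsupp.single oo (g : ℤ))
    rw [hdegm g, hbot, finrank_bot] at h1
    simp at h1
  set m := Nat.find hex with hm
  have hmspec : L ((E₀ : Divisor Ω F) + Finsupp.single oo (m : ℤ)) ≠ ⊥ := Nat.find_spec hex
  have hmg : m ≤ g := Nat.find_min' hex (by
    intro hbot
    have h1 := hR ((E₀ : Divisor Ω F) + Finsupp.single oo (g : ℤ))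
    rw [hdegm g, hbot, finrank_bot] at h1
    simp at h1)
  obtain ⟨f, hf, hf0⟩ := (Submodule.ne_bot_iff _).mp hmspec
  obtain ⟨Df, hDf, hDf0⟩ := H.principal f hf0
  set D : Divisor Ω F := (E₀ : Divisor Ω F) + Finsupp.single oo (m : ℤ) + Df with hD
  have hD0 : 0 ≤ D := by
    rw [Finsupp.le_def]
    intro v
    have := (mem_riemannRochSpace_iff.mp hf) v
    rcases this with h | h
    · exact absurd h hf0
    · rw [hD, Finsupp.add_apply, hDf v]
      simp only [Finsupp.coe_zero, Pi.zero_apply]
      omega
  have hdegD : Divisor.degree D = m := by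
    rw [hD, map_add, hdegm m, hDf0, add_zero]
  have hcls : cls H oo D = Pic0.mk E₀ := by
    rw [hD, cls_eq_of_principal H oo hf0 hDf, cls_add, cls_of_degZero]
    have : cls H oo (Finsupp.single oo (m : ℤ)) = 0 := by
      unfold cls
      have h0 : (Finsupp.single oo (m : ℤ) : Divisor Ω F)
          - Finsupp.single oo (Divisor.degree (Finsupp.single oo (m : ℤ) : Divisor Ω F)) = 0 := by
        rw [Divisor.degree_single, H.deg_one oo]
        simp
      have : (⟨_, degree_normDiv H oo (Finsupp.single oo (m : ℤ))⟩ :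
          Divisor.degZero (K := Ω) (F := F)) = 0 := Subtype.ext h0
      rw [this, Pic0.mk_zero]
    rw [this, add_zero]
  -- the case distinction `m = 0` / `m ≥ 1`
  rcases Nat.eq_zero_or_pos m with hm0 | hmpos
  · have hDz : D = 0 := eq_zero_of_nonneg_of_degree H hD0 (by rw [hdegD, hm0]; simp)
    refine ⟨D, ⟨hD0, by rw [hDz]; simp, ?_⟩, hcls, by rw [hdegD]; exact_mod_cast hmg⟩
    intro h hh
    rw [hDz, L_zero_eq H, Submodule.mem_span_singleton] at hh
    obtain ⟨c, rfl⟩ := hh
    exact ⟨c, by rw [Algebra.smul_def, mul_one]⟩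
  · -- `L(E₀ + (m-1) oo) = ⊥`
    have hprev : L ((E₀ : Divisor Ω F) + Finsupp.single oo ((m - 1 : ℕ) : ℤ)) = ⊥ := by
      by_contra hne
      exact Nat.find_min hex (by omega : m - 1 < m) hne
    have hsplit : (E₀ : Divisor Ω F) + Finsupp.single oo (m : ℤ)
        = (E₀ : Divisor Ω F) + Finsupp.single oo ((m - 1 : ℕ) : ℤ) + Finsupp.single oo 1 := by
      rw [add_assoc, ← Finsupp.single_add]
      congr 2
      push_cast [Nat.cast_sub hmpos]
      ring
    have hfnot : f ∉ L ((E₀ : Divisor Ω F) + Finsupp.single oo ((m - 1 : ℕ) : ℤ)) := by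
      rw [hprev]
      exact hf0
    refine ⟨D, ⟨hD0, ?_, ?_⟩, hcls, by rw [hdegD]; exact_mod_cast hmg⟩
    · -- `D(oo) = 0`
      by_contra hne
      have hpos : 1 ≤ D oo := by
        have := Finsupp.le_def.mp hD0 oo
        simp only [Finsupp.coe_zero, Pi.zero_apply] at this
        omega
      apply hfnot
      rw [mem_riemannRochSpace_iff]
      intro v
      right
      have hfv := (mem_riemannRochSpace_iff.mp hf) v
      rcases hfv with h | h
      · exact absurd h hf0
      · by_cases hv : v = oo
        · subst hv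
          rw [hD, Finsupp.add_apply, hDf, Finsupp.add_apply, Finsupp.single_eq_same] at hpos
          rw [Finsupp.add_apply, Finsupp.single_eq_same]
          push_cast [Nat.cast_sub hmpos]
          omega
        · rw [Finsupp.add_apply, Finsupp.single_eq_of_ne hv] at h ⊢
          exact h
    · -- `OnlyConst D`
      intro h hh
      have hhf : h * f ∈ L ((E₀ : Divisor Ω F) + Finsupp.single oo (m : ℤ)) :=
        mul_mem_L hf0 hDf hh
      rw [hsplit] at hhf hf
      obtain ⟨c, hc⟩ := one_step oo (H.deg_one oo) _ hf hfnot hhf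
      rw [hprev, Submodule.mem_bot] at hc
      refine ⟨c, ?_⟩
      have : (h - algebraMap Ω F c) * f = 0 := by
        rw [sub_mul, ← Algebra.smul_def]
        exact hc
      rcases mul_eq_zero.mp this with h1 | h1
      · exact sub_eq_zero.mp h1
      · exact absurd h1 hf0

end Fermat.Agent.S17.W2
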