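import Fermat.Agent.S17.W2.Canon

/-!
# S17-W2, CORE part 5: the action on divisors, classes and canonical divisors (helper8)
-/

set_option autoImplicit false

noncomputable section

namespace Fermat.Agent.S17.W2

open AlgebraicCurve WithZero Fermat.Agent.RED.H51 Fermat.Agent.RED.H42

variable {k Ω F : Type} [Field k] [Field Ω] [Field F] [Algebra k Ω] [Algebra Ω F]
variable (S : Setting k Ω F)

local notation "L" => riemannRochSpace

theorem Setting.inv_smul_oo (σ : Ω ≃ₐ[k] Ω) : (S.ρ σ)⁻¹ • S.oo = S.oo := by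
  rw [inv_smul_eq_iff, S.ρ_oo]

theorem smul_nonneg_divisor (g : SemilinearAut Ω F) {D : Divisor Ω F} (hD : 0 ≤ D) :
    0 ≤ g • D := by
  rw [Finsupp.le_def]
  intro w
  rw [SemilinearAut.divisor_smul_apply]
  exact Finsupp.le_def.mp hD _

theorem mem_L_smul (g : SemilinearAut Ω F) {D : Divisor Ω F} {f : F} (hf : f ∈ L (g • D)) :
    g⁻¹ • f ∈ L D := by
  rw [mem_riemannRochSpace_iff] at hf ⊢
  intro v
  rcases hf (g • v) with h | h
  · left
    rw [h, smul_zero]
  · right
    rw [SemilinearAut.divisor_smul_apply_smul] at h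
    have h2 := SemilinearAut.ord_smul g v (g⁻¹ • f)
    rw [smul_inv_smul] at h2
    rw [← h2]
    exact h

theorem onlyConst_smul (g : SemilinearAut Ω F) {D : Divisor Ω F} (hD : OnlyConst D) :
    OnlyConst (g • D) := by
  intro f hf
  obtain ⟨c, hc⟩ := hD _ (mem_L_smul g hf)
  refine ⟨SemilinearAut.baseAut g c, ?_⟩
  rw [← SemilinearAut.smul_algebraMap, ← hc, smul_inv_smul]

theorem Setting.isCanon_smul {D : Divisor Ω F} (hD : IsCanon S.oo D) (σ : Ω ≃ₐ[k] Ω) :
    IsCanon S.oo (S.ρ σ • D) := by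
  refine ⟨smul_nonneg_divisor _ hD.1, ?_, onlyConst_smul _ hD.2.2⟩
  rw [SemilinearAut.divisor_smul_apply, S.inv_smul_oo]
  exact hD.2.1

variable (H : Hyp Ω F)
include H

theorem Setting.cls_smul (D : Divisor Ω F) (σ : Ω ≃ₐ[k] Ω) :
    S.ρ σ • cls H S.oo D = cls H S.oo (S.ρ σ • D) := by
  unfold cls
  rw [SemilinearAut.pic0_smul_mk]
  congr 1
  apply Subtype.ext
  rw [SemilinearAut.coe_degZeroSMulHom]
  simp only [smul_sub, SemilinearAut.smul_single, S.ρ_oo, SemilinearAut.degree_smul]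

/-- The class of a canonical divisor has a finite orbit iff the divisor has. -/
theorem Setting.finOrb_cls_iff {G' : Subgroup (Ω ≃ₐ[k] Ω)} {D : Divisor Ω F}
    (hD : IsCanon S.oo D) : FinOrb S.ρ G' (cls H S.oo D) ↔ FinOrb S.ρ G' D := by
  constructor
  · intro h
    refine FinOrb.of_injOn S.ρ (cls H S.oo) (fun σ _ => (S.cls_smul H D σ).symm) h ?_
    rintro _ ⟨σ, _, rfl⟩ _ ⟨τ, _, rfl⟩ hcl
    exact canon_unique H S.oo (S.isCanon_smul hD σ) (S.isCanon_smul hD τ) hcl
  · intro h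
    exact h.map S.ρ (cls H S.oo) fun σ _ => (S.cls_smul H D σ).symm

omit H in
/-- A divisor has a finite orbit iff all its points have. -/
theorem Setting.finOrb_divisor_iff {G' : Subgroup (Ω ≃ₐ[k] Ω)} {D : Divisor Ω F} :
    FinOrb S.ρ G' D ↔ ∀ P ∈ D.support, FinOrb S.ρ G' P := by
  classical
  constructor
  · intro h P hP
    have hT : (⋃ D' ∈ orb S.ρ G' D, ((D' : Divisor Ω F).support : Set (Place Ω F))).Finite :=
      h.biUnion fun D' _ => D'.support.finite_toSet
    refine finOrb_of_stable S.ρ hT ?_ ?_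
    · intro σ hσ Q hQ
      simp only [Set.mem_iUnion, Finset.mem_coe, exists_prop] at hQ ⊢
      obtain ⟨D', hD', hQD'⟩ := hQ
      refine ⟨S.ρ σ • D', smul_mem_orb S.ρ hD' hσ, ?_⟩
      rw [Finsupp.mem_support_iff] at hQD' ⊢
      rwa [SemilinearAut.divisor_smul_apply_smul]
    · simp only [Set.mem_iUnion, Finset.mem_coe, exists_prop]
      exact ⟨D, mem_orb_self S.ρ G' D, hP⟩
  · intro h
    have hsum : D = ∑ P ∈ D.support, Finsupp.single P (D P) := by
      conv_lhs => rw [← Finsupp.sum_single D]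
      rfl
    rw [hsum]
    refine FinOrb.sum S.ρ _ _ fun P hP => ?_
    exact (h P hP).map S.ρ (fun Q => (Finsupp.single Q (D P) : Divisor Ω F))
      fun σ _ => (SemilinearAut.smul_single _ _ _).symm

end Fermat.Agent.S17.W2
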