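import Fermat.Agent.S17.W2.Trans

/-!
# S17-W2, CORE part 10 (B5): `Pic⁰(F)` is `n`-divisible (helper8)

`core_of_hyp`: from the bundled hypotheses `CoreHyp` and the finiteness of the `n`-torsion.
`stmt_Core_of`: the interface statement `Stmt_Core S n` from the field-theory leaves.
-/

set_option autoImplicit false

noncomputable section

namespace Fermat.Agent.S17.W2

open AlgebraicCurve WithZero Fermat.Agent.RED.H51 Fermat.Agent.RED.H42 IntermediateField

variable {k Ω F : Type} [Field k] [Field Ω] [Field F] [Algebra k Ω] [Algebra Ω F]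
variable {S : Setting k Ω F}

theorem smul_nsmul_pic0 (g : SemilinearAut Ω F) (n : ℕ) (x : Pic0 Ω F) :
    g • (n • x) = n • (g • x) :=
  map_nsmul (DistribSMul.toAddMonoidHom (Pic0 Ω F) g) n x

/-- Every class is algebraic over `k(s)` for a finite set `s`. -/
theorem exists_finite_finOrb {g : ℕ} {c : ℤ} (C : CoreHyp S g c) (x : Pic0 Ω F) :
    ∃ s : Set Ω, s.Finite ∧ FinOrb S.ρ (Gs k Ω s) x := by
  classical
  obtain ⟨Dx, hDx, hclsx, -⟩ := canon_exists C.hyp S.oo g C.riemann_le x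
  let val : Place Ω F → Ω := fun Q => if h : ∃ a, S.IsZeroAt Q a then h.choose else 0
  have hval : ∀ Q, (∃ a, S.IsZeroAt Q a) → S.IsZeroAt Q (val Q) := by
    intro Q h
    simp only [val, dif_pos h]
    exact h.choose_spec
  refine ⟨val '' (Dx.support : Set (Place Ω F)), Dx.support.finite_toSet.image val, ?_⟩
  rw [← hclsx, S.finOrb_cls_iff C.hyp hDx, S.finOrb_divisor_iff]
  intro R hR
  rcases S.pole_or_isZeroAt C.hyp R C.hj with hpole | hz
  · exact S.finOrb_of_pole C.hyp C.hj _ hpole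
  · exact S.finOrb_of_isAlgebraic C.hyp C.hj _ (hval R hz)
      (isAlgebraic_of_mem ⟨R, hR, rfl⟩)

/-- **CORE**: `Pic⁰(F)` is `n`-divisible. -/
theorem core_of_hyp {g : ℕ} {c : ℤ} (C : CoreHyp S g c) (n : ℕ)
    (htors : {x : Pic0 Ω F | n • x = 0}.Finite) (x : Pic0 Ω F) :
    ∃ y : Pic0 Ω F, n • y = x := by
  classical
  obtain ⟨s, hs, hxfin⟩ := exists_finite_finOrb C x
  obtain ⟨t, ht⟩ := C.ft6 C.big s hs g
  choose P hP using fun i => S.exists_zero C.hyp C.hj (t i)
  have hgen : IsGen S s P t := ⟨hP, ht⟩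
  set v : Pic0 Ω F := cls C.hyp S.oo (gdiv P) with hv
  -- `n • v` is generic
  obtain ⟨Q, q, hQ, hQv⟩ := main_lemma C hs hgen (n • v) fun s' _ _ h =>
    FinOrb.of_nsmul S.ρ htors h
  -- `x + v` is generic
  obtain ⟨R, r', hR, hRv⟩ := main_lemma C hs hgen (x + v) fun s' _ hss' h => by
    have h1 : FinOrb S.ρ (Gs k Ω s') x := hxfin.mono S.ρ (Gs_anti hss')
    have h2 := h.sub S.ρ h1
    rwa [add_sub_cancel_left] at h2
  obtain ⟨σ, -, hσ⟩ := gen_trans C g hs hQ hgen
  obtain ⟨τ, -, hτ⟩ := gen_trans C g hs hQ hR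
  have h1 : n • (S.ρ σ • v) = v := by
    rw [← smul_nsmul_pic0, hQv, S.cls_smul C.hyp, Setting.smul_gdiv, hv]
    congr 2
    funext i
    exact hσ i
  have h2 : n • (S.ρ τ • v) = x + v := by
    rw [← smul_nsmul_pic0, hQv, S.cls_smul C.hyp, Setting.smul_gdiv, hRv]
    congr 2
    funext i
    exact hτ i
  refine ⟨S.ρ τ • v - S.ρ σ • v, ?_⟩
  rw [nsmul_sub, h1, h2, add_sub_cancel_right]

/-- The interface statement **CORE** from the field-theory leaves. -/
theorem stmt_Core_of [IsAlgClosed Ω] (S : Setting k Ω F) (n : ℕ)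
    (h1 : Stmt_FT1 k Ω) (h4 : Stmt_FT4 k Ω) (h5 : Stmt_FT5 k Ω) (h6 : Stmt_FT6 k Ω) :
    Stmt_Core S n := by
  intro hFF hj hbig hstab htrans htors x
  obtain ⟨g, c, hR⟩ := Fermat.Agent.RED.H42.stmt_FFR_riemann Ω F hFF
  have hz := Fermat.Agent.RED.H42.zerosAll Ω F hFF
  obtain ⟨y, hy, hfin⟩ := hFF
  have H : Hyp Ω F := hyp_of_zeros hz hy
  have C : CoreHyp S g c :=
    { hyp := H
      hj := hj
      riemann_le := fun D => (hR D).1
      riemann_eq := fun D => (hR D).2
      big := hbig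
      ft1 := h1
      ft4 := h4
      ft5 := h5
      ft6 := h6
      stab := hstab
      trans := htrans }
  exact core_of_hyp C n htors x

end Fermat.Agent.S17.W2
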