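import Fermat.Agent.S17.W2.Bad

/-!
# S17-W2, CORE part 7 (B1): generic tuples give canonical divisors (helper8)
-/

set_option autoImplicit false

noncomputable section

namespace Fermat.Agent.S17.W2

open AlgebraicCurve WithZero Fermat.Agent.RED.H51 Fermat.Agent.RED.H42 IntermediateField

variable {k Ω F : Type} [Field k] [Field Ω] [Field F] [Algebra k Ω] [Algebra Ω F]

local notation "L" => riemannRochSpace

/-- Monotonicity of algebraicity in the base field. -/
theorem isAlgebraic_mono {K K' : IntermediateField k Ω} (h : K ≤ K') {c : Ω}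
    (hc : IsAlgebraic K c) : IsAlgebraic K' c := by
  letI : Algebra K K' := (IntermediateField.inclusion h).toRingHom.toAlgebra
  haveI : IsScalarTower K K' Ω := IsScalarTower.of_algebraMap_eq fun _ => rfl
  exact hc.tower_top K'

theorem isAlgebraic_adjoin_mono {s s' : Set Ω} (h : s ⊆ s') {c : Ω}
    (hc : IsAlgebraic (IntermediateField.adjoin k s) c) :
    IsAlgebraic (IntermediateField.adjoin k s') c :=
  isAlgebraic_mono (IntermediateField.adjoin.mono k s s' h) hc

theorem Gs_anti {s s' : Set Ω} (h : s ⊆ s') : Gs k Ω s' ≤ Gs k Ω s :=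
  IntermediateField.fixingSubgroup_le (IntermediateField.adjoin.mono k s s' h)

variable (S : Setting k Ω F)

/-- A generic tuple over `k(s)`: places with algebraically independent `j`-values. -/
structure IsGen (s : Set Ω) {r : ℕ} (P : Fin r → Place Ω F) (t : Fin r → Ω) : Prop where
  zero : ∀ i, S.IsZeroAt (P i) (t i)
  indep : AlgebraicIndependent (IntermediateField.adjoin k s) t

/-- The divisor `P₁ + ⋯ + P_r`. -/
def gdiv {r : ℕ} (P : Fin r → Place Ω F) : Divisor Ω F := ∑ i, Finsupp.single (P i) 1

theorem gdiv_succ {r : ℕ} (P : Fin (r + 1) → Place Ω F) :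
    gdiv P = gdiv (fun i : Fin r => P i.castSucc) + Finsupp.single (P (Fin.last r)) 1 := by
  unfold gdiv
  rw [Fin.sum_univ_castSucc]

theorem gdiv_nonneg {r : ℕ} (P : Fin r → Place Ω F) : 0 ≤ gdiv P := by
  classical
  refine Finset.sum_nonneg fun i _ => ?_
  rw [Finsupp.le_def]
  intro v
  rw [Finsupp.single_apply]
  split_ifs <;> simp

theorem Setting.smul_gdiv {r : ℕ} (P : Fin r → Place Ω F) (g : SemilinearAut Ω F) :
    g • gdiv P = gdiv (fun i => g • P i) := by
  unfold gdiv
  rw [Finset.smul_sum]
  simp only [SemilinearAut.smul_single]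

theorem IsGen.castSucc {s : Set Ω} {r : ℕ} {P : Fin (r + 1) → Place Ω F} {t : Fin (r + 1) → Ω}
    (h : IsGen S s P t) : IsGen S s (fun i : Fin r => P i.castSucc) (fun i : Fin r => t i.castSucc) :=
  ⟨fun _ => h.zero _, h.indep.comp _ (Fin.castSucc_injective r)⟩

/-- The hypotheses of CORE, bundled. -/
structure CoreHyp (g : ℕ) (c : ℤ) : Prop where
  hyp : Hyp Ω F
  hj : ∀ a : Ω, S.j ≠ algebraMap Ω F a
  riemann_le : ∀ D : Divisor Ω F,
    Divisor.degree D + 1 - g ≤ (Module.finrank Ω (riemannRochSpace D) : ℤ)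
  riemann_eq : ∀ D : Divisor Ω F, c ≤ Divisor.degree D →
    (Module.finrank Ω (riemannRochSpace D) : ℤ) = Divisor.degree D + 1 - g
  big : Big k Ω
  ft1 : Stmt_FT1 k Ω
  ft4 : Stmt_FT4 k Ω
  ft5 : Stmt_FT5 k Ω
  ft6 : Stmt_FT6 k Ω
  stab : GenStab S
  trans : GenTrans S

theorem degree_gdiv (H : Hyp Ω F) {r : ℕ} (P : Fin r → Place Ω F) :
    Divisor.degree (gdiv P) = r := by
  unfold gdiv
  rw [map_sum]
  simp only [Divisor.degree_single, H.deg_one, Nat.cast_one, mul_one, Finset.sum_const,
    Finset.card_univ, Fintype.card_fin, nsmul_eq_mul]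

theorem isCanon_zero (H : Hyp Ω F) (oo : Place Ω F) : IsCanon oo (0 : Divisor Ω F) := by
  refine ⟨le_rfl, rfl, ?_⟩
  intro f hf
  rw [L_zero_eq H, Submodule.mem_span_singleton] at hf
  obtain ⟨c, rfl⟩ := hf
  exact ⟨c, by rw [Algebra.smul_def, mul_one]⟩

variable {S}

/-- **B1**: the divisor of a generic tuple of length `≤ g` is canonical. -/
theorem isCanon_gdiv {g : ℕ} {c : ℤ} (C : CoreHyp S g c) {s : Set Ω} (hs : s.Finite) :
    ∀ {r : ℕ}, r ≤ g → ∀ {P : Fin r → Place Ω F} {t : Fin r → Ω}, IsGen S s P t →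
      IsCanon S.oo (gdiv P) := by
  classical
  intro r
  induction r with
  | zero =>
    intro _ P t _
    have : gdiv P = 0 := by
      unfold gdiv
      simp
    rw [this]
    exact isCanon_zero C.hyp S.oo
  | succ r ih =>
    intro hr P t h
    have hE := ih (by omega) (h.castSucc S)
    set E : Divisor Ω F := gdiv (fun i : Fin r => P i.castSucc) with hEdef
    set a : Fin r → Ω := fun i => t i.castSucc with ha
    -- the stabilising sets
    have hst : ∀ i : Fin r, ∃ T : Set Ω, T.Finite ∧
        (∀ c ∈ T, IsAlgebraic (IntermediateField.adjoin k (insert (t i.castSucc) s)) c) ∧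
        ∀ σ ∈ Gs k Ω (insert (t i.castSucc) s ∪ T), S.ρ σ • P i.castSucc = P i.castSucc :=
      fun i => C.stab s hs _ _ (h.zero _) (h.indep.transcendental _)
    choose T hTfin hTalg hTfix using hst
    set s'' : Set Ω := s ∪ Set.range a ∪ ⋃ i, T i with hs''
    have hs''fin : s''.Finite :=
      (hs.union (Set.finite_range a)).union (Set.finite_iUnion hTfin)
    have hfixP : ∀ σ ∈ Gs k Ω s'', ∀ i : Fin r, S.ρ σ • P i.castSucc = P i.castSucc := by
      intro σ hσ i
      refine hTfix i σ (Gs_anti ?_ hσ)
      rintro x (hx | hx)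
      · rcases hx with rfl | hx
        · exact Or.inl (Or.inr ⟨i, rfl⟩)
        · exact Or.inl (Or.inl hx)
      · exact Or.inr (Set.mem_iUnion.mpr ⟨i, hx⟩)
    have hfixE : ∀ σ ∈ Gs k Ω s'', S.ρ σ • E = E := by
      intro σ hσ
      rw [hEdef, Setting.smul_gdiv]
      congr 1
      funext i
      exact hfixP σ hσ i
    -- the last point is transcendental over `k(s'')`
    have htr : Transcendental (IntermediateField.adjoin k s'') (t (Fin.last r)) := by
      let e : Fin r ⊕ Unit → Fin (r + 1) := Sum.elim Fin.castSucc fun _ => Fin.last r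
      have he : Function.Injective e := by
        rintro (i | u) (i' | u') hii
        · exact congrArg Sum.inl (Fin.castSucc_injective r hii)
        · exact absurd hii (Fin.castSucc_lt_last i).ne
        · exact absurd hii.symm (Fin.castSucc_lt_last i').ne
        · rfl
      have h1 : AlgebraicIndependent (IntermediateField.adjoin k s)
          (Sum.elim a fun _ : Unit => t (Fin.last r)) := by
        have := h.indep.comp e he
        convert this using 1
        funext x
        rcases x with i | u <;> rfl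
      have h2 := C.ft5 s (Fin r) Unit a (fun _ => t (Fin.last r)) h1 (⋃ i, T i) (by
        intro c hc
        obtain ⟨i, hi⟩ := Set.mem_iUnion.mp hc
        refine isAlgebraic_adjoin_mono ?_ (hTalg i c hi)
        rintro x (rfl | hx)
        · exact Or.inr ⟨i, rfl⟩
        · exact Or.inl hx)
      exact h2.transcendental ()
    have hnofin : ¬ FinOrb S.ρ (Gs k Ω s'') (P (Fin.last r)) := fun hfin =>
      htr (S.isAlgebraic_of_finOrb C.ft1 C.big hs''fin (h.zero _) hfin)
    rw [gdiv_succ]
    refine ⟨?_, ?_, ?_⟩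
    · rw [← gdiv_succ]
      exact gdiv_nonneg P
    · rw [Finsupp.add_apply, hE.2.1, zero_add, Finsupp.single_apply, if_neg]
      intro hoo
      apply hnofin
      rw [hoo]
      exact finOrb_of_fixed S.ρ fun σ _ => S.ρ_oo σ
    · by_contra hbad
      apply hnofin
      have hdegE : Divisor.degree E < g := by
        rw [hEdef, degree_gdiv C.hyp]
        exact_mod_cast hr
      have hfinbad := finite_bad C.hyp g c C.riemann_eq hE.1 hE.2.2 hdegE
      refine finOrb_of_stable S.ρ hfinbad ?_ hbad
      intro σ hσ Q hQ hcon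
      apply hQ
      have h3 := onlyConst_smul (S.ρ σ)⁻¹ hcon
      rwa [smul_add, SemilinearAut.smul_single, inv_smul_smul,
        inv_smul_eq_iff.mpr (hfixE σ hσ).symm] at h3

end Fermat.Agent.S17.W2
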