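import Fermat.Agent.S17.W2.Defs
import Fermat.Agent.GTor.H33_CurveL
import Fermat.Agent.RED.H17_Place

/-!
# S17-W2, package GEO: interfaces (helper18)

Abstract layer: `K → Ω` fields of characteristic `0` (`K` NOT algebraically closed in general),
`E = FNL K N = K(X₀(N))`, `F = FNL Ω N = Ω(X₀(N))`, `bc : E → F` the coefficientwise base change.
A place `P` of `F` is *generic over `K`* when its `j`-value `t` is transcendental over `K`.

* `IsEv N P φ`: the ring homomorphism `φ : E → Ω` is "evaluation at `P`": `bc e - φ e` vanishes at `P`.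
* `Stmt_E12`: every generic place has an evaluation homomorphism (E1 + E2).
* `Stmt_E4`: a generic place is determined by its evaluation homomorphism (counting).
-/

set_option autoImplicit false

noncomputable section

namespace Fermat.Agent.S17.W2.H18

open AlgebraicCurve IntermediateField ModularCurve Fermat.Agent.GTor Fermat.Agent.RED

variable (K Ω : Type) [Field K] [Field Ω] [Algebra ℚ K] [Algebra ℚ Ω] [Algebra K Ω] (N : ℕ)

/-- Base change `K(X₀(N)) → Ω(X₀(N))`, coefficientwise on `q`-expansions. -/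
abbrev bc : FNL K N →+* FNL Ω N := H75.bcHom (algebraMap K Ω) (modularFunctionFieldFull N)

variable {K Ω}

/-- `P` is a zero of `j - t`. -/
def ZeroAt [NeZero N] (P : Place Ω (FNL Ω N)) (t : Ω) : Prop :=
  0 < P.ord (H33.jL Ω N - algebraMap Ω (FNL Ω N) t)

/-- `φ` is the evaluation at `P` on the functions defined over `K`. -/
def IsEv (P : Place Ω (FNL Ω N)) (φ : FNL K N →+* Ω) : Prop :=
  ∀ e : FNL K N, H17.VanAt P (bc K Ω N e - algebraMap Ω (FNL Ω N) (φ e))

variable (K Ω)

/-- **G-b**: `K(X₀(N))` is algebraic over `K(j)`. -/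
def Stmt_Gb [NeZero N] : Prop :=
  ∀ e : FNL K N, IsAlgebraic K⟮H33.jL K N⟯ e

/-- **E1 + E2**: a place with `j`-value transcendental over `K` has an evaluation homomorphism
on `K(X₀(N))`; it is a `K`-algebra homomorphism and maps `j` to `t`. -/
def Stmt_E12 [NeZero N] : Prop :=
  ∀ (P : Place Ω (FNL Ω N)) (t : Ω), ZeroAt N P t → Transcendental K t →
    ∃ φ : FNL K N →+* Ω, IsEv N P φ ∧ φ (H33.jL K N) = t ∧
      ∀ c : K, φ (algebraMap K (FNL K N) c) = algebraMap K Ω c

/-- **E3**: evaluation is equivariant under the automorphisms of `Ω` fixing `K`. -/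
def Stmt_E3 : Prop :=
  ∀ (P : Place Ω (FNL Ω N)) (φ : FNL K N →+* Ω) (τ : Ω ≃ₐ[ℚ] Ω),
    (∀ c : K, τ (algebraMap K Ω c) = algebraMap K Ω c) → IsEv N P φ →
    IsEv N (arithmeticGalois (modularFunctionFieldFull N) τ • P) ((τ : Ω →+* Ω).comp φ)

/-- **E4** (counting): two zeros of `j - t`, `t` transcendental over `K`, with the same
evaluation homomorphism on `K(X₀(N))` are equal. -/
def Stmt_E4 [NeZero N] : Prop :=
  ∀ (P Q : Place Ω (FNL Ω N)) (t : Ω), ZeroAt N P t → ZeroAt N Q t → Transcendental K t →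
    ∀ φ : FNL K N →+* Ω, IsEv N P φ → IsEv N Q φ → P = Q

end Fermat.Agent.S17.W2.H18
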