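import Fermat.Agent.S17.W2.H18_GeoDefs
import Fermat.Agent.RED.H51_Basic

/-!
# S17-W2, package GEO, parts E1–E3: evaluation at a generic place (helper18)

* `HasVal P f a`: `f - a` vanishes at `P`; calculus of values.
* `stmt_E3`: evaluation is equivariant.
* `stmt_E12`: a place with `j`-value transcendental over `K` has an evaluation homomorphism on
  `K(X₀(N))` (from `Stmt_Gb`: `K(X₀(N))` is algebraic over `K(j)`).
-/

set_option autoImplicit false
set_option linter.unusedSectionVars false

noncomputable section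

namespace Fermat.Agent.S17.W2.H18

open AlgebraicCurve IntermediateField ModularCurve Fermat.Agent.GTor Fermat.Agent.RED Polynomial

/-! ## Values at a place -/

section Val

variable {Ω F : Type*} [Field Ω] [Field F] [Algebra Ω F]

/-- `f` has the value `a` at `P`. -/
def HasVal (P : Place Ω F) (f : F) (a : Ω) : Prop := H17.VanAt P (f - algebraMap Ω F a)

variable {P : Place Ω F} {f g : F} {a b : Ω}

theorem HasVal.regAt (h : HasVal P f a) : H17.RegAt P f := H17.RegAt.of_vanAt_sub h

theorem hasVal_algebraMap (P : Place Ω F) (a : Ω) : HasVal P (algebraMap Ω F a) a := by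
  unfold HasVal
  rw [sub_self]
  exact H17.vanAt_zero P

theorem hasVal_zero (P : Place Ω F) : HasVal P (0 : F) 0 := by
  simpa using hasVal_algebraMap P (0 : Ω)

theorem hasVal_one (P : Place Ω F) : HasVal P (1 : F) 1 := by
  simpa using hasVal_algebraMap P (1 : Ω)

theorem HasVal.unique (h : HasVal P f a) (h' : HasVal P f b) : a = b :=
  H17.value_unique P h h'

theorem HasVal.add (h : HasVal P f a) (h' : HasVal P g b) : HasVal P (f + g) (a + b) := by
  unfold HasVal at *
  have := h.add h'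
  rw [map_add]
  rwa [show f + g - (algebraMap Ω F a + algebraMap Ω F b)
    = f - algebraMap Ω F a + (g - algebraMap Ω F b) by ring]

theorem HasVal.neg (h : HasVal P f a) : HasVal P (-f) (-a) := by
  unfold HasVal at *
  have := h.neg
  rw [map_neg]
  rwa [show -f - -algebraMap Ω F a = -(f - algebraMap Ω F a) by ring]

theorem HasVal.sub (h : HasVal P f a) (h' : HasVal P g b) : HasVal P (f - g) (a - b) := by
  rw [sub_eq_add_neg, sub_eq_add_neg]
  exact h.add h'.neg

theorem HasVal.mul (h : HasVal P f a) (h' : HasVal P g b) : HasVal P (f * g) (a * b) := by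
  have h1 : H17.VanAt P ((f - algebraMap Ω F a) * g) := H17.VanAt.mul_regAt h h'.regAt
  have h2 : H17.VanAt P (algebraMap Ω F a * (g - algebraMap Ω F b)) :=
    H17.RegAt.mul_vanAt (H17.regAt_algebraMap P a) h'
  unfold HasVal
  have := h1.add h2
  rw [map_mul]
  rwa [show f * g - algebraMap Ω F a * algebraMap Ω F b
    = (f - algebraMap Ω F a) * g + algebraMap Ω F a * (g - algebraMap Ω F b) by ring]

theorem HasVal.pow (h : HasVal P f a) (n : ℕ) : HasVal P (f ^ n) (a ^ n) := by
  induction n with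
  | zero => simpa using hasVal_one P
  | succ n ih => rw [pow_succ, pow_succ]; exact ih.mul h

theorem HasVal.adicValuation_eq_one (h : HasVal P f a) (ha : a ≠ 0) :
    P.adicValuation f = 1 := by
  have h1 : P.adicValuation (algebraMap Ω F a) = 1 := H17.adicValuation_algebraMap P ha
  have h2 : P.adicValuation (f - algebraMap Ω F a) < 1 := h
  have h3 : f = algebraMap Ω F a + (f - algebraMap Ω F a) := by ring
  rw [h3, Valuation.map_add_eq_of_lt_left _ (by rw [h1]; exact h2), h1]

theorem HasVal.ne_zero (h : HasVal P f a) (ha : a ≠ 0) : f ≠ 0 := by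
  intro hf
  have := h.adicValuation_eq_one ha
  rw [hf, map_zero] at this
  exact zero_ne_one this

theorem HasVal.inv (h : HasVal P f a) (ha : a ≠ 0) : HasVal P f⁻¹ a⁻¹ := by
  have hf : f ≠ 0 := h.ne_zero ha
  have hreg : H17.RegAt P f⁻¹ := by
    unfold H17.RegAt
    rw [map_inv₀, h.adicValuation_eq_one ha, inv_one]
  have h1 : H17.VanAt P ((f - algebraMap Ω F a) * f⁻¹) := H17.VanAt.mul_regAt h hreg
  have h2 : H17.VanAt P (-(algebraMap Ω F a⁻¹) * ((f - algebraMap Ω F a) * f⁻¹)) :=
    H17.RegAt.mul_vanAt (H17.regAt_algebraMap P a⁻¹).neg h1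
  unfold HasVal
  have hne : algebraMap Ω F a ≠ 0 := by
    rw [Ne, map_eq_zero_iff _ (algebraMap Ω F).injective]
    exact ha
  rw [show f⁻¹ - algebraMap Ω F a⁻¹
    = -(algebraMap Ω F a⁻¹) * ((f - algebraMap Ω F a) * f⁻¹) by
      rw [map_inv₀]
      field_simp
      ring]
  exact h2

theorem HasVal.div (h : HasVal P f a) (h' : HasVal P g b) (hb : b ≠ 0) :
    HasVal P (f / g) (a / b) := by
  rw [div_eq_mul_inv, div_eq_mul_inv]
  exact h.mul (h'.inv hb)

theorem HasVal.ord_eq_zero (h : HasVal P f a) (ha : a ≠ 0) : P.ord f = 0 := by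
  have hf := h.ne_zero ha
  have h1 : 0 ≤ P.ord f := h.regAt.ord_nonneg
  have h2 : 0 ≤ P.ord f⁻¹ := (h.inv ha).regAt.ord_nonneg
  rw [P.ord_inv] at h2
  omega

theorem hasVal_smul (g : SemilinearAut Ω F) (h : HasVal P f a) :
    HasVal (g • P) (g • f) (SemilinearAut.baseAut g a) := by
  unfold HasVal at *
  rw [← SemilinearAut.smul_algebraMap, ← smul_sub]
  rw [H17.vanAt_iff_ord] at h ⊢
  rcases h with h | h
  · left
    rw [h, smul_zero]
  · right
    rw [SemilinearAut.ord_smul]
    exact h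

end Val

/-! ## The abstract layer -/

section Abstract

variable {K Ω : Type} [Field K] [Field Ω] [Algebra ℚ K] [Algebra ℚ Ω] [Algebra K Ω] (N : ℕ)

theorem isEv_iff (P : Place Ω (FNL Ω N)) (φ : FNL K N →+* Ω) :
    IsEv N P φ ↔ ∀ e : FNL K N, HasVal P (bc K Ω N e) (φ e) := Iff.rfl

theorem bc_algebraMap (c : K) :
    bc K Ω N (algebraMap K (FNL K N) c) = algebraMap Ω (FNL Ω N) (algebraMap K Ω c) :=
  H75.bcHom_algebraMap _ _ c

theorem bc_jL [NeZero N] : bc K Ω N (H33.jL K N) = H33.jL Ω N :=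
  Subtype.ext (H75.coeffMap_coeffEmb' (algebraMap K Ω) jq)

theorem smul_bc (τ : Ω ≃ₐ[ℚ] Ω) (hτ : ∀ c : K, τ (algebraMap K Ω c) = algebraMap K Ω c)
    (e : FNL K N) :
    arithmeticGalois (modularFunctionFieldFull N) τ • bc K Ω N e = bc K Ω N e := by
  apply Subtype.ext
  show coeffMap (τ : Ω →+* Ω) (coeffMap (algebraMap K Ω) (e : LaurentSeries K))
    = coeffMap (algebraMap K Ω) (e : LaurentSeries K)
  rw [coeffMap_coeffMap]
  exact coeffMap_congr (RingHom.ext fun c => hτ c) _

/-- **E3**. -/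
theorem stmt_E3 : Stmt_E3 K Ω N := by
  intro P φ τ hτ hev e
  have h := hasVal_smul (arithmeticGalois (modularFunctionFieldFull N) τ) (hev e)
  rw [smul_bc N τ hτ] at h
  exact h

theorem zeroAt_iff [NeZero N] (P : Place Ω (FNL Ω N)) (t : Ω) :
    ZeroAt N P t ↔ HasVal P (H33.jL Ω N) t := by
  unfold ZeroAt HasVal
  rw [H17.vanAt_iff_ord]
  constructor
  · intro h; exact Or.inr h
  · rintro (h | h)
    · exact absurd (sub_eq_zero.mp h) (H33.jL_ne_algebraMap Ω N t)
    · exact h

theorem zeroAt_smul [NeZero N] {P : Place Ω (FNL Ω N)} {t : Ω} (h : ZeroAt N P t)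
    (τ : Ω ≃ₐ[ℚ] Ω) :
    ZeroAt N (arithmeticGalois (modularFunctionFieldFull N) τ • P) (τ t) := by
  rw [zeroAt_iff] at h ⊢
  have h2 := hasVal_smul (arithmeticGalois (modularFunctionFieldFull N) τ) h
  have h3 : arithmeticGalois (modularFunctionFieldFull N) τ • H33.jL Ω N = H33.jL Ω N :=
    Subtype.ext (coeffMap_coeffEmb τ jq)
  rw [h3] at h2
  exact h2

variable [NeZero N]

/-- The value of a polynomial in `j`. -/
theorem hasVal_eval₂ {P : Place Ω (FNL Ω N)} {t : Ω} (h : ZeroAt N P t) (p : K[X]) :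
    HasVal P (bc K Ω N (eval₂ (algebraMap K (FNL K N)) (H33.jL K N) p))
      (eval₂ (algebraMap K Ω) t p) := by
  rw [zeroAt_iff] at h
  induction p using Polynomial.induction_on' with
  | add p q hp hq =>
    rw [eval₂_add, eval₂_add, map_add]
    exact hp.add hq
  | monomial n c =>
    rw [eval₂_monomial, eval₂_monomial, map_mul, map_pow, bc_algebraMap, bc_jL]
    exact (hasVal_algebraMap P _).mul (h.pow n)

set_option synthInstance.maxHeartbeats 400000 in
theorem hasVal_aeval {P : Place Ω (FNL Ω N)} {t : Ω} (h : ZeroAt N P t) (p : K[X]) :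
    HasVal P (bc K Ω N (aeval (H33.jL K N) p)) (aeval t p) := by
  rw [aeval_def, aeval_def]
  exact hasVal_eval₂ N h p

set_option synthInstance.maxHeartbeats 400000 in
/-- The functions in `K(j)` are regular at a generic place. -/
theorem regAt_of_mem_adjoin {P : Place Ω (FNL Ω N)} {t : Ω} (h : ZeroAt N P t)
    (ht : Transcendental K t) {a : FNL K N} (ha : a ∈ K⟮H33.jL K N⟯) :
    H17.RegAt P (bc K Ω N a) := by
  obtain ⟨r, s, rfl⟩ := (mem_adjoin_simple_iff K a).mp ha
  by_cases hs : s = 0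
  · rw [hs, map_zero, div_zero, map_zero]
    exact H17.regAt_zero P
  · have hst : aeval t s ≠ 0 := fun h0 => hs ((transcendental_iff.mp ht) s h0)
    rw [map_div₀]
    exact ((hasVal_aeval N h r).div (hasVal_aeval N h s) hst).regAt

set_option synthInstance.maxHeartbeats 400000 in
/-- **E1**: all functions defined over `K` are regular at a generic place. -/
theorem regAt_bc (hGb : Stmt_Gb K N) {P : Place Ω (FNL Ω N)} {t : Ω} (h : ZeroAt N P t)
    (ht : Transcendental K t) (e : FNL K N) : H17.RegAt P (bc K Ω N e) := by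
  rw [H17.regAt_iff_mem]
  let V : ValuationSubring (FNL K N) := P.toValuationSubring.comap (bc K Ω N)
  show e ∈ V
  have hle : ∀ a : FNL K N, a ∈ K⟮H33.jL K N⟯ → a ∈ V := fun a ha =>
    (H17.regAt_iff_mem P _).mp (regAt_of_mem_adjoin N h ht ha)
  let ψ : K⟮H33.jL K N⟯ →+* V :=
    { toFun := fun a => ⟨(a : FNL K N), hle a a.2⟩
      map_one' := rfl
      map_mul' := fun _ _ => rfl
      map_zero' := rfl
      map_add' := fun _ _ => rfl }
  have hint : IsIntegral K⟮H33.jL K N⟯ e := (hGb e).isIntegral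
  obtain ⟨p, hp, hpe⟩ := hint
  have hV : IsIntegral V e := by
    refine ⟨p.map ψ, hp.map ψ, ?_⟩
    rw [eval₂_map]
    exact hpe
  obtain ⟨y, hy⟩ := IsIntegrallyClosed.isIntegral_iff.mp hV
  rw [← hy]
  exact y.2

/-- **E1 + E2**. -/
theorem stmt_E12 [IsAlgClosed Ω] [CharZero Ω] (hGb : Stmt_Gb K N) : Stmt_E12 K Ω N := by
  intro P t h ht
  have hFF : IsFF Ω (FNL Ω N) := H33.exists_transcendental_finite Ω N
  have hdeg : P.deg = 1 := H51.stmt_FFB_deg Ω (FNL Ω N) hFF P
  have hex : ∀ e : FNL K N, ∃ c : Ω, HasVal P (bc K Ω N e) c := fun e =>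
    H17.exists_value P hdeg (regAt_bc N hGb h ht e)
  choose φ hφ using hex
  have huniq : ∀ (e : FNL K N) (c : Ω), HasVal P (bc K Ω N e) c → φ e = c := fun e c hc =>
    (hφ e).unique hc
  refine ⟨{ toFun := φ
            map_one' := huniq 1 1 (by rw [map_one]; exact hasVal_one P)
            map_mul' := fun x y => huniq _ _ (by rw [map_mul]; exact (hφ x).mul (hφ y))
            map_zero' := huniq 0 0 (by rw [map_zero]; exact hasVal_zero P)
            map_add' := fun x y => huniq _ _ (by rw [map_add]; exact (hφ x).add (hφ y)) },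
    fun e => hφ e, ?_, fun c => ?_⟩
  · refine huniq _ _ ?_
    rw [bc_jL]
    exact (zeroAt_iff N P t).mp h
  · refine huniq _ _ ?_
    rw [bc_algebraMap]
    exact hasVal_algebraMap P _

end Abstract

end Fermat.Agent.S17.W2.H18
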