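import Fermat.Agent.S17.W2.H18_GeoDefs
import Fermat.Agent.RED.KD.H22_CuspPlaces

/-!
# S17-W2, package GEO, part G-a: the `Setting` on `Ω(X₀(N))` (helper18)
-/

set_option autoImplicit false
set_option linter.unusedSectionVars false

noncomputable section

namespace Fermat.Agent.S17.W2.H18

open AlgebraicCurve IntermediateField ModularCurve Fermat.Agent.GTor Fermat.Agent.RED
open scoped Pointwise

section Order

variable (Ω : Type) [Field Ω] [Algebra ℚ Ω] (N : ℕ) [NeZero N]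

theorem jL_coe : ((H33.jL Ω N : FNL Ω N) : LaurentSeries Ω) = coeffEmb Ω jq := rfl

theorem jL_ne_zero : H33.jL Ω N ≠ 0 := by
  intro h
  have h1 := H33.jL_ne_algebraMap Ω N 0
  rw [map_zero] at h1
  exact h1 h

theorem jL_order : ((H33.jL Ω N : FNL Ω N) : LaurentSeries Ω).order = -1 := by
  have hne : ((H33.jL Ω N : FNL Ω N) : LaurentSeries Ω) ≠ 0 := fun h =>
    jL_ne_zero Ω N (Subtype.ext h)
  apply le_antisymm
  · refine HahnSeries.order_le_of_coeff_ne_zero ?_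
    rw [jL_coe, coeffEmb_coeff, coeff_jq_neg_one, map_one]
    exact one_ne_zero
  · by_contra hcon
    rw [not_le] at hcon
    have h1 : ((H33.jL Ω N : FNL Ω N) : LaurentSeries Ω).coeff
        ((H33.jL Ω N : FNL Ω N) : LaurentSeries Ω).order = 0 := by
      rw [jL_coe, coeffEmb_coeff, coeff_jq_of_lt (by rw [← jL_coe Ω N]; exact hcon), map_zero]
    exact hne (HahnSeries.coeff_order_eq_zero.mp h1)

/-- The place `q = 0` of `Ω(X₀(N))`. -/
def ooPlace : Place Ω (FNL Ω N) :=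
  KD.H22.laurentPlace (laurentBaseChange Ω (modularFunctionFieldFull N)) (H33.jL Ω N)
    (jL_order Ω N)

theorem mem_ooPlace_iff (x : FNL Ω N) :
    x ∈ (ooPlace Ω N).toValuationSubring ↔ x = 0 ∨ 0 ≤ (x : LaurentSeries Ω).order :=
  KD.H22.mem_laurentPlace_iff _ _ _ x

theorem order_coeffMap (τ : Ω ≃+* Ω) (x : LaurentSeries Ω) :
    (coeffMap (τ : Ω →+* Ω) x).order = x.order := by
  rcases eq_or_ne x 0 with rfl | hx
  · simp
  have hinj : Function.Injective (coeffMap (τ : Ω →+* Ω)) := fun a b h => by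
    ext m
    have := congrArg (fun z => z.coeff m) h
    simpa using this
  have hx' : coeffMap (τ : Ω →+* Ω) x ≠ 0 := fun h => hx (hinj (by rw [h, map_zero]))
  apply le_antisymm
  · refine HahnSeries.order_le_of_coeff_ne_zero ?_
    rw [coeffMap_coeff]
    intro h
    have h2 : x.coeff x.order = 0 := by
      have := congrArg τ.symm h
      simpa using this
    exact hx (HahnSeries.coeff_order_eq_zero.mp h2)
  · refine HahnSeries.order_le_of_coeff_ne_zero ?_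
    intro h
    have h2 : (coeffMap (τ : Ω →+* Ω) x).coeff (coeffMap (τ : Ω →+* Ω) x).order = 0 := by
      rw [coeffMap_coeff, h, map_zero]
    exact hx' (HahnSeries.coeff_order_eq_zero.mp h2)

theorem smul_ooPlace (τ : Ω ≃ₐ[ℚ] Ω) :
    arithmeticGalois (modularFunctionFieldFull N) τ • ooPlace Ω N = ooPlace Ω N := by
  ext1
  rw [SemilinearAut.smul_toValuationSubring]
  ext x
  rw [ValuationSubring.mem_pointwise_smul_iff_inv_smul_mem, mem_ooPlace_iff, mem_ooPlace_iff]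
  have hcoe : (((arithmeticGalois (modularFunctionFieldFull N) τ)⁻¹ • x : FNL Ω N) :
      LaurentSeries Ω) = coeffMap ((τ.symm : Ω ≃ₐ[ℚ] Ω) : Ω →+* Ω) (x : LaurentSeries Ω) := rfl
  have h0 : ((arithmeticGalois (modularFunctionFieldFull N) τ)⁻¹ • x = 0) ↔ x = 0 :=
    smul_eq_zero_iff_eq _
  rw [h0, hcoe]
  have := order_coeffMap Ω (τ.symm : Ω ≃ₐ[ℚ] Ω).toRingEquiv (x : LaurentSeries Ω)
  rw [show (((τ.symm : Ω ≃ₐ[ℚ] Ω).toRingEquiv : Ω ≃+* Ω) : Ω →+* Ω)
    = ((τ.symm : Ω ≃ₐ[ℚ] Ω) : Ω →+* Ω) from rfl] at this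
  rw [this]

theorem smul_jL (τ : Ω ≃ₐ[ℚ] Ω) :
    arithmeticGalois (modularFunctionFieldFull N) τ • H33.jL Ω N = H33.jL Ω N :=
  Subtype.ext (coeffMap_coeffEmb τ jq)

end Order

section Setting

variable (Ω : Type) [Field Ω] [Algebra ℚ Ω] [Algebra (AlgebraicClosure ℚ) Ω] (N : ℕ) [NeZero N]

/-- Restriction of scalars `Aut(Ω / ℚ̄) → Aut(Ω / ℚ)`. -/
def resQ : (Ω ≃ₐ[AlgebraicClosure ℚ] Ω) →* (Ω ≃ₐ[ℚ] Ω) where
  toFun σ := σ.restrictScalars ℚ
  map_one' := rfl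
  map_mul' _ _ := rfl

@[simp] theorem resQ_apply (σ : Ω ≃ₐ[AlgebraicClosure ℚ] Ω) (a : Ω) : resQ Ω σ a = σ a := rfl

/-- The coefficientwise action of `Aut(Ω / ℚ̄)` on `Ω(X₀(N))`. -/
def rho : (Ω ≃ₐ[AlgebraicClosure ℚ] Ω) →* SemilinearAut Ω (FNL Ω N) :=
  (arithmeticGalois (modularFunctionFieldFull N)).comp (resQ Ω)

theorem rho_apply (σ : Ω ≃ₐ[AlgebraicClosure ℚ] Ω) :
    rho Ω N σ = arithmeticGalois (modularFunctionFieldFull N) (resQ Ω σ) := rfl

/-- **G-a**: the setting on `Ω(X₀(N))`. -/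
def geoSetting : Setting (AlgebraicClosure ℚ) Ω (FNL Ω N) where
  ρ := rho Ω N
  baseAut_ρ := fun _ _ => rfl
  j := H33.jL Ω N
  ρ_j := fun σ => smul_jL Ω N (resQ Ω σ)
  oo := ooPlace Ω N
  ρ_oo := fun σ => smul_ooPlace Ω N (resQ Ω σ)

@[simp] theorem geoSetting_j : (geoSetting Ω N).j = H33.jL Ω N := rfl

@[simp] theorem geoSetting_ρ (σ : Ω ≃ₐ[AlgebraicClosure ℚ] Ω) :
    (geoSetting Ω N).ρ σ = arithmeticGalois (modularFunctionFieldFull N) (resQ Ω σ) := rfl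

theorem geoSetting_isZeroAt (P : Place Ω (FNL Ω N)) (t : Ω) :
    (geoSetting Ω N).IsZeroAt P t ↔ ZeroAt N P t := Iff.rfl

theorem geoSetting_j_ne (c : Ω) : (geoSetting Ω N).j ≠ algebraMap Ω (FNL Ω N) c :=
  H33.jL_ne_algebraMap Ω N c

end Setting

end Fermat.Agent.S17.W2.H18
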