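import Fermat.Agent.S17.W2.H75_AUniq

/-!
# S17-W2, leaf A (helper75): divisor bookkeeping of the descent of `n`-divisibility

Abstract form: `β : F₁ → F₂` a homomorphism of function fields over `k → K`, every place `v` of
`F₁` has an extension `wOf v` with `ord_{wOf v} (β g) = ord_v g`, all places have degree one.
If every `φ ∈ F₂^×` with `div φ = -n E + β_* D₀` is of the form `β(φ₀) hⁿ`, then `n`-divisibility
of `Pic⁰(F₂)` implies `n`-divisibility of `Pic⁰(F₁)`.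
-/

set_option autoImplicit false
set_option linter.style.haveILetI false
set_option linter.unusedSectionVars false

noncomputable section

namespace Fermat.Agent.S17.W2.H75

open AlgebraicCurve

section Abstract

variable {k K F₁ F₂ : Type*} [Field k] [Field K] [Field F₁] [Field F₂] [Algebra k F₁]
  [Algebra K F₂]

theorem degree_mapDomain (wOf : Place k F₁ → Place K F₂)
    (hdeg₁ : ∀ v : Place k F₁, v.deg = 1) (hdeg₂ : ∀ w : Place K F₂, w.deg = 1)
    (D : Divisor k F₁) :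
    Divisor.degree (Finsupp.mapDomain wOf D : Divisor K F₂) = Divisor.degree D := by
  classical
  induction D using Finsupp.induction_linear with
  | zero => simp
  | add D E hD hE => rw [Finsupp.mapDomain_add, map_add, map_add, hD, hE]
  | single v a =>
    rw [Finsupp.mapDomain_single, Divisor.degree_single, Divisor.degree_single, hdeg₁, hdeg₂]

theorem ord_pow' (w : Place K F₂) (f : F₂) (n : ℕ) : w.ord (f ^ n) = n * w.ord f := by
  have := w.ord_zpow f (n : ℤ)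
  rwa [zpow_natCast] at this

variable (β : F₁ →+* F₂) (n : ℕ) (hn : n ≠ 0) (wOf : Place k F₁ → Place K F₂)
  (hwOf : ∀ (v : Place k F₁) (g : F₁), (wOf v).ord (β g) = v.ord g)
  (hdeg₁ : ∀ v : Place k F₁, v.deg = 1) (hdeg₂ : ∀ w : Place K F₂, w.deg = 1)
  [HasPrincipalDivisors k F₁]

include hwOf in
theorem wOf_injective : Function.Injective wOf := by
  intro v v' h
  apply place_ext_of_ord
  intro g
  rw [← hwOf v g, ← hwOf v' g, h]

include hn hwOf hdeg₁ hdeg₂ in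
theorem divisible_of_descent
    (hdesc : ∀ (D₀ : Divisor k F₁) (E : Divisor K F₂) (φ : F₂), φ ≠ 0 →
      (∀ w : Place K F₂, w.ord φ = -((n : ℤ) * E w) + (Finsupp.mapDomain wOf D₀ : Divisor K F₂) w) →
      ∃ (φ₀ : F₁) (h : F₂), φ₀ ≠ 0 ∧ h ≠ 0 ∧ φ = β φ₀ * h ^ n)
    (hdiv : ∀ z : Pic0 K F₂, ∃ y : Pic0 K F₂, n • y = z) :
    ∀ x : Pic0 k F₁, ∃ y : Pic0 k F₁, n • y = x := by
  classical
  intro x
  obtain ⟨D₀', rfl⟩ := Pic0.mk_surjective x
  set D₀ : Divisor k F₁ := (D₀' : Divisor k F₁) with hD₀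
  have hD₀deg : Divisor.degree D₀ = 0 := D₀'.2
  set B : Divisor K F₂ := Finsupp.mapDomain wOf D₀ with hB
  have hBdeg : Divisor.degree B = 0 := by
    rw [hB, degree_mapDomain wOf hdeg₁ hdeg₂, hD₀deg]
  obtain ⟨y, hy⟩ := hdiv (Pic0.mk ⟨B, hBdeg⟩)
  obtain ⟨E', rfl⟩ := Pic0.mk_surjective y
  have hmem : -(n • E') + ⟨B, hBdeg⟩ ∈
      (Divisor.principal (K := K) (F := F₂)).addSubgroupOf (Divisor.degZero (K := K) (F := F₂)) :=
    QuotientAddGroup.eq.mp hy
  rw [AddSubgroup.mem_addSubgroupOf] at hmem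
  obtain ⟨φ, hφ0, hφ⟩ := hmem
  set E : Divisor K F₂ := (E' : Divisor K F₂) with hE
  have hφ' : ∀ w : Place K F₂, w.ord φ = -((n : ℤ) * E w) + B w := by
    intro w
    rw [← hφ w]
    simp only [AddSubgroup.coe_add, AddSubgroup.coe_neg, AddSubgroup.coe_nsmul,
      Finsupp.add_apply, Finsupp.neg_apply, Finsupp.smul_apply, nsmul_eq_mul]
    rfl
  obtain ⟨φ₀, h, hφ₀, hh, hfac⟩ := hdesc D₀ E φ hφ0 hφ'
  have hinj := wOf_injective β wOf hwOf
  -- orders of `φ₀`
  have hord : ∀ v : Place k F₁, D₀ v - v.ord φ₀ = (n : ℤ) * (E (wOf v) + (wOf v).ord h) := by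
    intro v
    have h1 : (wOf v).ord φ = v.ord φ₀ + n * (wOf v).ord h := by
      rw [hfac, (wOf v).ord_mul ((map_ne_zero β).mpr hφ₀) (pow_ne_zero n hh), hwOf, ord_pow']
    have h2 : B (wOf v) = D₀ v := by
      rw [hB]
      exact Finsupp.mapDomain_apply hinj D₀ v
    have h3 := hφ' (wOf v)
    rw [h2, h1] at h3
    linarith
  obtain ⟨P, hP, hPdeg⟩ := HasPrincipalDivisors.exists_divisor (K := k) φ₀ hφ₀
  set D₁ : Divisor k F₁ := D₀ - P with hD₁
  have hD₁v : ∀ v, D₁ v = (n : ℤ) * (E (wOf v) + (wOf v).ord h) := by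
    intro v
    rw [hD₁, Finsupp.sub_apply, hP v, hord v]
  have hn' : (n : ℤ) ≠ 0 := Nat.cast_ne_zero.mpr hn
  set E₀ : Divisor k F₁ := D₁.mapRange (fun a => a / (n : ℤ)) (by simp) with hE₀
  have hnE₀ : n • E₀ = D₁ := by
    ext v
    rw [Finsupp.smul_apply, hE₀, Finsupp.mapRange_apply, nsmul_eq_mul, hD₁v v,
      Int.mul_ediv_cancel_left _ hn']
  have hD₁deg : Divisor.degree D₁ = 0 := by
    rw [hD₁, map_sub, hD₀deg, hPdeg, sub_zero]
  have hE₀deg : Divisor.degree E₀ = 0 := by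
    have : (n : ℤ) * Divisor.degree E₀ = 0 := by
      rw [← nsmul_eq_mul, ← map_nsmul, hnE₀, hD₁deg]
    exact (mul_eq_zero.mp this).resolve_left hn'
  refine ⟨Pic0.mk ⟨E₀, hE₀deg⟩, ?_⟩
  show (QuotientAddGroup.mk (n • (⟨E₀, hE₀deg⟩ : Divisor.degZero (K := k) (F := F₁))) :
    Pic0 k F₁) = QuotientAddGroup.mk D₀'
  rw [QuotientAddGroup.eq, AddSubgroup.mem_addSubgroupOf]
  refine ⟨φ₀, hφ₀, fun v => ?_⟩
  simp only [AddSubgroup.coe_add, AddSubgroup.coe_neg, AddSubgroup.coe_nsmul,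
    Finsupp.add_apply, Finsupp.neg_apply]
  rw [hnE₀, hD₁, Finsupp.sub_apply, hP v]
  show -(D₀ v - v.ord φ₀) + D₀ v = v.ord φ₀
  ring

end Abstract

end Fermat.Agent.S17.W2.H75
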