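import Fermat.Agent.GTor.H33_GaussExt

/-!
# S17-W2, leaf A (helper75): uniqueness of the Gauss extension of a place of degree one

`v` a place of degree one of `F / k`, `M = Frac (F ⊗[k] K)`.  Every place `w` of `M / K` with
`ord_w (ψ g) = ord_v g` for all `g ∈ F` is given by the Gauss formula on `F ⊗[k] K`; hence there is
at most one such place.
-/

set_option autoImplicit false
set_option linter.style.haveILetI false
set_option linter.unusedSectionVars false

noncomputable section

namespace Fermat.Agent.S17.W2.H75

open AlgebraicCurve WithZero IsLocalRing TensorProduct Fermat.Agent.GTor.H33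

section Basic

variable {K F : Type*} [Field K] [Field F] [Algebra K F]

theorem adicValuation_eq_exp_neg_ord (w : Place K F) {f : F} (hf : f ≠ 0) :
    w.adicValuation f = exp (-(w.ord f)) := by
  rw [Place.ord, neg_neg, exp_log (w.adicValuation_ne_zero hf)]

theorem adicValuation_algebraMap (w : Place K F) {c : K} (hc : c ≠ 0) :
    w.adicValuation (algebraMap K F c) = 1 := by
  apply le_antisymm (adicValuation_le_one_of_mem w (w.algebraMap_mem' c))
  have h1 := adicValuation_le_one_of_mem w (w.algebraMap_mem' c⁻¹)
  rw [map_inv₀, map_inv₀] at h1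
  have h0 : w.adicValuation (algebraMap K F c) ≠ 0 :=
    w.adicValuation_ne_zero ((map_ne_zero _).mpr hc)
  by_contra hlt
  rw [not_le] at hlt
  have : 1 < (w.adicValuation (algebraMap K F c))⁻¹ :=
    (one_lt_inv₀ (zero_lt_iff.mpr h0)).mpr hlt
  exact absurd h1 (not_le.mpr this)

/-- a place is determined by its order function -/
theorem place_ext_of_ord {w w' : Place K F} (h : ∀ f : F, w.ord f = w'.ord f) : w = w' := by
  apply Place.ext
  ext f
  rcases eq_or_ne f 0 with rfl | hf
  · simp
  constructor
  · intro hm
    have h1 : w.adicValuation f ≤ 1 := adicValuation_le_one_of_mem w hm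
    apply mem_of_adicValuation_le_one w'
    rw [adicValuation_eq_exp_neg_ord w' hf, ← h f, ← adicValuation_eq_exp_neg_ord w hf]
    exact h1
  · intro hm
    have h1 : w'.adicValuation f ≤ 1 := adicValuation_le_one_of_mem w' hm
    apply mem_of_adicValuation_le_one w
    rw [adicValuation_eq_exp_neg_ord w hf, h f, ← adicValuation_eq_exp_neg_ord w' hf]
    exact h1

end Basic

section Uniq

variable {k K F M : Type*} [Field k] [Field K] [Field F] [Field M] [Algebra k K] [Algebra k F]
  [Algebra K M] [Algebra k M] [IsScalarTower k K M]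
variable (ψ : F →ₐ[k] M) (v : Place k F) {I : Type*} (b : Module.Basis I k K)
variable (w : Place K M) (hw : ∀ g : F, w.ord (ψ g) = v.ord g)
include hw

theorem adicValuation_map (g : F) : w.adicValuation (ψ g) = v.adicValuation g := by
  rcases eq_or_ne g 0 with rfl | hg
  · simp
  rw [adicValuation_eq_exp_neg_ord w ((map_ne_zero ψ).mpr hg), hw,
    ← adicValuation_eq_exp_neg_ord v hg]

theorem adicValuation_tensorToField_le (x : F ⊗[k] K) :
    w.adicValuation (tensorToField (K := K) ψ x) ≤ gaussFun v b x := by
  classical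
  have hx : x = ((Algebra.TensorProduct.basis F b).repr x).sum
      (fun i a => a • (Algebra.TensorProduct.basis F b) i) :=
    ((Algebra.TensorProduct.basis F b).linearCombination_repr x).symm
  conv_lhs => rw [hx]
  rw [Finsupp.sum, map_sum]
  apply Valuation.map_sum_le
  intro i _
  rw [Algebra.TensorProduct.basis_apply, TensorProduct.smul_tmul', smul_eq_mul, mul_one,
    tensorToField_tmul, map_mul, adicValuation_map ψ v w hw]
  calc v.adicValuation ((Algebra.TensorProduct.basis F b).repr x i) *
        w.adicValuation (algebraMap K M (b i))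
      ≤ v.adicValuation ((Algebra.TensorProduct.basis F b).repr x i) * 1 :=
        mul_le_mul' le_rfl (adicValuation_le_one_of_mem w (w.algebraMap_mem' _))
    _ = v.adicValuation ((Algebra.TensorProduct.basis F b).repr x i) := mul_one _
    _ ≤ gaussFun v b x := (gaussFun_le_iff v b).mp le_rfl i

theorem adicValuation_tensorToField (hdeg : v.deg = 1) (x : F ⊗[k] K) :
    w.adicValuation (tensorToField (K := K) ψ x) = gaussFun v b x := by
  classical
  obtain ⟨ε, hε⟩ := exists_residue v hdeg
  rcases eq_or_ne x 0 with rfl | hx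
  · simp [gaussFun_zero]
  obtain ⟨i, hi, hWx⟩ := exists_gaussFun_eq v b hx
  set f := (Algebra.TensorProduct.basis F b).repr x i with hf
  have hVf : v.adicValuation f ≠ 0 := v.adicValuation_ne_zero hi
  -- normalise
  have hx1 : gaussFun v b (f⁻¹ • x) = 1 := by
    rw [gaussFun_smul, map_inv₀, hWx, inv_mul_cancel₀ hVf]
  have hT : tensorToField (K := K) ψ (f⁻¹ • x) = ψ f⁻¹ * tensorToField (K := K) ψ x := by
    have : f⁻¹ • x = (f⁻¹ ⊗ₜ[k] (1 : K)) * x := by
      rw [Algebra.smul_def]
      rfl
    rw [this, map_mul, tensorToField_tmul, map_one, mul_one]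
  suffices h1 : w.adicValuation (tensorToField (K := K) ψ (f⁻¹ • x)) = 1 by
    rw [hT, map_mul, adicValuation_map ψ v w hw, map_inv₀] at h1
    rw [hWx]
    calc w.adicValuation (tensorToField (K := K) ψ x)
        = v.adicValuation f * ((v.adicValuation f)⁻¹ *
            w.adicValuation (tensorToField (K := K) ψ x)) := by
          rw [← mul_assoc, mul_inv_cancel₀ hVf, one_mul]
      _ = v.adicValuation f := by rw [h1, mul_one]
  obtain ⟨x', hx'⟩ := exists_gaussIncl_eq v b hx1.le
  rw [← hx'] at hx1 ⊢
  have hc : gaussRed v ε x' ≠ 0 := by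
    rw [Ne, ← gaussFun_gaussIncl_lt_iff v b ε hε, hx1]
    exact lt_irrefl _
  set c : K := gaussRed v ε x' with hcdef
  -- the difference has small valuation
  have hred : gaussRed v ε (x' - (1 : v.toValuationSubring) ⊗ₜ[k] c) = 0 := by
    rw [map_sub]
    have : gaussRed v ε ((1 : v.toValuationSubring) ⊗ₜ[k] c) = c := by
      simp [gaussRed]
    rw [this, sub_self]
  have hlt : gaussFun v b (gaussIncl v (x' - (1 : v.toValuationSubring) ⊗ₜ[k] c)) < 1 :=
    (gaussFun_gaussIncl_lt_iff v b ε hε _).mpr hred
  have hlt' : w.adicValuation (tensorToField (K := K) ψ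
      (gaussIncl v (x' - (1 : v.toValuationSubring) ⊗ₜ[k] c))) < 1 :=
    lt_of_le_of_lt (adicValuation_tensorToField_le ψ v b w hw _) hlt
  have hsplit : tensorToField (K := K) ψ (gaussIncl v x') =
      algebraMap K M c + tensorToField (K := K) ψ
        (gaussIncl v (x' - (1 : v.toValuationSubring) ⊗ₜ[k] c)) := by
    rw [map_sub, map_sub]
    have : tensorToField (K := K) ψ (gaussIncl v ((1 : v.toValuationSubring) ⊗ₜ[k] c))
        = algebraMap K M c := by
      simp [gaussIncl]
    rw [this]
    ring
  rw [hsplit]
  have hWc : w.adicValuation (algebraMap K M c) = 1 := adicValuation_algebraMap w hc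
  rw [← hWc]
  exact Valuation.map_add_eq_of_lt_left _ (by rw [hWc]; exact hlt')

/-- **Uniqueness of the Gauss extension.** -/
theorem place_unique (hdeg : v.deg = 1)
    (hgen : ∀ m : M, ∃ x y : F ⊗[k] K, m = tensorToField ψ x / tensorToField ψ y)
    (w' : Place K M) (hw' : ∀ g : F, w'.ord (ψ g) = v.ord g) : w = w' := by
  let b := Module.Basis.ofVectorSpace k K
  apply place_ext_of_ord
  intro m
  obtain ⟨x, y, rfl⟩ := hgen m
  have h1 : ∀ z : F ⊗[k] K, w.adicValuation (tensorToField (K := K) ψ z)
      = w'.adicValuation (tensorToField (K := K) ψ z) := fun z => by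
    rw [adicValuation_tensorToField ψ v b w hw hdeg, adicValuation_tensorToField ψ v b w' hw' hdeg]
  simp only [Place.ord, map_div₀, h1]

end Uniq

end Fermat.Agent.S17.W2.H75
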