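import Fermat.Agent.S17.W2.H18_GeoDefs

/-!
# S17-W2, GEO sub-leaf G-b (helper75): `K(X₀(N))` is finite over `K(j)`, `K ⊇ ℚ̄` arbitrary

`H33.finiteDimensional_FNL` with a ring homomorphism `ℚ̄ → K` instead of `IsAlgClosed K`.
-/

set_option autoImplicit false
set_option linter.style.haveILetI false
set_option linter.unusedSectionVars false

noncomputable section

namespace Fermat.Agent.S17.W2.H75

open AlgebraicCurve IntermediateField ModularCurve Fermat.Agent.GTor Fermat.Agent.S24 Polynomial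

section Gb

variable (K : Type) [Field K] [Algebra ℚ K] (N : ℕ) [NeZero N]

theorem bcHom_jF_hom (ι : Kbar →+* K) :
    GTor.H75.bcHom ι (modularFunctionFieldFull N) (jF N) = H33.jL K N :=
  Subtype.ext (GTor.H75.coeffMap_coeffEmb' ι jq)

set_option synthInstance.maxHeartbeats 400000 in
set_option maxHeartbeats 1600000 in
theorem isAlgebraic_gen_hom (ι : Kbar →+* K) {x : FNL K N} (hx : x ∈ H33.genSet K N) :
    IsAlgebraic K⟮H33.jL K N⟯ x := by
  obtain ⟨z, hz, hzx⟩ := hx
  haveI : FiniteDimensional Kbar⟮jF N⟯ (FN N) := asm_finiteDimensional (modClosure N)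
  let y : FN N := ⟨coeffEmb Kbar z, coeffEmb_mem_laurentBaseChange Kbar (subset_adjoin ℚ _ hz)⟩
  haveI : Algebra.IsAlgebraic Kbar⟮jF N⟯ (FN N) := Algebra.IsAlgebraic.of_finite _ _
  have hy : IsAlgebraic Kbar⟮jF N⟯ y := Algebra.IsAlgebraic.isAlgebraic y
  have h := H33.isAlgebraic_adjoin_map ι (GTor.H75.bcHom ι (modularFunctionFieldFull N))
    (GTor.H75.bcHom_algebraMap ι (modularFunctionFieldFull N)) (jF N) y hy
  rw [bcHom_jF_hom K N ι] at h
  have hyx : GTor.H75.bcHom ι (modularFunctionFieldFull N) y = x :=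
    Subtype.ext ((GTor.H75.coeffMap_coeffEmb' ι z).trans hzx)
  rwa [hyx] at h

set_option synthInstance.maxHeartbeats 400000 in
set_option maxHeartbeats 1600000 in
/-- `K(X₀(N)) / K(j)` is finite, for every field `K` receiving `ℚ̄`. -/
theorem finiteDimensional_FNL_hom (ι : Kbar →+* K) : FiniteDimensional K⟮H33.jL K N⟯ (FNL K N) := by
  haveI : Finite (H33.genSet K N) := (H33.genSet_finite K N).to_subtype
  have hfin : FiniteDimensional K⟮H33.jL K N⟯ (adjoin K⟮H33.jL K N⟯ (H33.genSet K N)) :=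
    IntermediateField.finiteDimensional_adjoin fun x hx =>
      (isAlgebraic_gen_hom K N ι hx).isIntegral
  have htop : adjoin K⟮H33.jL K N⟯ (H33.genSet K N) = ⊤ := by
    rw [← IntermediateField.restrictScalars_eq_top_iff (K := K), eq_top_iff,
      ← H33.adjoin_genSet K N, adjoin_le_iff]
    intro x hx
    exact subset_adjoin K⟮H33.jL K N⟯ _ hx
  rw [htop] at hfin
  exact (IntermediateField.topEquiv (F := K⟮H33.jL K N⟯)
    (E := FNL K N)).toLinearEquiv.finiteDimensional

set_option synthInstance.maxHeartbeats 400000 in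
/-- **G-b**, for a ring homomorphism `ℚ̄ → K`. -/
theorem stmt_Gb_hom (ι : Kbar →+* K) : H18.Stmt_Gb K N := fun e =>
  haveI := finiteDimensional_FNL_hom K N ι
  (Algebra.IsAlgebraic.of_finite K⟮H33.jL K N⟯ (FNL K N)).isAlgebraic e

/-- **G-b**. -/
theorem stmt_Gb [Algebra (AlgebraicClosure ℚ) K] : H18.Stmt_Gb K N :=
  stmt_Gb_hom K N (algebraMap (AlgebraicClosure ℚ) K)

end Gb

end Fermat.Agent.S17.W2.H75
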