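import Fermat.Agent.S17.W2.H75_GE4Abs
import Fermat.Agent.S17.W2.H75_Gb
import Fermat.Agent.S17.W2.H18_GeoAbs

/-!
# S17-W2, GEO sub-leaf G-d (helper75): `Stmt_E4` by counting

Two zeros `P`, `Q` of `j - t` (`t` transcendental over `K`) with the same evaluation homomorphism on
`E = K(X₀(N))` are equal:  the `d = [E : K(j)]` embeddings `ψ : E → Ω` over `K(j)` (`j ↦ t`) are all
of the form `ev_R` for zeros `R` of `j - t` (conjugacy of embeddings + equivariance), `ψ ↦ R_ψ` is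
injective, and `j - t` has at most `[F : Ω(j - t)] ≤ d` zeros.
-/

set_option autoImplicit false
set_option linter.style.haveILetI false
set_option linter.unusedSectionVars false

noncomputable section

namespace Fermat.Agent.S17.W2.H75

open AlgebraicCurve IntermediateField ModularCurve Fermat.Agent.GTor Fermat.Agent.RED Polynomial

section E4

variable {K Ω : Type} [Field K] [Field Ω] [Algebra ℚ K] [Algebra ℚ Ω] [Algebra K Ω] (N : ℕ)
  [NeZero N]

set_option synthInstance.maxHeartbeats 400000 in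
set_option maxHeartbeats 1600000 in
/-- `K(X₀(N)) / K(j)` is finite if it is algebraic. -/
theorem finiteDimensional_of_Gb (hGb : H18.Stmt_Gb K N) :
    FiniteDimensional K⟮H33.jL K N⟯ (FNL K N) := by
  haveI : Finite (H33.genSet K N) := (H33.genSet_finite K N).to_subtype
  have hfin : FiniteDimensional K⟮H33.jL K N⟯ (adjoin K⟮H33.jL K N⟯ (H33.genSet K N)) :=
    IntermediateField.finiteDimensional_adjoin fun x _ => (hGb x).isIntegral
  have htop : adjoin K⟮H33.jL K N⟯ (H33.genSet K N) = ⊤ := by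
    rw [← IntermediateField.restrictScalars_eq_top_iff (K := K), eq_top_iff,
      ← H33.adjoin_genSet K N, adjoin_le_iff]
    intro x hx
    exact subset_adjoin K⟮H33.jL K N⟯ _ hx
  rw [htop] at hfin
  exact (IntermediateField.topEquiv (F := K⟮H33.jL K N⟯)
    (E := FNL K N)).toLinearEquiv.finiteDimensional

set_option synthInstance.maxHeartbeats 400000 in
set_option maxHeartbeats 1600000 in
/-- `bc` maps `K(j)` into `Ω(j - t)`. -/
theorem bc_mem_adjoin_sub (t : Ω) {a : FNL K N} (ha : a ∈ K⟮H33.jL K N⟯) :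
    H18.bc K Ω N a ∈ Ω⟮H33.jL Ω N - algebraMap Ω (FNL Ω N) t⟯ := by
  induction ha using IntermediateField.adjoin_induction with
  | mem y hy =>
    rw [Set.mem_singleton_iff] at hy
    subst hy
    rw [H18.bc_jL]
    have h1 : (H33.jL Ω N - algebraMap Ω (FNL Ω N) t) + algebraMap Ω (FNL Ω N) t ∈
        Ω⟮H33.jL Ω N - algebraMap Ω (FNL Ω N) t⟯ :=
      add_mem (mem_adjoin_simple_self Ω _) (IntermediateField.algebraMap_mem _ t)
    rwa [sub_add_cancel] at h1
  | algebraMap c =>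
    rw [H18.bc_algebraMap]
    exact IntermediateField.algebraMap_mem _ _
  | add x y _ _ hx hy => rw [map_add]; exact add_mem hx hy
  | inv x _ hx => rw [map_inv₀]; exact inv_mem hx
  | mul x y _ _ hx hy => rw [map_mul]; exact mul_mem hx hy

set_option synthInstance.maxHeartbeats 400000 in
set_option maxHeartbeats 1600000 in
/-- `[F : Ω(j - t)] ≤ [E : K(j)]`. -/
theorem finrank_FNL_le [FiniteDimensional K⟮H33.jL K N⟯ (FNL K N)] (t : Ω) :
    FiniteDimensional Ω⟮H33.jL Ω N - algebraMap Ω (FNL Ω N) t⟯ (FNL Ω N) ∧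
      Module.finrank Ω⟮H33.jL Ω N - algebraMap Ω (FNL Ω N) t⟯ (FNL Ω N) ≤
        Module.finrank K⟮H33.jL K N⟯ (FNL K N) := by
  letI iEF : Algebra (FNL K N) (FNL Ω N) := (H18.bc K Ω N).toAlgebra
  letI iAF : Algebra K⟮H33.jL K N⟯ (FNL Ω N) :=
    ((H18.bc K Ω N).comp (algebraMap K⟮H33.jL K N⟯ (FNL K N))).toAlgebra
  letI iAB : Algebra K⟮H33.jL K N⟯ Ω⟮H33.jL Ω N - algebraMap Ω (FNL Ω N) t⟯ :=
    (RingHom.codRestrict ((H18.bc K Ω N).comp (algebraMap K⟮H33.jL K N⟯ (FNL K N)))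
      Ω⟮H33.jL Ω N - algebraMap Ω (FNL Ω N) t⟯ (fun a => bc_mem_adjoin_sub N t a.2)).toAlgebra
  refine @finrank_le_of_adjoin_range_eq_top K⟮H33.jL K N⟯ (FNL K N)
    Ω⟮H33.jL Ω N - algebraMap Ω (FNL Ω N) t⟯ (FNL Ω N) _ _ _ _ _ _ iAB iAF iEF
    (IsScalarTower.of_algebraMap_eq (fun a => rfl))
    (IsScalarTower.of_algebraMap_eq (fun a => rfl)) _ ?_
  rw [← IntermediateField.restrictScalars_eq_top_iff (K := Ω), eq_top_iff,
    ← H33.adjoin_genSet Ω N, adjoin_le_iff]
  rintro g ⟨z, hz, hzg⟩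
  refine subset_adjoin _ _ ⟨⟨coeffEmb K z,
    coeffEmb_mem_laurentBaseChange K (subset_adjoin ℚ _ hz)⟩, ?_⟩
  exact Subtype.ext ((GTor.H75.coeffMap_coeffEmb' _ z).trans hzg)

end E4

end Fermat.Agent.S17.W2.H75
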