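import Mathlib
import Fermat.Agent.RED.H51_ZerosLe

/-!
# S17-W2, GEO sub-leaf G-d (helper75): abstract counting lemmas

* `rank_le_of_adjoin_range_eq_top`: `[B(E) : B] ≤ [E : A]` for a square of fields `A → E`, `A → B`,
  `E, B → F` with `E / A` algebraic and `F = B(E)`.
* `card_algHom_eq_finrank`: the number of `A`-embeddings of a finite extension `E / A` of
  characteristic `0` into an algebraically closed field is `[E : A]`.
* `card_zeros_le_finrank`: at most `[F : K(x)]` zeros of `x`.
-/

set_option autoImplicit false
set_option linter.style.haveILetI false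
set_option linter.unusedSectionVars false

noncomputable section

namespace Fermat.Agent.S17.W2.H75

open AlgebraicCurve IntermediateField

section Rank

variable {A E B F : Type} [Field A] [Field E] [Field B] [Field F]
  [Algebra A E] [Algebra B F] [Algebra A B] [Algebra A F] [Algebra E F]
  [IsScalarTower A B F] [IsScalarTower A E F]

/-- `[B(E) : B] ≤ [E : A]`. -/
theorem rank_le_of_adjoin_range_eq_top [Algebra.IsAlgebraic A E]
    (h : IntermediateField.adjoin B (Set.range (algebraMap E F)) = ⊤) :
    Module.rank B F ≤ Module.rank A E := by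
  let f : E →ₐ[A] F := IsScalarTower.toAlgHom A E F
  let L : IntermediateField A F := f.fieldRange
  let e : E ≃ₐ[A] L := AlgEquiv.ofInjectiveField f
  haveI : Algebra.IsAlgebraic A L := e.isAlgebraic
  have h1 := IntermediateField.adjoin_rank_le_of_isAlgebraic_right B L
  have h2 : (L : Set F) = Set.range (algebraMap E F) := by
    ext y
    simp [L, f]
  rw [h2, h, IntermediateField.rank_top'] at h1
  rwa [← e.toLinearEquiv.rank_eq] at h1

/-- `[B(E) : B] ≤ [E : A]`, finite form. -/
theorem finrank_le_of_adjoin_range_eq_top [FiniteDimensional A E]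
    (h : IntermediateField.adjoin B (Set.range (algebraMap E F)) = ⊤) :
    FiniteDimensional B F ∧ Module.finrank B F ≤ Module.finrank A E := by
  haveI : Algebra.IsAlgebraic A E := Algebra.IsAlgebraic.of_finite A E
  have h1 := rank_le_of_adjoin_range_eq_top (A := A) (E := E) (B := B) (F := F) h
  have h2 : Module.rank A E < Cardinal.aleph0 := Module.rank_lt_aleph0 A E
  refine ⟨Module.rank_lt_aleph0_iff.mp (h1.trans_lt h2), ?_⟩
  exact Cardinal.toNat_le_toNat h1 h2

end Rank

section Emb

/-- The number of embeddings of a finite extension in characteristic zero. -/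
theorem card_algHom_eq_finrank (A E Ω : Type) [Field A] [Field E] [Field Ω] [Algebra A E]
    [Algebra A Ω] [FiniteDimensional A E] [CharZero A] [IsAlgClosed Ω] :
    Nat.card (E →ₐ[A] Ω) = Module.finrank A E := by
  haveI : Algebra.IsAlgebraic A E := Algebra.IsAlgebraic.of_finite A E
  rw [← Field.finSepDegree_eq_of_isAlgClosed A E Ω,
    Field.finSepDegree_eq_finrank_of_isSeparable]

end Emb

section Zeros

variable {K F : Type} [Field K] [Field F] [Algebra K F]

/-- A function `x` has at most `[F : K(x)]` zeros. -/
theorem card_zeros_le_finrank (x : F) [FiniteDimensional K⟮x⟯ F] (S : Finset (Place K F))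
    (hS : ∀ v ∈ S, 0 < v.ord x) : S.card ≤ Module.finrank K⟮x⟯ F := by
  have h1 := Fermat.Agent.RED.H51.sum_ord_le_finrank x S hS
  have h2 : (S.card : ℤ) ≤ ∑ v ∈ S, v.ord x := by
    rw [Finset.card_eq_sum_ones, Nat.cast_sum]
    refine Finset.sum_le_sum fun v hv => ?_
    have := hS v hv
    push_cast
    omega
  exact_mod_cast h2.trans h1

end Zeros

end Fermat.Agent.S17.W2.H75
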