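import Fermat.Agent.S17.W2.H75_GE4

/-!
# S17-W2, GEO sub-leaf G-d (helper75): `Stmt_E4`, the counting argument
-/

set_option autoImplicit false
set_option linter.style.haveILetI false
set_option linter.unusedSectionVars false

noncomputable section

namespace Fermat.Agent.S17.W2.H75

open AlgebraicCurve IntermediateField ModularCurve Fermat.Agent.GTor Fermat.Agent.RED Polynomial

section E4

variable {K Ω : Type} [Field K] [Field Ω] [Algebra ℚ K] [Algebra ℚ Ω] [Algebra K Ω] (N : ℕ)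
  [NeZero N] [IsAlgClosed Ω] [CharZero Ω]

set_option synthInstance.maxHeartbeats 400000 in
set_option maxHeartbeats 1600000 in
/-- Every `K`-embedding `ψ` of `E` with `ψ j = t` is the evaluation at a zero of `j - t`. -/
theorem exists_place_of_hom (hGb : H18.Stmt_Gb K N) {P : Place Ω (FNL Ω N)} {t : Ω}
    (hP : H18.ZeroAt N P t) (ht : Transcendental K t) (ψ : FNL K N →+* Ω)
    (hψc : ∀ c : K, ψ (algebraMap K (FNL K N) c) = algebraMap K Ω c)
    (hψj : ψ (H33.jL K N) = t) :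
    ∃ R : Place Ω (FNL Ω N), H18.ZeroAt N R t ∧ H18.IsEv N R ψ := by
  obtain ⟨φ, hφ, hφj, hφc⟩ := H18.stmt_E12 N hGb P t hP ht
  let φ' : FNL K N →ₐ[K] Ω := { φ with commutes' := hφc }
  let ψ' : FNL K N →ₐ[K] Ω := { ψ with commutes' := hψc }
  have halg : Algebra.IsAlgebraic (IntermediateField.adjoin K {H33.jL K N}) (FNL K N) :=
    ⟨fun e => hGb e⟩
  obtain ⟨A, hAfin, hA⟩ := H56.exists_finite_transcendenceBasis (H33.jL K N) halg
  obtain ⟨σ, hσ⟩ := H56.exists_algEquiv_conj A hAfin hA φ' ψ'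
  let τ : Ω ≃ₐ[ℚ] Ω := AlgEquiv.ofRingEquiv (f := σ.toRingEquiv) (fun q => by
    rw [eq_ratCast]
    exact map_ratCast σ.toRingEquiv q)
  have hτ : ∀ a : Ω, τ a = σ a := fun _ => rfl
  have hτK : ∀ c : K, τ (algebraMap K Ω c) = algebraMap K Ω c := fun c => by
    rw [hτ]
    exact σ.commutes c
  have h3 := H18.stmt_E3 (K := K) (Ω := Ω) N P φ τ hτK hφ
  have h4 : H18.IsEv N (arithmeticGalois (modularFunctionFieldFull N) τ • P) ψ :=
    H18.isEv_congr N h3 fun e => hσ e
  have h5 := H18.zeroAt_smul N hP τ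
  have h6 : τ t = t := by
    calc τ t = σ (φ' (H33.jL K N)) := by rw [hτ]; exact congrArg σ hφj.symm
      _ = ψ' (H33.jL K N) := hσ _
      _ = t := hψj
  rw [h6] at h5
  exact ⟨_, h5, h4⟩

set_option synthInstance.maxHeartbeats 400000 in
set_option maxHeartbeats 3200000 in
/-- **E4** (counting): two zeros of `j - t`, `t` transcendental over `K`, with the same
evaluation homomorphism on `K(X₀(N))` are equal. -/
theorem stmt_E4 (hGb : H18.Stmt_Gb K N) : H18.Stmt_E4 K Ω N := by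
  intro P Q t hP hQ ht φ hφP hφQ
  classical
  by_contra hPQ
  -- `φ` is a `K`-algebra homomorphism with `φ j = t`
  obtain ⟨φ', hφ', hφ'j, hφ'c⟩ := H18.stmt_E12 N hGb P t hP ht
  have hφφ' : ∀ e, φ e = φ' e := fun e => H18.HasVal.unique (hφP e) (hφ' e)
  have hφj : φ (H33.jL K N) = t := by rw [hφφ', hφ'j]
  have hφc : ∀ c, φ (algebraMap K (FNL K N) c) = algebraMap K Ω c := fun c => by
    rw [hφφ', hφ'c]
  -- degrees
  haveI hfinE : FiniteDimensional K⟮H33.jL K N⟯ (FNL K N) := finiteDimensional_of_Gb N hGb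
  obtain ⟨hfinF, hle⟩ := finrank_FNL_le (K := K) (Ω := Ω) N t
  haveI := hfinF
  haveI : CharZero K := charZero_of_injective_algebraMap (algebraMap ℚ K).injective
  haveI : CharZero K⟮H33.jL K N⟯ :=
    charZero_of_injective_algebraMap (algebraMap K K⟮H33.jL K N⟯).injective
  -- the embeddings over `K(j)`
  letI iAΩ : Algebra K⟮H33.jL K N⟯ Ω :=
    (φ.comp (algebraMap K⟮H33.jL K N⟯ (FNL K N))).toAlgebra
  have hcard := card_algHom_eq_finrank K⟮H33.jL K N⟯ (FNL K N) Ω
  have hpos : 0 < Module.finrank K⟮H33.jL K N⟯ (FNL K N) := Module.finrank_pos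
  haveI : Finite (FNL K N →ₐ[K⟮H33.jL K N⟯] Ω) :=
    Nat.finite_of_card_ne_zero (by rw [hcard]; exact hpos.ne')
  haveI := Fintype.ofFinite (FNL K N →ₐ[K⟮H33.jL K N⟯] Ω)
  have hex : ∀ ψ : FNL K N →ₐ[K⟮H33.jL K N⟯] Ω,
      ∃ R : Place Ω (FNL Ω N), H18.ZeroAt N R t ∧ H18.IsEv N R (ψ : FNL K N →+* Ω) := by
    intro ψ
    refine exists_place_of_hom N hGb hP ht (ψ : FNL K N →+* Ω) (fun c => ?_) ?_
    · have h1 := ψ.commutes (algebraMap K K⟮H33.jL K N⟯ c)
      exact h1.trans (hφc c)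
    · have h1 := ψ.commutes ⟨H33.jL K N, mem_adjoin_simple_self K _⟩
      exact h1.trans hφj
  choose R hRz hRev using hex
  have hRinj : Function.Injective R := by
    intro ψ ψ' h
    refine AlgHom.ext fun e => ?_
    have h1 := hRev ψ e
    have h2 := hRev ψ' e
    rw [← h] at h2
    exact H18.HasVal.unique h1 h2
  let φA : FNL K N →ₐ[K⟮H33.jL K N⟯] Ω := { φ with commutes' := fun a => rfl }
  obtain ⟨P', hP'z, hP'ev, hP'ne⟩ : ∃ P' : Place Ω (FNL Ω N),
      H18.ZeroAt N P' t ∧ H18.IsEv N P' φ ∧ P' ≠ R φA := by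
    by_cases h : P = R φA
    · exact ⟨Q, hQ, hφQ, fun h' => hPQ (h.trans h'.symm)⟩
    · exact ⟨P, hP, hφP, h⟩
  have hP'notin : P' ∉ Finset.univ.image R := by
    intro hmem
    obtain ⟨ψ, -, hψ⟩ := Finset.mem_image.mp hmem
    have h1 : ψ = φA := by
      refine AlgHom.ext fun e => ?_
      have h2 := hRev ψ e
      rw [hψ] at h2
      exact H18.HasVal.unique h2 (hP'ev e)
    exact hP'ne (by rw [← hψ, h1])
  have hS := card_zeros_le_finrank (H33.jL Ω N - algebraMap Ω (FNL Ω N) t)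
    (insert P' (Finset.univ.image R)) (by
      intro v hv
      rcases Finset.mem_insert.mp hv with rfl | hv
      · exact hP'z
      · obtain ⟨ψ, -, rfl⟩ := Finset.mem_image.mp hv
        exact hRz ψ)
  rw [Finset.card_insert_of_notMem hP'notin, Finset.card_image_of_injective _ hRinj,
    Finset.card_univ, ← Nat.card_eq_fintype_card, hcard] at hS
  omega

end E4

end Fermat.Agent.S17.W2.H75
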