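import Fermat.Agent.S17.W2.Generic

/-!
# S17-W2, CORE part 8 (ML): the main lemma (helper8)

`v = cls (P₁ + ⋯ + P_g)` generic over `k(s)`.  If `w` is a class such that `v` is algebraic over
every `k(s')`, `s' ⊇ s`, over which `w` is algebraic, then `w = cls (Q₁ + ⋯ + Q_g)` with
`(Q_i)` generic over `k(s)`.
-/

set_option autoImplicit false

noncomputable section

namespace Fermat.Agent.S17.W2

open AlgebraicCurve WithZero Fermat.Agent.RED.H51 Fermat.Agent.RED.H42 IntermediateField

variable {k Ω F : Type} [Field k] [Field Ω] [Field F] [Algebra k Ω] [Algebra Ω F]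
variable {S : Setting k Ω F}

local notation "L" => riemannRochSpace

theorem gdiv_apply_pos {r : ℕ} (P : Fin r → Place Ω F) (i : Fin r) : 1 ≤ gdiv P (P i) := by
  classical
  unfold gdiv
  rw [Finsupp.finsetSum_apply]
  have h1 : (Finsupp.single (P i) (1 : ℤ)) (P i) ≤ ∑ j, (Finsupp.single (P j) (1 : ℤ)) (P i) :=
    Finset.single_le_sum (f := fun j => (Finsupp.single (P j) (1 : ℤ)) (P i))
      (fun j _ => by
        show 0 ≤ (Finsupp.single (P j) (1 : ℤ)) (P i)
        rw [Finsupp.single_apply]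
        split_ifs <;> simp) (Finset.mem_univ i)
  rwa [Finsupp.single_eq_same] at h1

/-- Elements of `s` are algebraic over `k(s)`. -/
theorem isAlgebraic_of_mem {s : Set Ω} {a : Ω} (ha : a ∈ s) :
    IsAlgebraic (IntermediateField.adjoin k s) a := by
  have hmem : a ∈ IntermediateField.adjoin k s := IntermediateField.subset_adjoin k s ha
  exact isAlgebraic_algebraMap (⟨a, hmem⟩ : IntermediateField.adjoin k s)

theorem main_lemma {g : ℕ} {c : ℤ} (C : CoreHyp S g c) {s : Set Ω} (hs : s.Finite)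
    {P : Fin g → Place Ω F} {t : Fin g → Ω} (hP : IsGen S s P t) (w : Pic0 Ω F)
    (hw : ∀ s' : Set Ω, s'.Finite → s ⊆ s' → FinOrb S.ρ (Gs k Ω s') w →
      FinOrb S.ρ (Gs k Ω s') (cls C.hyp S.oo (gdiv P))) :
    ∃ (Q : Fin g → Place Ω F) (q : Fin g → Ω), IsGen S s Q q ∧ w = cls C.hyp S.oo (gdiv Q) := by
  classical
  obtain ⟨Dw, hDw, hclsw, hdegw⟩ := canon_exists C.hyp S.oo g C.riemann_le w
  -- the non-poles in the support of `Dw`
  set U' : Finset (Place Ω F) := Dw.support.filter fun Q => ¬ Q.ord S.j < 0 with hU'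
  have hval : ∀ Q ∈ U', ∃ a, S.IsZeroAt Q a := by
    intro Q hQ
    rw [hU', Finset.mem_filter] at hQ
    exact (S.pole_or_isZeroAt C.hyp Q C.hj).resolve_left hQ.2
  obtain ⟨r, hr⟩ : ∃ r, U'.card = r := ⟨_, rfl⟩
  let e : ↥U' ≃ Fin r := U'.equivFinOfCardEq hr
  let Q : Fin r → Place Ω F := fun i => ((e.symm i : ↥U') : Place Ω F)
  have hQmem : ∀ i, Q i ∈ U' := fun i => (e.symm i).2
  choose q hq using fun i => hval (Q i) (hQmem i)
  -- `D' = Σ_{U'} P ≤ Dw`
  have hgdivQ : gdiv Q = ∑ R ∈ U', (Finsupp.single R 1 : Divisor Ω F) := by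
    unfold gdiv
    rw [← Finset.sum_coe_sort U' fun R => (Finsupp.single R 1 : Divisor Ω F)]
    exact Fintype.sum_equiv e.symm _ _ fun i => rfl
  have hle : gdiv Q ≤ Dw := by
    rw [hgdivQ, Finsupp.le_def]
    intro R
    have hR0 := Finsupp.le_def.mp hDw.1 R
    simp only [Finsupp.coe_zero, Pi.zero_apply] at hR0
    by_cases hR : R ∈ U'
    · rw [Finsupp.finsetSum_apply, Finset.sum_eq_single_of_mem R hR
        (fun R' _ hne => by rw [Finsupp.single_apply, if_neg hne]), Finsupp.single_eq_same]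
      rw [hU', Finset.mem_filter, Finsupp.mem_support_iff] at hR
      omega
    · rw [sum_single_apply_of_notMem U' hR]
      exact hR0
  have hrg : r ≤ g := by
    have h1 := degree_mono hle
    rw [degree_gdiv C.hyp] at h1
    exact_mod_cast h1.trans hdegw
  -- all points of `Dw` are algebraic over `k(s')`
  set s' : Set Ω := s ∪ Set.range q with hs'
  have hs'fin : s'.Finite := hs.union (Set.finite_range q)
  have hDwfin : FinOrb S.ρ (Gs k Ω s') Dw := by
    rw [S.finOrb_divisor_iff]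
    intro R hR
    by_cases hpole : R.ord S.j < 0
    · exact S.finOrb_of_pole C.hyp C.hj _ hpole
    · have hRU : R ∈ U' := by
        rw [hU', Finset.mem_filter]
        exact ⟨hR, hpole⟩
      have hRQ : Q (e ⟨R, hRU⟩) = R := by
        simp only [Q, Equiv.symm_apply_apply]
      have hz := hq (e ⟨R, hRU⟩)
      rw [hRQ] at hz
      exact S.finOrb_of_isAlgebraic C.hyp C.hj s' hz
        (isAlgebraic_of_mem (Or.inr ⟨e ⟨R, hRU⟩, rfl⟩))
  have hwfin : FinOrb S.ρ (Gs k Ω s') w := by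
    rw [← hclsw, S.finOrb_cls_iff C.hyp hDw]
    exact hDwfin
  have hvfin := hw s' hs'fin Set.subset_union_left hwfin
  have hcanP := isCanon_gdiv C hs le_rfl hP
  rw [S.finOrb_cls_iff C.hyp hcanP, S.finOrb_divisor_iff] at hvfin
  have htalg : ∀ i, IsAlgebraic (IntermediateField.adjoin k (s ∪ Set.range q)) (t i) := by
    intro i
    refine S.isAlgebraic_of_finOrb C.ft1 C.big hs'fin (hP.zero i) (hvfin (P i) ?_)
    rw [Finsupp.mem_support_iff]
    have := gdiv_apply_pos P i
    omega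
  obtain ⟨hrg', hqind⟩ := C.ft4 s g r t q hrg hP.indep htalg
  subst hrg'
  refine ⟨Q, q, ⟨hq, hqind⟩, ?_⟩
  rw [← hclsw]
  congr 1
  have hsub : 0 ≤ Dw - gdiv Q := sub_nonneg.mpr hle
  have hdeg0 : Divisor.degree (Dw - gdiv Q) ≤ 0 := by
    rw [map_sub, degree_gdiv C.hyp]
    omega
  have := eq_zero_of_nonneg_of_degree C.hyp hsub hdeg0
  exact sub_eq_zero.mp this

end Fermat.Agent.S17.W2
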