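import Fermat.Agent.S17.W2.Defs

/-!
# S17-W2, CORE part 1: finite orbits (helper8)

`G` acts on a type `X` through `ρ : G →* M` and an action of `M`.  `FinOrb ρ H x` says that the
orbit of `x` under the subgroup `H` is finite.
-/

set_option autoImplicit false

noncomputable section

namespace Fermat.Agent.S17.W2

open AlgebraicCurve

section General

variable {G M X : Type*} [Group G] [Group M] [MulAction M X] (ρ : G →* M)

/-- The orbit of `x` under `H`. -/
def orb (H : Subgroup G) (x : X) : Set X := {y | ∃ σ ∈ H, ρ σ • x = y}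

/-- The orbit of `x` under `H` is finite. -/
def FinOrb (H : Subgroup G) (x : X) : Prop := (orb ρ H x).Finite

theorem mem_orb_self (H : Subgroup G) (x : X) : x ∈ orb ρ H x :=
  ⟨1, H.one_mem, by rw [map_one, one_smul]⟩

theorem smul_mem_orb {H : Subgroup G} {x y : X} (hy : y ∈ orb ρ H x) {σ : G} (hσ : σ ∈ H) :
    ρ σ • y ∈ orb ρ H x := by
  obtain ⟨τ, hτ, rfl⟩ := hy
  exact ⟨σ * τ, H.mul_mem hσ hτ, by rw [map_mul, mul_smul]⟩

theorem FinOrb.mono {H H' : Subgroup G} (h : H' ≤ H) {x : X} (hx : FinOrb ρ H x) :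
    FinOrb ρ H' x :=
  hx.subset fun _ ⟨σ, hσ, e⟩ => ⟨σ, h hσ, e⟩

/-- An element of a finite stable set has a finite orbit. -/
theorem finOrb_of_stable {H : Subgroup G} {T : Set X} (hT : T.Finite)
    (hst : ∀ σ ∈ H, ∀ y ∈ T, ρ σ • y ∈ T) {x : X} (hx : x ∈ T) : FinOrb ρ H x :=
  hT.subset fun _ ⟨σ, hσ, e⟩ => e ▸ hst σ hσ x hx

/-- An element fixed by `H` has a finite orbit. -/
theorem finOrb_of_fixed {H : Subgroup G} {x : X} (h : ∀ σ ∈ H, ρ σ • x = x) : FinOrb ρ H x :=
  finOrb_of_stable ρ (Set.finite_singleton x)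
    (fun σ hσ y hy => by rw [Set.mem_singleton_iff] at hy ⊢; rw [hy, h σ hσ]) rfl

/-- Finite orbits pass along equivariant maps. -/
theorem FinOrb.map {Y : Type*} [MulAction M Y] {H : Subgroup G} {x : X} (hx : FinOrb ρ H x)
    (f : X → Y) (hf : ∀ σ ∈ H, f (ρ σ • x) = ρ σ • f x) : FinOrb ρ H (f x) := by
  refine (hx.image f).subset ?_
  rintro _ ⟨σ, hσ, rfl⟩
  exact ⟨ρ σ • x, ⟨σ, hσ, rfl⟩, hf σ hσ⟩

/-- Finite orbits pull back along equivariant maps with finite fibres over the orbit. -/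
theorem FinOrb.of_finite_fibres {Y : Type*} [MulAction M Y] {H : Subgroup G} {x : X}
    (f : X → Y) (hf : ∀ σ ∈ H, f (ρ σ • x) = ρ σ • f x) (hy : FinOrb ρ H (f x))
    (hfib : ∀ y ∈ orb ρ H (f x), (f ⁻¹' {y}).Finite) : FinOrb ρ H x := by
  have : orb ρ H x ⊆ ⋃ y ∈ orb ρ H (f x), f ⁻¹' {y} := by
    rintro _ ⟨σ, hσ, rfl⟩
    simp only [Set.mem_iUnion, Set.mem_preimage, Set.mem_singleton_iff, exists_prop]
    exact ⟨ρ σ • f x, ⟨σ, hσ, rfl⟩, hf σ hσ⟩
  exact (hy.biUnion hfib).subset this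

/-- Finite orbits pull back along maps which are equivariant and injective on the orbit. -/
theorem FinOrb.of_injOn {Y : Type*} [MulAction M Y] {H : Subgroup G} {x : X}
    (f : X → Y) (hf : ∀ σ ∈ H, f (ρ σ • x) = ρ σ • f x) (hy : FinOrb ρ H (f x))
    (hinj : Set.InjOn f (orb ρ H x)) : FinOrb ρ H x := by
  refine Set.Finite.of_finite_image (hy.subset ?_) hinj
  rintro _ ⟨_, ⟨σ, hσ, rfl⟩, rfl⟩
  exact ⟨σ, hσ, (hf σ hσ).symm⟩

end General

section Additive

variable {G M A : Type*} [Group G] [Group M] [AddCommGroup A] [DistribMulAction M A]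
  (ρ : G →* M)

theorem FinOrb.zero (H : Subgroup G) : FinOrb ρ H (0 : A) :=
  finOrb_of_fixed ρ fun _ _ => smul_zero _

theorem FinOrb.add {H : Subgroup G} {x y : A} (hx : FinOrb ρ H x) (hy : FinOrb ρ H y) :
    FinOrb ρ H (x + y) := by
  refine (Set.Finite.image2 (fun a b => a + b) hx hy).subset ?_
  rintro _ ⟨σ, hσ, rfl⟩
  exact ⟨ρ σ • x, ⟨σ, hσ, rfl⟩, ρ σ • y, ⟨σ, hσ, rfl⟩, (smul_add _ _ _).symm⟩

theorem FinOrb.neg {H : Subgroup G} {x : A} (hx : FinOrb ρ H x) : FinOrb ρ H (-x) :=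
  hx.map ρ (fun a => -a) fun _ _ => (smul_neg _ _).symm

theorem FinOrb.sub {H : Subgroup G} {x y : A} (hx : FinOrb ρ H x) (hy : FinOrb ρ H y) :
    FinOrb ρ H (x - y) := by
  rw [sub_eq_add_neg]
  exact hx.add ρ (hy.neg ρ)

theorem FinOrb.sum {ι : Type*} {H : Subgroup G} (s : Finset ι) (f : ι → A)
    (h : ∀ i ∈ s, FinOrb ρ H (f i)) : FinOrb ρ H (∑ i ∈ s, f i) := by
  classical
  induction s using Finset.induction_on with
  | empty => simpa using FinOrb.zero ρ H
  | insert a s ha ih =>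
    rw [Finset.sum_insert ha]
    exact (h a (Finset.mem_insert_self a s)).add ρ
      (ih fun i hi => h i (Finset.mem_insert_of_mem hi))

/-- If the `n`-torsion is finite, an `n`-th root of an element with finite orbit has a finite
orbit. -/
theorem FinOrb.of_nsmul {H : Subgroup G} {n : ℕ} (htors : {x : A | n • x = 0}.Finite) {u : A}
    (hu : FinOrb ρ H (n • u)) : FinOrb ρ H u := by
  have hcomm : ∀ (m : M) (a : A), m • (n • a) = n • (m • a) := fun m a =>
    map_nsmul (DistribSMul.toAddMonoidHom A m) n a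
  refine FinOrb.of_finite_fibres ρ (fun a : A => n • a) (fun σ _ => (hcomm _ _).symm)
    hu fun y _ => ?_
  · by_cases hne : ((fun a : A => n • a) ⁻¹' {y}).Nonempty
    · obtain ⟨a, ha⟩ := hne
      have ha' : n • a = y := ha
      refine (htors.image (fun b => a + b)).subset ?_
      intro c hc
      have hc' : n • c = y := hc
      refine ⟨c - a, ?_, by simp⟩
      show n • (c - a) = 0
      rw [smul_sub, hc', ha', sub_self]
    · rw [Set.not_nonempty_iff_eq_empty.mp hne]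
      exact Set.finite_empty

end Additive

end Fermat.Agent.S17.W2
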