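import Fermat.Agent.S17.W2.Places

/-!
# S17-W2, CORE part 3: places with finite orbit (helper8)

A place has a finite orbit under `Aut(Ω / k(s))` iff it is a pole of `j` or its `j`-value is
algebraic over `k(s)`.
-/

set_option autoImplicit false

noncomputable section

namespace Fermat.Agent.S17.W2

open AlgebraicCurve WithZero Fermat.Agent.RED.H51 IntermediateField

variable {k Ω F : Type} [Field k] [Field Ω] [Field F] [Algebra k Ω] [Algebra Ω F]

/-- **FT2**: an element algebraic over `k(s)` has a finite orbit under `Aut(Ω / k(s))`. -/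
theorem finite_orbit_of_isAlgebraic (s : Set Ω) {c : Ω}
    (hc : IsAlgebraic (IntermediateField.adjoin k s) c) :
    {d : Ω | ∃ σ ∈ Gs k Ω s, σ c = d}.Finite := by
  classical
  have hp0 : minpoly (IntermediateField.adjoin k s) c ≠ 0 := minpoly.ne_zero hc.isIntegral
  refine ((minpoly (IntermediateField.adjoin k s) c).rootSet_finite Ω).subset ?_
  rintro _ ⟨σ, hσ, rfl⟩
  let σ' : Ω ≃ₐ[IntermediateField.adjoin k s] Ω :=
    IntermediateField.fixingSubgroupEquiv (IntermediateField.adjoin k s) ⟨σ, hσ⟩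
  have hσ' : σ' c = σ c := rfl
  rw [Polynomial.mem_rootSet_of_ne hp0, ← hσ']
  have := Polynomial.aeval_algHom_apply (σ' : Ω →ₐ[IntermediateField.adjoin k s] Ω) c
    (minpoly (IntermediateField.adjoin k s) c)
  rw [minpoly.aeval, map_zero] at this
  exact this

variable (S : Setting k Ω F)

/-- The action on places, as an action of `Aut(Ω / k)`-orbits: `j`-values of an orbit. -/
theorem Setting.orbit_value_subset {H : Subgroup (Ω ≃ₐ[k] Ω)} {P : Place Ω F} {t : Ω}
    (hP : S.IsZeroAt P t) (val : Place Ω F → Ω)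
    (hval : ∀ Q c, S.IsZeroAt Q c → val Q = c) :
    {d : Ω | ∃ σ ∈ H, σ t = d} ⊆ val '' orb S.ρ H P := by
  rintro _ ⟨σ, hσ, rfl⟩
  exact ⟨S.ρ σ • P, ⟨σ, hσ, rfl⟩, hval _ _ (S.isZeroAt_smul hP σ)⟩

/-- A place with finite orbit whose `j`-value is `t`: the orbit of `t` is finite. -/
theorem Setting.finite_orbit_value {H : Subgroup (Ω ≃ₐ[k] Ω)} {P : Place Ω F} {t : Ω}
    (hP : S.IsZeroAt P t) (hfin : FinOrb S.ρ H P) : {d : Ω | ∃ σ ∈ H, σ t = d}.Finite := by
  classical
  let val : Place Ω F → Ω := fun Q => if h : ∃ c, S.IsZeroAt Q c then h.choose else 0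
  have hval : ∀ Q c, S.IsZeroAt Q c → val Q = c := by
    intro Q c hc
    have h : ∃ c, S.IsZeroAt Q c := ⟨c, hc⟩
    simp only [val, dif_pos h]
    exact S.isZeroAt_unique h.choose_spec hc
  exact (hfin.image val).subset (S.orbit_value_subset hP val hval)

section Hyp

variable (H : Fermat.Agent.RED.H42.Hyp Ω F) (hj : ∀ c : Ω, S.j ≠ algebraMap Ω F c)
include H hj

/-- Poles of `j` have finite orbits. -/
theorem Setting.finOrb_of_pole (G' : Subgroup (Ω ≃ₐ[k] Ω)) {P : Place Ω F}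
    (hP : P.ord S.j < 0) : FinOrb S.ρ G' P :=
  finOrb_of_stable S.ρ (S.finite_poles H hj)
    (fun σ _ Q hQ => by
      simp only [Set.mem_ofPred_eq] at hQ ⊢
      rwa [S.ord_j_smul]) hP

/-- Places with `j`-value algebraic over `k(s)` have finite orbits under `Aut(Ω / k(s))`. -/
theorem Setting.finOrb_of_isAlgebraic (s : Set Ω) {P : Place Ω F} {t : Ω}
    (hP : S.IsZeroAt P t) (ht : IsAlgebraic (IntermediateField.adjoin k s) t) :
    FinOrb S.ρ (Gs k Ω s) P := by
  have hfin := finite_orbit_of_isAlgebraic s ht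
  have hT : (⋃ d ∈ {d : Ω | ∃ σ ∈ Gs k Ω s, σ t = d}, {Q : Place Ω F | S.IsZeroAt Q d}).Finite :=
    hfin.biUnion fun d _ => S.finite_zeros H hj d
  refine finOrb_of_stable S.ρ hT ?_ ?_
  · intro σ hσ Q hQ
    simp only [Set.mem_iUnion, Set.mem_ofPred_eq, exists_prop] at hQ ⊢
    obtain ⟨d, ⟨τ, hτ, rfl⟩, hQd⟩ := hQ
    exact ⟨σ (τ t), ⟨σ * τ, (Gs k Ω s).mul_mem hσ hτ, rfl⟩, S.isZeroAt_smul hQd σ⟩
  · simp only [Set.mem_iUnion, Set.mem_ofPred_eq, exists_prop]
    exact ⟨t, ⟨1, (Gs k Ω s).one_mem, rfl⟩, hP⟩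

omit H hj in
/-- A place with finite orbit under `Aut(Ω / k(s))` is a pole of `j` or has a `j`-value algebraic
over `k(s)`. -/
theorem Setting.isAlgebraic_of_finOrb (hFT1 : Stmt_FT1 k Ω) (hbig : Big k Ω) {s : Set Ω}
    (hs : s.Finite) {P : Place Ω F} {t : Ω} (hP : S.IsZeroAt P t)
    (hfin : FinOrb S.ρ (Gs k Ω s) P) : IsAlgebraic (IntermediateField.adjoin k s) t :=
  hFT1 hbig s hs t (S.finite_orbit_value hP hfin)

end Hyp

end Fermat.Agent.S17.W2
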