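import Fermat.Agent.S17.W2.Orbit
import Fermat.Agent.RED.H42_RiemannFinal
import Fermat.Agent.RED.H51_Ord

/-!
# S17-W2, CORE part 2: `j`-values of places and the action (helper8)
-/

set_option autoImplicit false

noncomputable section

namespace Fermat.Agent.S17.W2

open AlgebraicCurve WithZero Fermat.Agent.RED.H51

variable {k Ω F : Type} [Field k] [Field Ω] [Field F] [Algebra k Ω] [Algebra Ω F]
variable (S : Setting k Ω F)

theorem Setting.smul_algebraMap (σ : Ω ≃ₐ[k] Ω) (a : Ω) :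
    S.ρ σ • algebraMap Ω F a = algebraMap Ω F (σ a) := by
  rw [SemilinearAut.smul_algebraMap, S.baseAut_ρ]

theorem Setting.smul_j_sub (σ : Ω ≃ₐ[k] Ω) (t : Ω) :
    S.ρ σ • (S.j - algebraMap Ω F t) = S.j - algebraMap Ω F (σ t) := by
  rw [smul_sub, S.ρ_j, S.smul_algebraMap]

theorem Setting.isZeroAt_smul {P : Place Ω F} {t : Ω} (h : S.IsZeroAt P t) (σ : Ω ≃ₐ[k] Ω) :
    S.IsZeroAt (S.ρ σ • P) (σ t) := by
  unfold Setting.IsZeroAt at h ⊢
  rw [← S.smul_j_sub, SemilinearAut.ord_smul]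
  exact h

theorem Setting.ord_j_smul (P : Place Ω F) (σ : Ω ≃ₐ[k] Ω) :
    (S.ρ σ • P).ord S.j = P.ord S.j := by
  have := SemilinearAut.ord_smul (S.ρ σ) P S.j
  rwa [S.ρ_j] at this

theorem Setting.isZeroAt_unique {P : Place Ω F} {t t' : Ω} (h : S.IsZeroAt P t)
    (h' : S.IsZeroAt P t') : t = t' := by
  unfold Setting.IsZeroAt at h h'
  have h1 : OrdGe P 1 (S.j - algebraMap Ω F t) := Or.inr (by omega)
  have h2 : OrdGe P 1 (S.j - algebraMap Ω F t') := Or.inr (by omega)
  have h3 := h2.sub h1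
  have h4 : S.j - algebraMap Ω F t' - (S.j - algebraMap Ω F t) = algebraMap Ω F (t - t') := by
    rw [map_sub]; ring
  rw [h4] at h3
  rcases h3 with h3 | h3
  · exact sub_eq_zero.mp ((algebraMap Ω F).injective (h3.trans (map_zero _).symm))
  · rw [ord_algebraMap] at h3
    omega

theorem Setting.not_isZeroAt_of_pole {P : Place Ω F} (hP : P.ord S.j < 0) (t : Ω) :
    ¬ S.IsZeroAt P t := by
  intro h
  unfold Setting.IsZeroAt at h
  have h1 : OrdGe P 0 (S.j - algebraMap Ω F t) := Or.inr (by omega)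
  have h2 := h1.add (ordGe_algebraMap P t)
  rw [sub_add_cancel] at h2
  rcases h2 with h2 | h2
  · rw [h2, Place.ord_zero] at hP
    omega
  · omega

section Hyp

variable (H : Fermat.Agent.RED.H42.Hyp Ω F) (hj : ∀ c : Ω, S.j ≠ algebraMap Ω F c)
include H

theorem Setting.pole_or_isZeroAt (P : Place Ω F) (hj : ∀ c : Ω, S.j ≠ algebraMap Ω F c) :
    P.ord S.j < 0 ∨ ∃ t, S.IsZeroAt P t := by
  by_cases hp : P.ord S.j < 0
  · exact Or.inl hp
  right
  have hu : P.adicValuation S.j ≤ 1 := by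
    rw [P.adicValuation_le_one_iff]
    right
    omega
  obtain ⟨c, hc⟩ := Fermat.Agent.RED.H42.exists_const_sub_lt_one P (H.deg_one P) hu
  refine ⟨c, ?_⟩
  unfold Setting.IsZeroAt
  have hne : S.j - algebraMap Ω F c ≠ 0 := fun h0 => hj c (sub_eq_zero.mp h0)
  rw [P.adicValuation_eq_exp_neg_ord hne, ← exp_zero, exp_lt_exp] at hc
  omega

include hj

/-- The zeros of `j - t` form a finite set. -/
theorem Setting.finite_zeros (t : Ω) : {P : Place Ω F | S.IsZeroAt P t}.Finite := by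
  have hne : S.j - algebraMap Ω F t ≠ 0 := fun h0 => hj t (sub_eq_zero.mp h0)
  obtain ⟨D, hD, -⟩ := H.principal _ hne
  refine D.support.finite_toSet.subset ?_
  intro P hP
  simp only [Set.mem_ofPred_eq] at hP
  unfold Setting.IsZeroAt at hP
  simp only [Finset.mem_coe, Finsupp.mem_support_iff, hD P]
  omega

/-- The poles of `j` form a finite set. -/
theorem Setting.finite_poles : {P : Place Ω F | P.ord S.j < 0}.Finite := by
  have hne : S.j ≠ 0 := fun h0 => hj 0 (by rw [h0, map_zero])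
  obtain ⟨D, hD, -⟩ := H.principal _ hne
  refine D.support.finite_toSet.subset ?_
  intro P hP
  simp only [Set.mem_ofPred_eq] at hP
  simp only [Finset.mem_coe, Finsupp.mem_support_iff, hD P]
  omega

/-- `j - t` has a zero. -/
theorem Setting.exists_zero (t : Ω) : ∃ P : Place Ω F, S.IsZeroAt P t := by
  have hne : S.j - algebraMap Ω F t ≠ 0 := fun h0 => hj t (sub_eq_zero.mp h0)
  have hnr : (S.j - algebraMap Ω F t)⁻¹ ∉ Set.range (algebraMap Ω F) := by
    rintro ⟨c, hc⟩
    have h1 : S.j - algebraMap Ω F t = algebraMap Ω F c⁻¹ := by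
      rw [map_inv₀, hc, inv_inv]
    exact hj (c⁻¹ + t) (by rw [map_add, ← h1]; ring)
  obtain ⟨P, hP⟩ := H.exists_pole _ hnr
  refine ⟨P, ?_⟩
  unfold Setting.IsZeroAt
  rw [Place.ord_inv] at hP
  omega

end Hyp

end Fermat.Agent.S17.W2
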