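import Fermat.Agent.S17.W2.MainLemma

/-!
# S17-W2, CORE part 9 (B4): generic tuples are conjugate (helper8)
-/

set_option autoImplicit false

noncomputable section

namespace Fermat.Agent.S17.W2

open AlgebraicCurve WithZero Fermat.Agent.RED.H51 Fermat.Agent.RED.H42 IntermediateField

variable {k Ω F : Type} [Field k] [Field Ω] [Field F] [Algebra k Ω] [Algebra Ω F]
variable {S : Setting k Ω F}

/-- Automorphisms over `k(s)` preserve algebraic independence over `k(s)`. -/
theorem algebraicIndependent_comp_of_mem_Gs {s : Set Ω} {ι : Type*} {t : ι → Ω}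
    (ht : AlgebraicIndependent (IntermediateField.adjoin k s) t) {σ : Ω ≃ₐ[k] Ω}
    (hσ : σ ∈ Gs k Ω s) : AlgebraicIndependent (IntermediateField.adjoin k s) fun i => σ (t i) := by
  let σ' : Ω ≃ₐ[IntermediateField.adjoin k s] Ω :=
    IntermediateField.fixingSubgroupEquiv (IntermediateField.adjoin k s) ⟨σ, hσ⟩
  exact ht.map' (f := (σ' : Ω →ₐ[IntermediateField.adjoin k s] Ω)) σ'.injective

/-- FT5 for a head of length one. -/
theorem indep_tail (hFT5 : Stmt_FT5 k Ω) {s : Set Ω} {r : ℕ} {t : Fin (r + 1) → Ω}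
    (ht : AlgebraicIndependent (IntermediateField.adjoin k s) t) {T : Set Ω}
    (hT : ∀ c ∈ T, IsAlgebraic (IntermediateField.adjoin k (insert (t (Fin.last r)) s)) c) :
    AlgebraicIndependent (IntermediateField.adjoin k (insert (t (Fin.last r)) s ∪ T))
      fun i : Fin r => t i.castSucc := by
  let e : Unit ⊕ Fin r → Fin (r + 1) := Sum.elim (fun _ => Fin.last r) Fin.castSucc
  have he : Function.Injective e := by
    rintro (u | i) (u' | i') hii
    · rfl
    · exact absurd hii.symm (Fin.castSucc_lt_last i').ne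
    · exact absurd hii (Fin.castSucc_lt_last i).ne
    · exact congrArg Sum.inr (Fin.castSucc_injective r hii)
  have h1 : AlgebraicIndependent (IntermediateField.adjoin k s)
      (Sum.elim (fun _ : Unit => t (Fin.last r)) fun i : Fin r => t i.castSucc) := by
    have := ht.comp e he
    convert this using 1
    funext x
    rcases x with u | i <;> rfl
  have hset : s ∪ Set.range (fun _ : Unit => t (Fin.last r)) = insert (t (Fin.last r)) s := by
    ext x
    simp only [Set.mem_union, Set.mem_range, exists_const, Set.mem_insert_iff]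
    constructor
    · rintro (h | h)
      · exact Or.inr h
      · exact Or.inl h.symm
    · rintro (h | h)
      · exact Or.inr h.symm
      · exact Or.inl h
  have h2 := hFT5 s Unit (Fin r) (fun _ => t (Fin.last r)) (fun i => t i.castSucc) h1 T (by
    rw [hset]
    exact hT)
  rwa [hset] at h2

/-- **B4**: two generic tuples over `k(s)` are conjugate under `Aut(Ω / k(s))`. -/
theorem gen_trans {g : ℕ} {c : ℤ} (C : CoreHyp S g c) :
    ∀ (r : ℕ) {s : Set Ω}, s.Finite → ∀ {P Q : Fin r → Place Ω F} {t q : Fin r → Ω},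
      IsGen S s P t → IsGen S s Q q → ∃ σ ∈ Gs k Ω s, ∀ i, S.ρ σ • P i = Q i := by
  intro r
  induction r with
  | zero =>
    intro s _ P Q t q _ _
    exact ⟨1, (Gs k Ω s).one_mem, fun i => i.elim0⟩
  | succ r ih =>
    intro s hs P Q t q hP hQ
    obtain ⟨σ₁, hσ₁, hσ₁P⟩ := C.trans s hs (P (Fin.last r)) (Q (Fin.last r)) (t (Fin.last r))
      (q (Fin.last r)) (hP.zero _) (hQ.zero _) (hP.indep.transcendental _)
      (hQ.indep.transcendental _)
    obtain ⟨T, hTfin, hTalg, hTfix⟩ := C.stab s hs (Q (Fin.last r)) (q (Fin.last r)) (hQ.zero _)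
      (hQ.indep.transcendental _)
    set s' : Set Ω := insert (q (Fin.last r)) s ∪ T with hs'
    have hs'fin : s'.Finite := (hs.insert _).union hTfin
    have hss' : s ⊆ s' := fun x hx => Or.inl (Or.inr hx)
    -- the value of `σ₁` at the last `j`-value
    have hlast : σ₁ (t (Fin.last r)) = q (Fin.last r) := by
      have h1 := S.isZeroAt_smul (hP.zero (Fin.last r)) σ₁
      rw [hσ₁P] at h1
      exact S.isZeroAt_unique h1 (hQ.zero _)
    have hPind : AlgebraicIndependent (IntermediateField.adjoin k s) fun i => σ₁ (t i) :=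
      algebraicIndependent_comp_of_mem_Gs hP.indep hσ₁
    have hP' : IsGen S s' (fun i : Fin r => S.ρ σ₁ • P i.castSucc)
        (fun i : Fin r => σ₁ (t i.castSucc)) := by
      refine ⟨fun i => S.isZeroAt_smul (hP.zero _) σ₁, ?_⟩
      have := indep_tail C.ft5 hPind (T := T) (by
        show ∀ c ∈ T, IsAlgebraic (IntermediateField.adjoin k (insert (σ₁ (t (Fin.last r))) s)) c
        rw [hlast]
        exact hTalg)
      have hset : insert (σ₁ (t (Fin.last r))) s ∪ T = s' := by rw [hlast]
      rw [hset] at this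
      exact this
    have hQ' : IsGen S s' (fun i : Fin r => Q i.castSucc) (fun i : Fin r => q i.castSucc) :=
      ⟨fun i => hQ.zero _, indep_tail C.ft5 hQ.indep hTalg⟩
    obtain ⟨σ', hσ', hσ'P⟩ := ih hs'fin hP' hQ'
    refine ⟨σ' * σ₁, (Gs k Ω s).mul_mem (Gs_anti hss' hσ') hσ₁, fun i => ?_⟩
    rw [map_mul, mul_smul]
    refine Fin.lastCases ?_ (fun i => ?_) i
    · rw [hσ₁P]
      exact hTfix σ' hσ'
    · exact hσ'P i

end Fermat.Agent.S17.W2
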